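import Mathlib

/-!
# Actions on unit groups and on `Additive` (scoped in `Fermat.Agent.CFT`)
-/

namespace Fermat.Agent.CFT

variable {G M : Type*} [Monoid G]

scoped instance unitsAct [Monoid M] [MulDistribMulAction G M] : MulDistribMulAction G Mˣ where
  smul g u := Units.map (MulDistribMulAction.toMonoidHom M g) u
  one_smul u := Units.ext (one_smul G (u : M))
  mul_smul g h u := Units.ext (mul_smul g h (u : M))
  smul_mul g u v := Units.ext (smul_mul' g (u : M) v)
  smul_one g := Units.ext (smul_one g)

lemma val_unitsAct [Monoid M] [MulDistribMulAction G M] (g : G) (u : Mˣ) :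
    ((g • u : Mˣ) : M) = g • (u : M) := rfl

scoped instance additiveAct [Monoid M] [MulDistribMulAction G M] :
    DistribMulAction G (Additive M) where
  smul g a := Additive.ofMul (g • a.toMul)
  one_smul a := congrArg Additive.ofMul (one_smul G a.toMul)
  mul_smul g h a := congrArg Additive.ofMul (mul_smul g h a.toMul)
  smul_zero g := congrArg Additive.ofMul (smul_one g)
  smul_add g a b := congrArg Additive.ofMul (smul_mul' g a.toMul b.toMul)

lemma smul_ofMul [Monoid M] [MulDistribMulAction G M] (g : G) (m : M) :
    g • Additive.ofMul m = Additive.ofMul (g • m) := rfl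

lemma toMul_smul [Monoid M] [MulDistribMulAction G M] (g : G) (a : Additive M) :
    (g • a).toMul = g • a.toMul := rfl

end Fermat.Agent.CFT
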