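import Mathlib
set_option autoImplicit false
set_option linter.style.haveILetI false

/-! Representations of a finite group in characteristic zero are determined by their characters. -/

noncomputable section

open Module

namespace Fermat.Agent.CFT

variable {k G : Type*} [Field k] [CharZero k] [Group G] [Fintype G]

variable {V W : Type*} [AddCommGroup V] [Module k V] [FiniteDimensional k V]
  [AddCommGroup W] [Module k W] [FiniteDimensional k W]

local instance invertibleCardCharZero : Invertible (Nat.card G : k) :=
  invertibleOfNonzero (Nat.cast_ne_zero.2 Nat.card_pos.ne')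

omit [FiniteDimensional k V] in
theorem subrep_exists_isCompl (ρ : Representation k G V) (U : Subrepresentation ρ) :
    ∃ U' : Subrepresentation ρ, IsCompl U.toSubmodule U'.toSubmodule := by
  haveI : NeZero (Nat.card G : k) := ⟨Nat.cast_ne_zero.2 Nat.card_pos.ne'⟩
  haveI : IsSemisimpleModule (MonoidAlgebra k G) ρ.asModule := inferInstance
  haveI : ρ.IsSemisimpleRepresentation :=
    (Representation.isSemisimpleRepresentation_iff_isSemisimpleModule_asModule ρ).2 inferInstance
  obtain ⟨U', hU'⟩ := exists_isCompl U
  refine ⟨U', ⟨?_, ?_⟩⟩
  · rw [disjoint_iff, ← Subrepresentation.toSubmodule_inf, disjoint_iff.1 hU'.1]; rfl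
  · rw [codisjoint_iff, ← Subrepresentation.toSubmodule_sup, codisjoint_iff.1 hU'.2]; rfl

omit [CharZero k] [Fintype G] in
theorem subrep_char_add (ρ : Representation k G V) (U U' : Subrepresentation ρ)
    (h : IsCompl U.toSubmodule U'.toSubmodule) (g : G) :
    ρ.character g = U.toRepresentation.character g + U'.toRepresentation.character g := by
  let e := Submodule.prodEquivOfIsCompl U.toSubmodule U'.toSubmodule h
  have hc : ρ g = e.conj ((U.toRepresentation g).prodMap (U'.toRepresentation g)) := by
    refine LinearMap.ext fun v => ?_
    obtain ⟨⟨a, b⟩, rfl⟩ := e.surjective v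
    simp [e, LinearEquiv.conj_apply, map_add, Subrepresentation.toRepresentation]
  simp only [Representation.character, hc, LinearMap.trace_conj']
  exact LinearMap.trace_prodMap' _ _

theorem finrank_hom_eq_of_character_eq {U : Type*} [AddCommGroup U] [Module k U]
    [FiniteDimensional k U] (τ : Representation k G U) (ρ : Representation k G V)
    (σ : Representation k G W) (h : ρ.character = σ.character) :
    finrank k (Representation.IntertwiningMap τ ρ) = finrank k (Representation.IntertwiningMap τ σ) := by
  have h1 := Representation.card_inv_mul_sum_char_mul_char_eq_finrank τ ρ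
  have h2 := Representation.card_inv_mul_sum_char_mul_char_eq_finrank τ σ
  rw [h, h2] at h1
  exact (Nat.cast_injective h1).symm

/-- Equal characters give an equivariant linear equivalence. -/
theorem exists_equiv_of_character_eq {V W : Type*} [AddCommGroup V] [Module k V]
    [FiniteDimensional k V] [AddCommGroup W] [Module k W] [FiniteDimensional k W]
    (ρ : Representation k G V) (σ : Representation k G W) (h : ρ.character = σ.character) :
    ∃ e : V ≃ₗ[k] W, ∀ g v, e (ρ g v) = σ g (e v) := by
  suffices H : ∀ n, ∀ {V W : Type _} [AddCommGroup V] [Module k V] [FiniteDimensional k V]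
      [AddCommGroup W] [Module k W] [FiniteDimensional k W]
      (ρ : Representation k G V) (σ : Representation k G W),
      finrank k V = n → ρ.character = σ.character →
      ∃ e : V ≃ₗ[k] W, ∀ g v, e (ρ g v) = σ g (e v) from H _ ρ σ rfl h
  intro n
  induction n using Nat.strong_induction_on with
  | _ n ih =>
    intro V W _ _ _ _ _ _ ρ σ hn h
    have hdim : finrank k V = finrank k W :=
      Nat.cast_injective (R := k) (by
        rw [← Representation.char_one ρ, ← Representation.char_one σ, h])
    by_cases h0 : finrank k V = 0
    · haveI := finrank_zero_iff.1 h0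
      refine ⟨LinearEquiv.ofFinrankEq V W hdim, fun g v => ?_⟩
      haveI := finrank_zero_iff.1 (hdim ▸ h0 : finrank k W = 0)
      exact Subsingleton.elim _ _
    classical
    have hex : ∃ d, ∃ U : Subrepresentation ρ,
        0 < finrank k U.toSubmodule ∧ finrank k U.toSubmodule = d :=
      ⟨_, ⊤, by
        show 0 < finrank k (⊤ : Submodule k V)
        rw [finrank_top]; omega, rfl⟩
    obtain ⟨U, hUpos, hUd⟩ := Nat.find_spec hex
    have hmin : ∀ U₁ : Subrepresentation ρ, 0 < finrank k U₁.toSubmodule →
        finrank k U.toSubmodule ≤ finrank k U₁.toSubmodule := fun U₁ h₁ => by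
      rw [hUd]; exact Nat.find_min' hex ⟨U₁, h₁, rfl⟩
    -- a nonzero map out of a minimal `U` into `W`
    let ι : Representation.IntertwiningMap U.toRepresentation ρ :=
      ⟨U.toSubmodule.subtype, fun g => rfl⟩
    have hι : ι ≠ 0 := by
      intro h'
      haveI : Nontrivial U.toSubmodule := finrank_pos_iff.1 hUpos
      obtain ⟨x, hx⟩ := exists_ne (0 : U.toSubmodule)
      exact hx (Subtype.ext (congrArg (fun f : Representation.IntertwiningMap _ _ => f x) h'))
    have hpos : 0 < finrank k (Representation.IntertwiningMap U.toRepresentation σ) := by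
      rw [← finrank_hom_eq_of_character_eq U.toRepresentation ρ σ h]
      exact finrank_pos_iff_exists_ne_zero.2 ⟨ι, hι⟩
    obtain ⟨f, hf⟩ := finrank_pos_iff_exists_ne_zero.1 hpos
    have hf_comm : ∀ g u, f (U.toRepresentation g u) = σ g (f u) := fun g u =>
      LinearMap.congr_fun (f.2 g) u
    have hfinj : Function.Injective f := by
      let K : Subrepresentation ρ :=
        ⟨(LinearMap.ker f.toLinearMap).map U.toSubmodule.subtype, by
          rintro g _ ⟨u, hu, rfl⟩
          refine ⟨U.toRepresentation g u, ?_, rfl⟩
          have hu' : f u = 0 := hu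
          show f (U.toRepresentation g u) = 0
          rw [hf_comm, hu', map_zero]⟩
      by_contra hni
      have hKne : LinearMap.ker f.toLinearMap ≠ ⊥ := fun hb => hni (LinearMap.ker_eq_bot.1 hb)
      have hKtop : LinearMap.ker f.toLinearMap ≠ ⊤ := fun ht => hf (by
        ext u
        exact (ht ▸ Submodule.mem_top : u ∈ LinearMap.ker f.toLinearMap))
      have hKd : finrank k K.toSubmodule = finrank k (LinearMap.ker f.toLinearMap) :=
        Submodule.finrank_map_subtype_eq _ _
      have h1 := hmin K (by
        rw [hKd]; exact Nat.pos_of_ne_zero fun h' => hKne (Submodule.finrank_eq_zero.1 h'))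
      have h2 : finrank k (LinearMap.ker f.toLinearMap) < finrank k U.toSubmodule :=
        Submodule.finrank_lt hKtop
      omega
    -- complements
    let U₁ : Subrepresentation σ :=
      ⟨LinearMap.range f.toLinearMap, by
        rintro g _ ⟨u, rfl⟩
        exact ⟨U.toRepresentation g u, hf_comm g u⟩⟩
    obtain ⟨U', hU'⟩ := subrep_exists_isCompl ρ U
    obtain ⟨U₁', hU₁'⟩ := subrep_exists_isCompl σ U₁
    let e₁ : U.toSubmodule ≃ₗ[k] U₁.toSubmodule := LinearEquiv.ofInjective f.toLinearMap hfinj
    have he₁ : ∀ g u, e₁ (U.toRepresentation g u) = U₁.toRepresentation g (e₁ u) :=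
      fun g u => Subtype.ext (hf_comm g u)
    have hchar₁ : ∀ g, U.toRepresentation.character g = U₁.toRepresentation.character g := by
      intro g
      have : U₁.toRepresentation g = e₁.conj (U.toRepresentation g) := by
        refine LinearMap.ext fun w => ?_
        obtain ⟨u, rfl⟩ := e₁.surjective w
        simp [LinearEquiv.conj_apply, he₁]
      simp only [Representation.character, this, LinearMap.trace_conj']
    have hchar₂ : U'.toRepresentation.character = U₁'.toRepresentation.character := by
      funext g
      have a := subrep_char_add ρ U U' hU' g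
      have b := subrep_char_add σ U₁ U₁' hU₁' g
      rw [h, b, hchar₁ g] at a
      exact (add_left_cancel a).symm
    have hlt : finrank k U'.toSubmodule < n := by
      have := Submodule.finrank_add_eq_of_isCompl hU'
      omega
    obtain ⟨e₂, he₂⟩ := ih _ hlt U'.toRepresentation U₁'.toRepresentation rfl hchar₂
    let p := Submodule.prodEquivOfIsCompl _ _ hU'
    refine ⟨p.symm.trans ((e₁.prodCongr e₂).trans (Submodule.prodEquivOfIsCompl _ _ hU₁')),
      fun g v => ?_⟩
    obtain ⟨⟨a, b⟩, rfl⟩ := p.surjective v
    have hp : ρ g (p (a, b)) = p (U.toRepresentation g a, U'.toRepresentation g b) := by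
      simp [p, map_add, Subrepresentation.toRepresentation]
    simp only [LinearEquiv.trans_apply, hp, LinearEquiv.symm_apply_apply,
      LinearEquiv.prodCongr_apply, he₁, he₂]
    simp [map_add, Subrepresentation.toRepresentation]

end Fermat.Agent.CFT
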