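import Mathlib

/-!
# Equivariant Herbrand-type count for modules over a finite group of order prime to `p`

For an `𝔽_p[G]`-module `N` and a `ℤ[G]`-module `A` let `eHom ν ρ` be the group of equivariant
additive maps `N → A`.  `PhiIs ν ρ c` says that `|Hom_G(N, A/pA)| = |Hom_G(N, A)| * c`.
For `p ∤ |G|` this `c` is multiplicative in short exact sequences and equals `1` on finite modules.
-/

set_option autoImplicit false

namespace Fermat.Agent.CFT.EquivariantCount

variable {p : ℕ} [Fact p.Prime] {G : Type*} [Group G]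
variable {N : Type*} [AddCommGroup N] [Module (ZMod p) N] (ν : Representation (ZMod p) G N)

/-- Equivariant additive maps. -/
def eHom {A : Type*} [AddCommGroup A] (ρ : Representation ℤ G A) : AddSubgroup (N →+ A) where
  carrier := {f | ∀ (g : G) (n : N), f (ν g n) = ρ g (f n)}
  add_mem' hf hf' g n := by simp [hf g n, hf' g n]
  zero_mem' g n := by simp
  neg_mem' hf g n := by simp [hf g n]

lemma mem_eHom {A : Type*} [AddCommGroup A] {ρ : Representation ℤ G A} {f : N →+ A} :
    f ∈ eHom ν ρ ↔ ∀ (g : G) (n : N), f (ν g n) = ρ g (f n) := Iff.rfl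

lemma nsmul_eq_zero' (n : N) : p • n = 0 := by
  rw [← Nat.cast_smul_eq_nsmul (ZMod p), ZMod.natCast_self, zero_smul]

lemma nsmul_apply_eq_zero {A : Type*} [AddCommGroup A] (f : N →+ A) (n : N) : p • f n = 0 := by
  rw [← map_nsmul, nsmul_eq_zero', map_zero]

/-- The action on a stable subgroup. -/
def subRep {A : Type*} [AddCommGroup A] (ρ : Representation ℤ G A) (S : AddSubgroup A)
    (h : ∀ g a, a ∈ S → ρ g a ∈ S) : Representation ℤ G S where
  toFun g := (AddMonoidHom.mk' (fun a : S => (⟨ρ g a, h g a a.2⟩ : S))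
    fun a b => Subtype.ext (by simp)).toIntLinearMap
  map_one' := by apply LinearMap.ext; intro a; apply Subtype.ext; simp
  map_mul' g h := by apply LinearMap.ext; intro a; apply Subtype.ext; simp

@[simp] lemma coe_subRep {A : Type*} [AddCommGroup A] (ρ : Representation ℤ G A) (S : AddSubgroup A)
    (h : ∀ g a, a ∈ S → ρ g a ∈ S) (g : G) (a : S) : ((subRep ρ S h g a : S) : A) = ρ g a := rfl

/-- The action on the quotient by a stable subgroup. -/
def quotRep {A : Type*} [AddCommGroup A] (ρ : Representation ℤ G A) (S : AddSubgroup A)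
    (h : ∀ g a, a ∈ S → ρ g a ∈ S) : Representation ℤ G (A ⧸ S) where
  toFun g := (QuotientAddGroup.map S S (ρ g).toAddMonoidHom fun a ha => h g a ha).toIntLinearMap
  map_one' := by
    apply LinearMap.ext; intro x
    induction x using QuotientAddGroup.induction_on with | _ a => simp
  map_mul' g g' := by
    apply LinearMap.ext; intro x
    induction x using QuotientAddGroup.induction_on with | _ a => simp <;> rfl

@[simp] lemma quotRep_mk {A : Type*} [AddCommGroup A] (ρ : Representation ℤ G A) (S : AddSubgroup A)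
    (h : ∀ g a, a ∈ S → ρ g a ∈ S) (g : G) (a : A) :
    quotRep ρ S h g (a : A ⧸ S) = ((ρ g a : A) : A ⧸ S) := rfl

variable [Fintype G]

/-- Equivariant lifting: maps out of an `𝔽_p[G]`-module with `p ∤ |G|` lift along equivariant
surjections of `p`-torsion modules. -/
theorem exists_lift (hG : ¬ p ∣ Fintype.card G)
    {X Y : Type*} [AddCommGroup X] [AddCommGroup Y]
    (ρX : Representation ℤ G X) (ρY : Representation ℤ G Y) (f : X →+ Y)
    (hf : ∀ g x, f (ρX g x) = ρY g (f x)) (hX : ∀ x : X, p • x = 0)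
    (φ : N →+ Y) (hφ : φ ∈ eHom ν ρY) (hrange : ∀ n, ∃ x, f x = φ n) :
    ∃ ψ : N →+ X, ψ ∈ eHom ν ρX ∧ ∀ n, f (ψ n) = φ n := by
  classical
  let : Module (ZMod p) X := AddCommGroup.zmodModule hX
  let b := Module.Basis.ofVectorSpace (ZMod p) N
  choose x hx using fun i => hrange (b i)
  let ψ₀ : N →+ X := (b.constr ℕ x).toAddMonoidHom
  have hψ₀ : ∀ n, f (ψ₀ n) = φ n := by
    intro n
    have hb : ∀ i, ψ₀ (b i) = x i := fun i => b.constr_basis ℕ x i
    induction b.mem_span n using Submodule.span_induction with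
    | mem y hy => obtain ⟨i, rfl⟩ := hy; rw [hb, hx]
    | zero => simp
    | add u v _ _ hu hv => simp [hu, hv]
    | smul c u _ hu =>
      rw [← ZMod.natCast_zmod_val c, Nat.cast_smul_eq_nsmul, map_nsmul, map_nsmul, map_nsmul, hu]
  obtain ⟨a, ha⟩ : ∃ a : ℕ, ((a * Fintype.card G : ℕ) : ZMod p) = 1 := by
    refine ⟨((Fintype.card G : ZMod p)⁻¹).val, ?_⟩
    rw [Nat.cast_mul, ZMod.natCast_zmod_val, inv_mul_cancel₀]
    rwa [Ne, ZMod.natCast_eq_zero_iff]
  let T : N →+ X :=
    { toFun := fun n => a • ∑ g : G, ρX g (ψ₀ (ν g⁻¹ n))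
      map_zero' := by simp
      map_add' := fun u v => by simp [Finset.sum_add_distrib, smul_add] }
  refine ⟨T, ?_, fun n => ?_⟩
  · intro h n
    change a • ∑ g : G, ρX g (ψ₀ (ν g⁻¹ (ν h n))) = ρX h (a • ∑ g : G, ρX g (ψ₀ (ν g⁻¹ n)))
    rw [map_nsmul, map_sum]
    congr 1
    apply Fintype.sum_equiv (Equiv.mulLeft h⁻¹)
    intro g
    simp [← Module.End.mul_apply, ← map_mul]
  · change f (a • ∑ g : G, ρX g (ψ₀ (ν g⁻¹ n))) = φ n
    rw [map_nsmul, map_sum]
    have : ∀ g : G, f (ρX g (ψ₀ (ν g⁻¹ n))) = φ n := by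
      intro g
      rw [hf, hψ₀, ← hφ, ← Module.End.mul_apply, ← map_mul, mul_inv_cancel, map_one,
        Module.End.one_apply]
    rw [Finset.sum_congr rfl fun g _ => this g, Finset.sum_const, ← mul_smul,
      Finset.card_univ, ← map_nsmul, ← Nat.cast_smul_eq_nsmul (ZMod p), ha, one_smul]

omit [Fintype G] in
/-- Postcomposition with an equivariant map. -/
theorem comp_mem_eHom {A B : Type*} [AddCommGroup A] [AddCommGroup B]
    {ρA : Representation ℤ G A} {ρB : Representation ℤ G B} {i : A →+ B}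
    (hi : ∀ g a, i (ρA g a) = ρB g (i a)) {f : N →+ A} (hf : f ∈ eHom ν ρA) :
    i.comp f ∈ eHom ν ρB := fun g n => by
  simp [(mem_eHom ν).1 hf g n, hi]

/-- The postcomposition map on equivariant homomorphisms. -/
def eHomMap {A B : Type*} [AddCommGroup A] [AddCommGroup B]
    (ρA : Representation ℤ G A) (ρB : Representation ℤ G B) (i : A →+ B)
    (hi : ∀ g a, i (ρA g a) = ρB g (i a)) : eHom ν ρA →+ eHom ν ρB where
  toFun f := ⟨i.comp f.1, comp_mem_eHom ν hi f.2⟩
  map_zero' := Subtype.ext (AddMonoidHom.comp_zero i)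
  map_add' f f' := Subtype.ext (i.comp_add f.1 f'.1)

omit [Fintype G] in
@[simp] lemma eHomMap_apply {A B : Type*} [AddCommGroup A] [AddCommGroup B]
    (ρA : Representation ℤ G A) (ρB : Representation ℤ G B) (i : A →+ B)
    (hi : ∀ g a, i (ρA g a) = ρB g (i a)) (f : eHom ν ρA) (n : N) :
    (eHomMap ν ρA ρB i hi f).1 n = i (f.1 n) := rfl

section ModP

variable {A : Type*} [AddCommGroup A] (ρ : Representation ℤ G A)

/-- The subgroup `pA`. -/
def pMul (p : ℕ) (A : Type*) [AddCommGroup A] : AddSubgroup A := (nsmulAddMonoidHom p).range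

lemma mem_pMul {p : ℕ} {A : Type*} [AddCommGroup A] {a : A} :
    a ∈ pMul p A ↔ ∃ b, p • b = a := Iff.rfl

/-- The quotient `A/pA`. -/
abbrev ModP (p : ℕ) (A : Type*) [AddCommGroup A] : Type _ := A ⧸ pMul p A

lemma modP_nsmul_eq_zero {p : ℕ} {A : Type*} [AddCommGroup A] (x : ModP p A) : p • x = 0 := by
  induction x using QuotientAddGroup.induction_on with
  | _ a => rw [← QuotientAddGroup.mk_nsmul, QuotientAddGroup.eq_zero_iff]; exact ⟨a, rfl⟩

/-- Functoriality of `A/pA`. -/
def modPMap (p : ℕ) {A B : Type*} [AddCommGroup A] [AddCommGroup B] (i : A →+ B) :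
    ModP p A →+ ModP p B :=
  QuotientAddGroup.map _ _ i fun x hx => by
    obtain ⟨b, rfl⟩ := mem_pMul.1 hx
    exact ⟨i b, (map_nsmul i p b).symm⟩

@[simp] lemma modPMap_mk (p : ℕ) {A B : Type*} [AddCommGroup A] [AddCommGroup B] (i : A →+ B)
    (a : A) : modPMap p i (a : ModP p A) = ((i a : B) : ModP p B) := rfl

variable (p) in
/-- The action on `A/pA`. -/
def modPRep : Representation ℤ G (ModP p A) where
  toFun g := (modPMap p (ρ g).toAddMonoidHom).toIntLinearMap
  map_one' := by
    apply LinearMap.ext; intro x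
    induction x using QuotientAddGroup.induction_on with | _ a => simp
  map_mul' g h := by
    apply LinearMap.ext; intro x
    induction x using QuotientAddGroup.induction_on with | _ a => simp

@[simp] lemma modPRep_mk (g : G) (a : A) :
    modPRep p ρ g (a : ModP p A) = ((ρ g a : A) : ModP p A) := rfl

lemma modPMap_equivariant {B : Type*} [AddCommGroup B] {ρB : Representation ℤ G B} {i : A →+ B}
    (hi : ∀ g a, i (ρ g a) = ρB g (i a)) (g : G) (x : ModP p A) :
    modPMap p i (modPRep p ρ g x) = modPRep p ρB g (modPMap p i x) := by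
  induction x using QuotientAddGroup.induction_on with | _ a => simp [hi]

end ModP

/-- `|Hom_G(N, A/pA)| = |Hom_G(N, A)| * c`, both being finite. -/
def PhiIs {A : Type*} [AddCommGroup A] (ρ : Representation ℤ G A) (c : ℕ) : Prop :=
  Finite (eHom ν ρ) ∧ Finite (eHom ν (modPRep p ρ)) ∧
    Nat.card (eHom ν (modPRep p ρ)) = Nat.card (eHom ν ρ) * c

lemma card_eq_ker_mul_range {X Y : Type*} [AddCommGroup X] [AddCommGroup Y] (f : X →+ Y) :
    Nat.card X = Nat.card f.ker * Nat.card f.range := by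
  rw [AddSubgroup.card_eq_card_quotient_mul_card_addSubgroup f.ker,
    Nat.card_congr (QuotientAddGroup.quotientKerEquivRange f).toEquiv, mul_comm]

lemma finite_of_ker_range {X Y : Type*} [AddCommGroup X] [AddCommGroup Y] (f : X →+ Y)
    (hk : Finite f.ker) (hr : Finite f.range) : Finite X := by
  have : Finite (X ⧸ f.ker) :=
    Finite.of_equiv _ (QuotientAddGroup.quotientKerEquivRange f).toEquiv.symm
  exact Finite.of_equiv _ (AddSubgroup.addGroupEquivQuotientProdAddSubgroup (s := f.ker)).symm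

section Additivity

variable {A B C : Type*} [AddCommGroup A] [AddCommGroup B] [AddCommGroup C]
  (ρA : Representation ℤ G A) (ρB : Representation ℤ G B) (ρC : Representation ℤ G C)
  (i : A →+ B) (π : B →+ C)

/-- The six-term exact sequence, in the form of cardinalities of kernels and images. -/
theorem sixTerm (hG : ¬ p ∣ Fintype.card G) (hi : ∀ g a, i (ρA g a) = ρB g (i a))
    (hπ : ∀ g b, π (ρB g b) = ρC g (π b)) (hinj : Function.Injective i)
    (hsurj : Function.Surjective π) (hex : ∀ b, π b = 0 ↔ ∃ a, i a = b) :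
    ∃ δ : eHom ν ρC →+ eHom ν (modPRep p ρA),
      Function.Injective (eHomMap ν ρA ρB i hi) ∧
      (eHomMap ν ρA ρB i hi).range = (eHomMap ν ρB ρC π hπ).ker ∧
      (eHomMap ν ρB ρC π hπ).range = δ.ker ∧
      δ.range = (eHomMap ν (modPRep p ρA) (modPRep p ρB) (modPMap p i)
        (modPMap_equivariant ρA hi)).ker ∧
      (eHomMap ν (modPRep p ρA) (modPRep p ρB) (modPMap p i) (modPMap_equivariant ρA hi)).range =
        (eHomMap ν (modPRep p ρB) (modPRep p ρC) (modPMap p π) (modPMap_equivariant ρB hπ)).ker ∧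
      Function.Surjective
        (eHomMap ν (modPRep p ρB) (modPRep p ρC) (modPMap p π) (modPMap_equivariant ρB hπ)) := by
  classical
  have hπi : ∀ a, π (i a) = 0 := fun a => (hex _).2 ⟨a, rfl⟩
  -- the boundary on `C[p]`
  let C' := (nsmulAddMonoidHom p : C →+ C).ker
  have hlift : ∀ c : C', ∃ a : A, ∃ b : B, π b = (c : C) ∧ i a = p • b := by
    intro c
    obtain ⟨b, hb⟩ := hsurj c
    have hc : p • (c : C) = 0 := c.2
    obtain ⟨a, ha⟩ := (hex (p • b)).1 (by rw [map_nsmul, hb, hc])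
    exact ⟨a, b, hb, ha⟩
  have hwd : ∀ (b b' : B) (a a' : A), π b = π b' → i a = p • b → i a' = p • b' →
      (a : ModP p A) = a' := by
    intro b b' a a' hbb ha ha'
    obtain ⟨a'', ha''⟩ := (hex (b - b')).1 (by rw [map_sub, hbb, sub_self])
    have : a = a' + p • a'' := hinj (by rw [map_add, map_nsmul, ha, ha', ha'', smul_sub]; abel)
    rw [this, QuotientAddGroup.mk_add, add_eq_left.2]
    exact (QuotientAddGroup.eq_zero_iff _).2 ⟨a'', rfl⟩
  choose la lb hlb hla using hlift
  have h0 : ∀ (c : C') (a : A) (b : B), π b = (c : C) → i a = p • b →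
      ((la c : A) : ModP p A) = a := fun c a b hb ha =>
    hwd _ _ _ _ (by rw [hlb, hb]) (hla c) ha
  let δ₀ : C' →+ ModP p A :=
    { toFun := fun c => (la c : ModP p A)
      map_zero' := h0 0 0 0 (by simp) (by simp)
      map_add' := fun c c' => by
        rw [← QuotientAddGroup.mk_add]
        exact h0 _ _ (lb c + lb c') (by simp [hlb]) (by simp [hla, smul_add]) }
  have hδ₀ : ∀ (c : C') (a : A) (b : B), π b = (c : C) → i a = p • b → δ₀ c = a := h0
  have hCmem : ∀ (g : eHom ν ρC) n, (g.1 n) ∈ C' := fun g n => nsmul_apply_eq_zero g.1 n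
  let δ : eHom ν ρC →+ eHom ν (modPRep p ρA) :=
    { toFun := fun g => ⟨δ₀.comp (g.1.codRestrict C' (hCmem g)), fun h n => by
        change δ₀ ⟨g.1 (ν h n), _⟩ = modPRep p ρA h ((la ⟨g.1 n, hCmem g n⟩ : A) : ModP p A)
        rw [modPRep_mk]
        apply hδ₀ _ _ (ρB h (lb ⟨g.1 n, hCmem g n⟩))
        · change π _ = g.1 (ν h n)
          rw [hπ, hlb, (mem_eHom ν).1 g.2]
        · rw [hi, hla, map_nsmul]⟩
      map_zero' := by
        apply Subtype.ext; ext n
        exact map_zero δ₀
      map_add' := fun g g' => by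
        apply Subtype.ext; ext n
        exact map_add δ₀ ⟨g.1 n, hCmem g n⟩ ⟨g'.1 n, hCmem g' n⟩ }
  have hδ : ∀ g n, (δ g).1 n = δ₀ ⟨g.1 n, hCmem g n⟩ := fun g n => rfl
  refine ⟨δ, ?_, ?_, ?_, ?_, ?_, ?_⟩
  · intro f f' h
    apply Subtype.ext; ext n
    exact hinj (DFunLike.congr_fun (congrArg Subtype.val h) n)
  · ext f
    constructor
    · rintro ⟨f₀, rfl⟩
      rw [AddMonoidHom.mem_ker]; apply Subtype.ext; ext n
      exact hπi (f₀.1 n)
    · intro hf
      have hf' : ∀ n, π (f.1 n) = 0 := fun n =>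
        DFunLike.congr_fun (congrArg Subtype.val (AddMonoidHom.mem_ker.1 hf)) n
      choose a ha using fun n => (hex _).1 (hf' n)
      refine ⟨⟨AddMonoidHom.mk' a fun x y => hinj (by simp [ha]), fun g n => hinj ?_⟩, ?_⟩
      · simp [ha, hi, (mem_eHom ν).1 f.2]
      · apply Subtype.ext; ext n; exact ha n
  · -- exactness at `Hom(N, C)`
    ext g
    constructor
    · rintro ⟨f, rfl⟩
      rw [AddMonoidHom.mem_ker]; apply Subtype.ext; ext n
      rw [hδ, hδ₀ _ 0 (f.1 n) rfl (by rw [map_zero, nsmul_apply_eq_zero])]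
      rfl
    · intro hg
      have hg' : ∀ n, δ₀ ⟨g.1 n, hCmem g n⟩ = 0 := fun n => by
        rw [← hδ]; exact DFunLike.congr_fun (congrArg Subtype.val (AddMonoidHom.mem_ker.1 hg)) n
      let B' : AddSubgroup B := (nsmulAddMonoidHom p : B →+ B).ker
      have hB' : ∀ g b, b ∈ B' → ρB g b ∈ B' := fun g b (hb : p • b = 0) => by
        change p • ρB g b = 0
        rw [← map_nsmul, hb, map_zero]
      let ρB' : Representation ℤ G B' := subRep ρB B' hB'
      obtain ⟨ψ, hψ, hψ'⟩ := exists_lift ν hG ρB' ρC (π.comp B'.subtype)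
        (fun g b => hπ g b.1) (fun b => Subtype.ext b.2) g.1 g.2 (fun n => by
          obtain ⟨a, ha⟩ := mem_pMul.1
            ((QuotientAddGroup.eq_zero_iff (la ⟨g.1 n, hCmem g n⟩)).1 (hg' n))
          refine ⟨⟨lb ⟨g.1 n, hCmem g n⟩ - i a, ?_⟩, ?_⟩
          · change p • (lb ⟨g.1 n, hCmem g n⟩ - i a) = 0
            rw [smul_sub, ← hla, ← map_nsmul, ha, sub_self]
          · change π (lb ⟨g.1 n, hCmem g n⟩ - i a) = g.1 n
            rw [map_sub, hlb, hπi, sub_zero])
      refine ⟨⟨B'.subtype.comp ψ, fun h n => congrArg Subtype.val (hψ h n)⟩, ?_⟩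
      apply Subtype.ext; ext n
      exact hψ' n
  · -- exactness at `Hom(N, A/p)`
    ext f
    constructor
    · rintro ⟨g, rfl⟩
      rw [AddMonoidHom.mem_ker]; apply Subtype.ext; ext n
      change modPMap p i ((δ g).1 n) = 0
      rw [hδ]
      change ((i (la _) : B) : ModP p B) = 0
      rw [hla, QuotientAddGroup.eq_zero_iff]
      exact ⟨_, rfl⟩
    · intro hf
      have hf' : ∀ n, modPMap p i (f.1 n) = 0 := fun n =>
        DFunLike.congr_fun (congrArg Subtype.val (AddMonoidHom.mem_ker.1 hf)) n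
      have hC' : ∀ g c, c ∈ C' → ρC g c ∈ C' := fun g c (hc : p • c = 0) => by
        change p • ρC g c = 0
        rw [← map_nsmul, hc, map_zero]
      let ρC' : Representation ℤ G C' := subRep ρC C' hC'
      obtain ⟨ψ, hψ, hψ'⟩ := exists_lift ν hG ρC' (modPRep p ρA) δ₀
        (fun g c => by
          change δ₀ _ = modPRep p ρA g ((la c : A) : ModP p A)
          rw [modPRep_mk]
          apply hδ₀ _ _ (ρB g (lb c))
          · change π _ = ρC g c.1
            rw [hπ, hlb]
          · rw [hi, hla, map_nsmul])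
        (fun c => Subtype.ext c.2) f.1 f.2 (fun n => by
          obtain ⟨a, ha⟩ := QuotientAddGroup.mk_surjective (f.1 n)
          have := hf' n
          rw [← ha, modPMap_mk, QuotientAddGroup.eq_zero_iff] at this
          obtain ⟨b, hb⟩ := mem_pMul.1 this
          refine ⟨⟨π b, ?_⟩, ?_⟩
          · change p • π b = 0
            rw [← map_nsmul, hb, hπi]
          · rw [← ha]; exact hδ₀ _ _ b rfl hb.symm)
      refine ⟨⟨C'.subtype.comp ψ, fun h n => congrArg Subtype.val (hψ h n)⟩, ?_⟩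
      apply Subtype.ext; ext n
      rw [hδ]; exact hψ' n
  · -- exactness at `Hom(N, B/p)`
    ext f
    constructor
    · rintro ⟨f₀, rfl⟩
      rw [AddMonoidHom.mem_ker]; apply Subtype.ext; ext n
      change modPMap p π (modPMap p i (f₀.1 n)) = 0
      obtain ⟨a, ha⟩ := QuotientAddGroup.mk_surjective (f₀.1 n)
      rw [← ha, modPMap_mk, modPMap_mk, hπi]; rfl
    · intro hf
      have hf' : ∀ n, modPMap p π (f.1 n) = 0 := fun n =>
        DFunLike.congr_fun (congrArg Subtype.val (AddMonoidHom.mem_ker.1 hf)) n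
      obtain ⟨ψ, hψ, hψ'⟩ := exists_lift ν hG (modPRep p ρA) (modPRep p ρB) (modPMap p i)
        (modPMap_equivariant ρA hi) modP_nsmul_eq_zero f.1 f.2 (fun n => by
          obtain ⟨b, hb⟩ := QuotientAddGroup.mk_surjective (f.1 n)
          have := hf' n
          rw [← hb, modPMap_mk, QuotientAddGroup.eq_zero_iff] at this
          obtain ⟨c, hc⟩ := mem_pMul.1 this
          obtain ⟨b', rfl⟩ := hsurj c
          obtain ⟨a, ha⟩ := (hex (b - p • b')).1 (by rw [map_sub, map_nsmul, hc, sub_self])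
          refine ⟨a, ?_⟩
          rw [modPMap_mk, ha, ← hb, QuotientAddGroup.mk_sub, sub_eq_self,
            QuotientAddGroup.eq_zero_iff]
          exact ⟨b', rfl⟩)
      refine ⟨⟨ψ, hψ⟩, ?_⟩
      apply Subtype.ext; ext n; exact hψ' n
  · intro f
    obtain ⟨ψ, hψ, hψ'⟩ := exists_lift ν hG (modPRep p ρB) (modPRep p ρC) (modPMap p π)
      (modPMap_equivariant ρB hπ) modP_nsmul_eq_zero f.1 f.2 (fun n => by
        obtain ⟨c, hc⟩ := QuotientAddGroup.mk_surjective (f.1 n)
        obtain ⟨b, rfl⟩ := hsurj c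
        exact ⟨b, by rw [← hc, modPMap_mk]⟩)
    exact ⟨⟨ψ, hψ⟩, Subtype.ext (AddMonoidHom.ext hψ')⟩

/-- The multiplicative Euler characteristic of the six-term sequence, and finiteness. -/
theorem sixTerm_card (hG : ¬ p ∣ Fintype.card G) (hi : ∀ g a, i (ρA g a) = ρB g (i a))
    (hπ : ∀ g b, π (ρB g b) = ρC g (π b)) (hinj : Function.Injective i)
    (hsurj : Function.Surjective π) (hex : ∀ b, π b = 0 ↔ ∃ a, i a = b) :
    Nat.card (eHom ν ρA) * Nat.card (eHom ν ρC) * Nat.card (eHom ν (modPRep p ρB)) =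
      Nat.card (eHom ν ρB) * Nat.card (eHom ν (modPRep p ρA)) *
        Nat.card (eHom ν (modPRep p ρC)) ∧
    (Finite (eHom ν ρA) → Finite (eHom ν ρC) → Finite (eHom ν ρB)) ∧
    (Finite (eHom ν (modPRep p ρA)) → Finite (eHom ν (modPRep p ρC)) →
      Finite (eHom ν (modPRep p ρB))) ∧
    (Finite (eHom ν ρB) → Finite (eHom ν ρA)) ∧
    (Finite (eHom ν ρC) → Finite (eHom ν (modPRep p ρB)) →
      Finite (eHom ν (modPRep p ρA))) := by
  obtain ⟨δ, h1, h2, h3, h4, h5, h6⟩ := sixTerm ν ρA ρB ρC i π hG hi hπ hinj hsurj hex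
  set a1 := eHomMap ν ρA ρB i hi
  set a2 := eHomMap ν ρB ρC π hπ
  set a3 := eHomMap ν (modPRep p ρA) (modPRep p ρB) (modPMap p i) (modPMap_equivariant ρA hi)
  set a4 := eHomMap ν (modPRep p ρB) (modPRep p ρC) (modPMap p π) (modPMap_equivariant ρB hπ)
  have e1 : Nat.card a1.range = Nat.card (eHom ν ρA) :=
    (Nat.card_congr (AddMonoidHom.ofInjective h1).toEquiv).symm
  have e4 : Nat.card a4.range = Nat.card (eHom ν (modPRep p ρC)) := by
    rw [AddMonoidHom.range_eq_top.2 h6, AddSubgroup.card_top]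
  have c2 := card_eq_ker_mul_range a2
  have c0 := card_eq_ker_mul_range δ
  have c3 := card_eq_ker_mul_range a3
  have c4 := card_eq_ker_mul_range a4
  rw [← h2, e1] at c2
  rw [← h3] at c0
  rw [← h4] at c3
  rw [← h5, e4] at c4
  refine ⟨by rw [c2, c0, c3, c4]; ring, fun hA hC => ?_, fun hA hC => ?_, fun hB => ?_,
    fun hC hB => ?_⟩
  · exact finite_of_ker_range a2 (h2 ▸ Set.finite_range a1) inferInstance
  · exact finite_of_ker_range a4 (h5 ▸ Set.finite_range a3) inferInstance
  · exact Finite.of_injective a1 h1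
  · exact finite_of_ker_range a3 (h4 ▸ Set.finite_range δ) inferInstance

omit [Fintype G] in
instance instFiniteEHom {A : Type*} [AddCommGroup A] (ρ : Representation ℤ G A)
    [Finite N] [Finite A] : Finite (eHom ν ρ) :=
  Finite.of_injective (fun f => (f.1 : N → A)) fun _ _ h =>
    Subtype.ext (DFunLike.coe_injective h)

omit [Fintype G] in
lemma card_eHom_pos {A : Type*} [AddCommGroup A] (ρ : Representation ℤ G A)
    [Finite (eHom ν ρ)] : 0 < Nat.card (eHom ν ρ) := Nat.card_pos

/-- `phi` is multiplicative: the middle term. -/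
theorem PhiIs.middle (hG : ¬ p ∣ Fintype.card G) (hi : ∀ g a, i (ρA g a) = ρB g (i a))
    (hπ : ∀ g b, π (ρB g b) = ρC g (π b)) (hinj : Function.Injective i)
    (hsurj : Function.Surjective π) (hex : ∀ b, π b = 0 ↔ ∃ a, i a = b) {a c : ℕ}
    (ha : PhiIs ν ρA a) (hc : PhiIs ν ρC c) : PhiIs ν ρB (a * c) := by
  obtain ⟨hcard, f1, f2, -, -⟩ := sixTerm_card ν ρA ρB ρC i π hG hi hπ hinj hsurj hex
  obtain ⟨a1, a2, ha⟩ := ha
  obtain ⟨c1, c2, hc⟩ := hc
  refine ⟨f1 a1 c1, f2 a2 c2, ?_⟩
  apply Nat.eq_of_mul_eq_mul_left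
    (Nat.mul_pos (Nat.card_pos (α := eHom ν ρA)) (Nat.card_pos (α := eHom ν ρC)))
  rw [hcard, ha, hc]; ring

end Additivity

section Consequences

variable [Finite N]

/-- `phi = 1` for finite modules. -/
theorem PhiIs.of_finite (hG : ¬ p ∣ Fintype.card G) {A : Type*} [AddCommGroup A] [Finite A]
    (ρ : Representation ℤ G A) : PhiIs ν ρ 1 := by
  induction hn : Nat.card A using Nat.strong_induction_on generalizing A with
  | _ n IH =>
    by_cases htriv : ∀ a : A, p • a = 0 → a = 0
    · -- `p` is bijective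
      have hbij := Finite.injective_iff_surjective.1
        ((injective_iff_map_eq_zero (nsmulAddMonoidHom p : A →+ A)).2 htriv)
      have h1 : ∀ f : eHom ν ρ, f = 0 := fun f => Subtype.ext (AddMonoidHom.ext fun m =>
        htriv _ (nsmul_apply_eq_zero f.1 m))
      have h2 : ∀ f : eHom ν (modPRep p ρ), f = 0 := fun f => by
        apply Subtype.ext; ext m
        obtain ⟨a, ha⟩ := QuotientAddGroup.mk_surjective (f.1 m)
        rw [← ha, (QuotientAddGroup.eq_zero_iff a).2 (hbij a)]
        rfl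
      have : Subsingleton (eHom ν ρ) := ⟨fun f g => (h1 f).trans (h1 g).symm⟩
      have : Subsingleton (eHom ν (modPRep p ρ)) := ⟨fun f g => (h2 f).trans (h2 g).symm⟩
      exact ⟨inferInstance, inferInstance, by rw [Nat.card_unique, Nat.card_unique]⟩
    · by_cases hall : ∀ a : A, p • a = 0
      · let e : A →+ ModP p A := QuotientAddGroup.mk' _
        have he : Function.Bijective e := by
          refine ⟨(injective_iff_map_eq_zero e).2 fun a ha => ?_, QuotientAddGroup.mk_surjective⟩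
          obtain ⟨b, rfl⟩ := mem_pMul.1 ((QuotientAddGroup.eq_zero_iff a).1 ha)
          exact hall b
        have hm : Function.Bijective (eHomMap ν ρ (modPRep p ρ) e fun g a => (modPRep_mk ρ g a).symm) := by
          refine ⟨fun f f' h => Subtype.ext (AddMonoidHom.ext fun m => he.1
            (DFunLike.congr_fun (congrArg Subtype.val h) m)), fun f => ?_⟩
          obtain ⟨ψ, hψ, hψ'⟩ := exists_lift ν hG ρ (modPRep p ρ) e
            (fun g a => (modPRep_mk ρ g a).symm) hall f.1 f.2 fun m => he.2 _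
          exact ⟨⟨ψ, hψ⟩, Subtype.ext (AddMonoidHom.ext hψ')⟩
        exact ⟨inferInstance, inferInstance, by rw [mul_one, Nat.card_eq_of_bijective _ hm]⟩
      · push Not at htriv hall
        obtain ⟨a₀, ha₀, ha₀'⟩ := htriv
        obtain ⟨a₁, ha₁⟩ := hall
        let T : AddSubgroup A := (nsmulAddMonoidHom p : A →+ A).ker
        have hT : ∀ g a, a ∈ T → ρ g a ∈ T := fun g a (h : p • a = 0) => by
          change p • ρ g a = 0
          rw [← map_nsmul, h, map_zero]
        let ρq : Representation ℤ G (A ⧸ T) := quotRep ρ T hT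
        have hT2 : 1 < Nat.card T :=
          (Finite.one_lt_card_iff_nontrivial).2 ⟨⟨⟨a₀, ha₀⟩, 0, fun h => ha₀' (congrArg Subtype.val h)⟩⟩
        have hQ2 : 1 < Nat.card (A ⧸ T) :=
          (Finite.one_lt_card_iff_nontrivial).2 ⟨⟨(a₁ : A ⧸ T), 0, fun h =>
            ha₁ ((QuotientAddGroup.eq_zero_iff a₁).1 h)⟩⟩
        have hmul := AddSubgroup.card_eq_card_quotient_mul_card_addSubgroup T
        have hlt1 : Nat.card T < n := by nlinarith
        have hlt2 : Nat.card (A ⧸ T) < n := by nlinarith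
        have := PhiIs.middle ν (subRep ρ T hT) ρ ρq T.subtype (QuotientAddGroup.mk' T) hG
          (fun g a => rfl) (fun g b => rfl) Subtype.val_injective QuotientAddGroup.mk_surjective
          (fun b => ⟨fun h => ⟨⟨b, (QuotientAddGroup.eq_zero_iff b).1 h⟩, rfl⟩,
            fun ⟨a, h⟩ => h ▸ (QuotientAddGroup.eq_zero_iff _).2 a.2⟩)
          (IH _ hlt1 (subRep ρ T hT) rfl) (IH _ hlt2 ρq rfl)
        simpa using this

variable {A B C : Type*} [AddCommGroup A] [AddCommGroup B] [AddCommGroup C]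
  (ρA : Representation ℤ G A) (ρB : Representation ℤ G B) (ρC : Representation ℤ G C)
  (i : A →+ B) (π : B →+ C)

/-- Passing to a submodule of finite index does not change `phi`. -/
theorem PhiIs.left [Finite C] (hG : ¬ p ∣ Fintype.card G) (hi : ∀ g a, i (ρA g a) = ρB g (i a))
    (hπ : ∀ g b, π (ρB g b) = ρC g (π b)) (hinj : Function.Injective i)
    (hsurj : Function.Surjective π) (hex : ∀ b, π b = 0 ↔ ∃ a, i a = b) {b : ℕ}
    (hb : PhiIs ν ρB b) : PhiIs ν ρA b := by
  obtain ⟨hcard, -, -, f1, f2⟩ := sixTerm_card ν ρA ρB ρC i π hG hi hπ hinj hsurj hex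
  obtain ⟨b1, b2, hb⟩ := hb
  obtain ⟨c1, c2, hc⟩ := PhiIs.of_finite ν hG ρC
  refine ⟨f1 b1, f2 c1 b2, ?_⟩
  apply Nat.eq_of_mul_eq_mul_left
    (Nat.mul_pos (Nat.card_pos (α := eHom ν ρB)) (Nat.card_pos (α := eHom ν ρC)))
  rw [hc, mul_one] at hcard
  calc Nat.card (eHom ν ρB) * Nat.card (eHom ν ρC) * Nat.card (eHom ν (modPRep p ρA))
      = Nat.card (eHom ν ρB) * Nat.card (eHom ν (modPRep p ρA)) * Nat.card (eHom ν ρC) := by ring
    _ = Nat.card (eHom ν ρA) * Nat.card (eHom ν ρC) * Nat.card (eHom ν (modPRep p ρB)) :=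
        hcard.symm
    _ = _ := by rw [hb]; ring

/-- A stable subgroup of finite index has the same `phi`. -/
theorem PhiIs.sub_iff (hG : ¬ p ∣ Fintype.card G) (S : AddSubgroup B)
    (hS : ∀ g b, b ∈ S → ρB g b ∈ S) [Finite (B ⧸ S)] (c : ℕ) :
    PhiIs ν (subRep ρB S hS) c ↔ PhiIs ν ρB c := by
  let ρq : Representation ℤ G (B ⧸ S) := quotRep ρB S hS
  have hex : ∀ b, QuotientAddGroup.mk' S b = 0 ↔ ∃ a, S.subtype a = b := fun b =>
    ⟨fun h => ⟨⟨b, (QuotientAddGroup.eq_zero_iff b).1 h⟩, rfl⟩,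
      fun ⟨a, h⟩ => h ▸ (QuotientAddGroup.eq_zero_iff _).2 a.2⟩
  constructor
  · intro h
    simpa using PhiIs.middle ν (subRep ρB S hS) ρB ρq S.subtype (QuotientAddGroup.mk' S) hG
      (fun g a => rfl) (fun g b => rfl) Subtype.val_injective QuotientAddGroup.mk_surjective hex h
      (PhiIs.of_finite ν hG ρq)
  · intro h
    exact PhiIs.left ν (subRep ρB S hS) ρB ρq S.subtype (QuotientAddGroup.mk' S) hG
      (fun g a => rfl) (fun g b => rfl) Subtype.val_injective QuotientAddGroup.mk_surjective hex h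

/-- `phi` is invariant under equivariant isomorphism. -/
theorem PhiIs.congr (hG : ¬ p ∣ Fintype.card G) (e : A ≃+ B)
    (he : ∀ g a, e (ρA g a) = ρB g (e a)) {c : ℕ} (h : PhiIs ν ρA c) : PhiIs ν ρB c := by
  simpa using PhiIs.middle ν ρA ρB (1 : Representation ℤ G PUnit.{1}) e.toAddMonoidHom 0 hG he
    (fun g b => rfl) e.injective (fun _ => ⟨0, rfl⟩)
    (fun b => ⟨fun _ => ⟨e.symm b, e.apply_symm_apply b⟩, fun _ => rfl⟩) h
    (PhiIs.of_finite ν hG _)

end Consequences

end Fermat.Agent.CFT.EquivariantCount
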