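import Fermat.Agent.CFT.Setup

/-!
# The inclusion of `μ_p` into `ℚ̄ˣ`
-/

set_option autoImplicit false
set_option linter.style.haveILetI false

open ExtCitation

noncomputable section

namespace Fermat.Agent.CFT

variable {p : ℕ} [Fact p.Prime]

theorem zetaP_isPrimitiveRoot : IsPrimitiveRoot (zetaP p) p := by
  haveI : NeZero p := ⟨(Fact.out : p.Prime).ne_zero⟩
  have h := (HasEnoughRootsOfUnity.exists_primitiveRoot (AlgebraicClosure ℚ) p).choose_spec
  exact h.isUnit_unit (NeZero.ne p)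

theorem muInc_zero : muInc p 0 = 1 := by simp [muInc]

theorem muInc_add (i j : ZMod p) : muInc p (i + j) = muInc p i * muInc p j := by
  rw [muInc, muInc, muInc, ← pow_add, ← zetaP_isPrimitiveRoot.eq_orderOf.symm.subst
    (motive := fun n => zetaP p ^ ((i.val + j.val) % n) = zetaP p ^ (i.val + j.val))
    (pow_mod_orderOf _ _), ZMod.val_add]

theorem muInc_sub (i j : ZMod p) : muInc p (i - j) = muInc p i / muInc p j := by
  rw [eq_div_iff_mul_eq', ← muInc_add, sub_add_cancel]

theorem muInc_natCast (n : ℕ) : muInc p (n : ZMod p) = zetaP p ^ n := by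
  rw [muInc, ZMod.val_natCast]
  exact zetaP_isPrimitiveRoot.eq_orderOf.symm.subst
    (motive := fun m => zetaP p ^ (n % m) = zetaP p ^ n) (pow_mod_orderOf _ _)

theorem muInc_pow_eq_one (i : ZMod p) : muInc p i ^ p = 1 := by
  rw [muInc, ← pow_mul, mul_comm, pow_mul, zetaP_isPrimitiveRoot.pow_eq_one, one_pow]

theorem muInc_injective : Function.Injective (muInc p) := fun i j h =>
  ZMod.val_injective p (zetaP_isPrimitiveRoot.pow_inj i.val_lt j.val_lt h)

theorem exists_muInc_eq {w : (AlgebraicClosure ℚ)ˣ} (hw : w ^ p = 1) : ∃ i, muInc p i = w := by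
  haveI : NeZero p := ⟨(Fact.out : p.Prime).ne_zero⟩
  obtain ⟨i, -, hi⟩ := (IsPrimitiveRoot.coe_units_iff.2
    (zetaP_isPrimitiveRoot (p := p))).eq_pow_of_pow_eq_one
    (ξ := (w : AlgebraicClosure ℚ)) (by rw [← Units.val_pow_eq_pow_val, hw, Units.val_one])
  exact ⟨i, Units.ext (by rw [muInc_natCast, Units.val_pow_eq_pow_val, hi])⟩

theorem gal_muInc (g : GQ) (i : ZMod p) :
    g (muInc p i : AlgebraicClosure ℚ) = (muInc p ((cycloChar p g : ZMod p) * i) : AlgebraicClosure ℚ) := by
  haveI : NeZero p := ⟨(Fact.out : p.Prime).ne_zero⟩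
  have h1 : g (zetaP p : AlgebraicClosure ℚ) =
      (zetaP p : AlgebraicClosure ℚ) ^ ((cycloChar p g : ZMod p)).val :=
    modularCyclotomicCharacter.spec (AlgebraicClosure ℚ) (card_rootsOfUnity_eq_self p)
      (g : AlgebraicClosure ℚ ≃+* AlgebraicClosure ℚ) (t := zetaP p)
      (by rw [mem_rootsOfUnity]; exact zetaP_isPrimitiveRoot.pow_eq_one)
  have h2 : muInc p ((cycloChar p g : ZMod p) * i)
      = zetaP p ^ ((cycloChar p g : ZMod p).val * i.val) := by
    rw [← muInc_natCast, Nat.cast_mul, ZMod.natCast_zmod_val, ZMod.natCast_zmod_val]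
  rw [h2]
  simp only [muInc, Units.val_pow_eq_pow_val, map_pow, h1, ← pow_mul]

theorem gal_muInc_of_eq_one {g : GQ} (hg : cycloChar p g = 1) (i : ZMod p) :
    g (muInc p i : AlgebraicClosure ℚ) = (muInc p i : AlgebraicClosure ℚ) := by
  rw [gal_muInc, hg, Units.val_one, one_mul]

open Classical in
/-- The inverse of `muInc`. -/
def muLog (w : (AlgebraicClosure ℚ)ˣ) : ZMod p :=
  if h : ∃ i, muInc p i = w then h.choose else 0

theorem muInc_muLog {w : (AlgebraicClosure ℚ)ˣ} (hw : w ^ p = 1) : muInc p (muLog w) = w := by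
  rw [muLog, dif_pos (exists_muInc_eq hw)]
  exact (exists_muInc_eq hw).choose_spec

theorem muLog_muInc (i : ZMod p) : muLog (muInc p i) = i :=
  muInc_injective (muInc_muLog (muInc_pow_eq_one i))

end Fermat.Agent.CFT
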