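import Fermat.Prelude.Def_GroupCohomology_ContinuousUnramified

/-!
# Class field theory cluster: common definitions

* `Levels`, `H1`, `H2`: cohomology in degree one and two for cochains constant at a given family
  of levels, for a group `G` with `r : G →* Gal(ℚ̄/ℚ)`;
* `funRep U M`: the coinduced module of functions `G ⧸ U → M`;
* `placePts q U`: the units of `L ⊗ ℚ_q` (`L` the fixed field of `U`), seen as equivariant
  functions on `Γ ⧸ U`; orbits of the local Galois group are the places above `q`;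
* the cyclotomic `ℤ_p`-tower characters, their carry cocycles and the local symbol `phiLoc`.
-/

set_option autoImplicit false
set_option linter.style.haveILetI false

open CategoryTheory groupCohomology ExtCitation

noncomputable section

namespace Fermat.Agent.CFT

/-- The absolute Galois group of `ℚ`. -/
abbrev GQ := AlgebraicClosure ℚ ≃ₐ[ℚ] AlgebraicClosure ℚ

/-- The fields allowed as levels. -/
structure Levels where
  ok : IntermediateField ℚ (AlgebraicClosure ℚ) → Prop
  finite : ∀ F, ok F → FiniteDimensional ℚ F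
  bot : ok ⊥
  sup : ∀ F F', ok F → ok F' → ok (F ⊔ F')

namespace Levels

/-- All finite extensions of `ℚ`. -/
def all : Levels where
  ok F := FiniteDimensional ℚ F
  finite _ h := h
  bot := inferInstance
  sup F F' h h' := @IntermediateField.finiteDimensional_sup _ _ _ _ _ F F' h h'

/-- The extensions unramified outside `S`. -/
def unr (S : Finset Nat.Primes) : Levels where
  ok F := F.IsUnramifiedOutside S
  finite _ h := h.1
  bot := IntermediateField.isUnramifiedOutside_bot S
  sup _ _ h h' := h.sup h'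

end Levels

variable {G : Type} [Group G] (L : Levels) (r : G →* GQ)

/-- A subgroup containing the preimage of some level. -/
def IsLevelSubgroup (U : Subgroup G) : Prop :=
  ∃ F, L.ok F ∧ ∀ s, r s ∈ F.fixingSubgroup → s ∈ U

def IsConst₁ {X : Type*} (f : G → X) : Prop :=
  ∃ F, L.ok F ∧ ∀ g s, r s ∈ F.fixingSubgroup → f (g * s) = f g

def IsConst₂ {X : Type*} (f : G × G → X) : Prop :=
  ∃ F, L.ok F ∧ ∀ g g' s s', r s ∈ F.fixingSubgroup → r s' ∈ F.fixingSubgroup →
    f (g * s, g' * s') = f (g, g')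

variable {L r}

lemma IsConst₁.comp {X Y : Type*} {f : G → X} (hf : IsConst₁ L r f) (φ : X → Y) :
    IsConst₁ L r (φ ∘ f) := by
  obtain ⟨F, hF, h⟩ := hf
  exact ⟨F, hF, fun g s hs => congrArg φ (h g s hs)⟩

lemma IsConst₂.comp {X Y : Type*} {f : G × G → X} (hf : IsConst₂ L r f) (φ : X → Y) :
    IsConst₂ L r (φ ∘ f) := by
  obtain ⟨F, hF, h⟩ := hf
  exact ⟨F, hF, fun g g' s s' hs hs' => congrArg φ (h g g' s s' hs hs')⟩

lemma IsConst₁.prodMk {X Y : Type*} {f : G → X} {f' : G → Y} (hf : IsConst₁ L r f)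
    (hf' : IsConst₁ L r f') : IsConst₁ L r (fun g => (f g, f' g)) := by
  obtain ⟨F, hF, h⟩ := hf
  obtain ⟨F', hF', h'⟩ := hf'
  refine ⟨F ⊔ F', L.sup _ _ hF hF', fun g s hs => Prod.ext ?_ ?_⟩
  · exact h g s (IntermediateField.fixingSubgroup_antitone le_sup_left hs)
  · exact h' g s (IntermediateField.fixingSubgroup_antitone le_sup_right hs)

lemma IsConst₂.prodMk {X Y : Type*} {f : G × G → X} {f' : G × G → Y} (hf : IsConst₂ L r f)
    (hf' : IsConst₂ L r f') : IsConst₂ L r (fun g => (f g, f' g)) := by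
  obtain ⟨F, hF, h⟩ := hf
  obtain ⟨F', hF', h'⟩ := hf'
  refine ⟨F ⊔ F', L.sup _ _ hF hF', fun g g' s s' hs hs' => Prod.ext ?_ ?_⟩
  · exact h g g' s s' (IntermediateField.fixingSubgroup_antitone le_sup_left hs)
      (IntermediateField.fixingSubgroup_antitone le_sup_left hs')
  · exact h' g g' s s' (IntermediateField.fixingSubgroup_antitone le_sup_right hs)
      (IntermediateField.fixingSubgroup_antitone le_sup_right hs')

variable (L r) {k : Type} [CommRing k] (M : Rep.{0} k G)

/-- Every vector is fixed by a level. -/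
def IsSmoothRep : Prop := ∀ m : M, ∃ F, L.ok F ∧ ∀ s, r s ∈ F.fixingSubgroup → M.ρ s m = m

def C1 : Submodule k (G → M) where
  carrier := {f | IsConst₁ L r f}
  add_mem' hf hf' := (hf.prodMk hf').comp (fun x => x.1 + x.2)
  zero_mem' := ⟨⊥, L.bot, fun _ _ _ => rfl⟩
  smul_mem' c _ hf := hf.comp (c • ·)

def C2 : Submodule k (G × G → M) where
  carrier := {f | IsConst₂ L r f}
  add_mem' hf hf' := (hf.prodMk hf').comp (fun x => x.1 + x.2)
  zero_mem' := ⟨⊥, L.bot, fun _ _ _ _ _ _ => rfl⟩
  smul_mem' c _ hf := hf.comp (c • ·)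

def Z1 : Submodule k (cocycles₁ M) := (C1 L r M).comap (cocycles₁ M).subtype

/-- Continuous classes inside Mathlib's `H1`. -/
def H1c : Submodule k (H1 M) := (Z1 L r M).map (H1π M).hom

def Z2 : Submodule k (G × G → M) := cocycles₂ M ⊓ C2 L r M

def B2 : Submodule k (G × G → M) := (C1 L r M).map (d₁₂ M).hom

abbrev H2c : Type := ↥(Z2 L r M) ⧸ (B2 L r M).comap (Z2 L r M).subtype

abbrev H2cπ : ↥(Z2 L r M) →ₗ[k] H2c L r M := Submodule.mkQ _

variable {L r}
variable {H : Type} [Group H] {L' : Levels} {r' : H →* GQ}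

/-- Pulling back along `f` respects levels: every level on `G` pulls back to contain one on `H`. -/
def IsLevelHom (L : Levels) (r : G →* GQ) (L' : Levels) (r' : H →* GQ) (f : H →* G) : Prop :=
  ∀ F, L.ok F → ∃ F', L'.ok F' ∧ ∀ h, r' h ∈ F'.fixingSubgroup → r (f h) ∈ F.fixingSubgroup

lemma isLevelHom_of_eq (f : H →* G) (hf : ∀ h, r (f h) = r' h) : IsLevelHom L r L r' f :=
  fun F hF => ⟨F, hF, fun h hh => by rwa [hf]⟩

lemma IsConst₁.pull {X : Type*} {f : H →* G} (hf : IsLevelHom L r L' r' f) {x : G → X}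
    (hx : IsConst₁ L r x) : IsConst₁ L' r' (x ∘ f) := by
  obtain ⟨F, hF, h⟩ := hx
  obtain ⟨F', hF', h'⟩ := hf F hF
  exact ⟨F', hF', fun g s hs => by simpa using h (f g) (f s) (h' s hs)⟩

lemma IsConst₂.pull {X : Type*} {f : H →* G} (hf : IsLevelHom L r L' r' f) {x : G × G → X}
    (hx : IsConst₂ L r x) : IsConst₂ L' r' (x ∘ Prod.map f f) := by
  obtain ⟨F, hF, h⟩ := hx
  obtain ⟨F', hF', h'⟩ := hf F hF
  exact ⟨F', hF', fun g g' s s' hs hs' => by
    simpa using h (f g) (f g') (f s) (f s') (h' s hs) (h' s' hs')⟩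

variable {M} {N : Rep.{0} k H}

def mapZ2 (f : H →* G) (hf : IsLevelHom L r L' r' f) (φ : M →ₗ[k] N)
    (hφ : ∀ h m, φ (M.ρ (f h) m) = N.ρ h (φ m)) : ↥(Z2 L r M) →ₗ[k] ↥(Z2 L' r' N) :=
  (cochainsPullPush₂ f φ).restrict fun _ hx =>
    ⟨cochainsPullPush₂_mem_cocycles₂ f φ hφ hx.1, (IsConst₂.pull hf hx.2).comp φ⟩

/-- Functoriality of `H2c` in the group, the levels and the coefficients. -/
def mapH2 (f : H →* G) (hf : IsLevelHom L r L' r' f) (φ : M →ₗ[k] N)
    (hφ : ∀ h m, φ (M.ρ (f h) m) = N.ρ h (φ m)) : H2c L r M →ₗ[k] H2c L' r' N :=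
  Submodule.mapQ _ _ (mapZ2 f hf φ hφ) fun _ hx => by
    obtain ⟨y, hy, e⟩ := hx
    exact ⟨cochainsPullPush₁ f φ y, (IsConst₁.pull hf hy).comp φ,
      (cochainsPullPush₂_d₁₂ f φ hφ y).symm.trans (congrArg (cochainsPullPush₂ f φ) e)⟩

/-- Functoriality in the coefficients. -/
def pushH2 {M' : Rep k G} (φ : M →ₗ[k] M') (hφ : ∀ g m, φ (M.ρ g m) = M'.ρ g (φ m)) :
    H2c L r M →ₗ[k] H2c L r M' :=
  mapH2 (MonoidHom.id G) (isLevelHom_of_eq _ fun _ => rfl) φ hφ

variable (M)

lemma H1c_all_eq : H1c Levels.all r M = continuousH1 r M := rfl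

lemma H2c_all_eq : H2c Levels.all r M = continuousH2 r M := rfl

lemma H1c_unr_eq (S : Finset Nat.Primes) (A : Rep.{0} k GQ) :
    H1c (Levels.unr S) (MonoidHom.id GQ) A = continuousH1S S A := rfl

lemma H2c_unr_eq (S : Finset Nat.Primes) (A : Rep.{0} k GQ) :
    H2c (Levels.unr S) (MonoidHom.id GQ) A = continuousH2S S A := rfl

/-! ### Coinduced modules -/

/-- Functions `G ⧸ U → M` with `(g f) x = g (f (g⁻¹ x))`. -/
def funRepρ (U : Subgroup G) : Representation k G (G ⧸ U → M) where
  toFun g :=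
    { toFun := fun f x => M.ρ g (f (g⁻¹ • x))
      map_add' := fun f f' => by ext; simp
      map_smul' := fun c f => by ext; simp }
  map_one' := by ext; simp
  map_mul' g g' := by ext; simp [mul_smul]

abbrev funRep (U : Subgroup G) : Rep k G := Rep.of (funRepρ M U)

lemma funRep_ρ_apply (U : Subgroup G) (g : G) (f : G ⧸ U → M) (x : G ⧸ U) :
    (funRep M U).ρ g f x = M.ρ g (f (g⁻¹ • x)) := rfl

/-! ### Places and the multiplicative groups -/

variable (p : ℕ) [Fact p.Prime]

/-- The algebraic closure of the completion at `q`. -/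
abbrev Omega (q : Nat.Primes) : Type :=
  letI : Fact (q : ℕ).Prime := ⟨q.2⟩
  PadicAlgCl (q : ℕ)

instance factPrimes (q : Nat.Primes) : Fact (q : ℕ).Prime := ⟨q.2⟩

/-- The action of the local Galois group on `Omega q`. -/
def locAct (q : Nat.Primes) (τ : primeLocalGaloisGroup q) : Omega q ≃ₐ[ℚ_[(q : ℕ)]] Omega q := τ

/-- The chosen embedding on units. -/
def iota (q : Nat.Primes) : (AlgebraicClosure ℚ)ˣ →* (Omega q)ˣ :=
  Units.map (padicEmbedding (q : ℕ)).toRingHom.toMonoidHom

/-- `(L ⊗ ℚ_q)ˣ`: functions on `Γ ⧸ U` equivariant for the local Galois group. -/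
def placePts (q : Nat.Primes) (U : Subgroup GQ) : Subgroup (GQ ⧸ U → (Omega q)ˣ) where
  carrier := {f | ∀ (τ : primeLocalGaloisGroup q) (x : GQ ⧸ U),
    (f (primeLocalToGlobal q τ • x) : Omega q) = locAct q τ (f x)}
  one_mem' := fun τ x => by simp
  mul_mem' := fun {a b} ha hb τ x => by simp [ha τ x, hb τ x]
  inv_mem' := fun {a} ha τ x => by simp [ha τ x]

/-- Elements of `ℚ̄ˣ` fixed by `U`: the multiplicative group of the fixed field. -/
def fixedUnits (U : Subgroup GQ) : Subgroup (AlgebraicClosure ℚ)ˣ where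
  carrier := {a | ∀ g ∈ U, g (a : AlgebraicClosure ℚ) = a}
  one_mem' := fun g _ => map_one g
  mul_mem' := fun {a b} ha hb g hg => by simp [ha g hg, hb g hg]
  inv_mem' := fun {a} ha g hg => by simp [ha g hg]

/-- `x ↦ x.out a`, the image of `a` in the induced module of `ℚ̄ˣ`. -/
def globFun (U : Subgroup GQ) : (AlgebraicClosure ℚ)ˣ →* (GQ ⧸ U → (AlgebraicClosure ℚ)ˣ) :=
  MonoidHom.pi fun x =>
    Units.map (Quotient.out x : GQ).toRingEquiv.toRingHom.toMonoidHom

/-- The image of `a` in `(L ⊗ ℚ_q)ˣ`. -/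
def diag (q : Nat.Primes) (U : Subgroup GQ) :
    (AlgebraicClosure ℚ)ˣ →* (GQ ⧸ U → (Omega q)ˣ) :=
  MonoidHom.pi fun x => (iota q).comp ((Pi.evalMonoidHom _ x).comp (globFun U))

/-- Product over the fibres of `Γ ⧸ U' → Γ ⧸ U`: the norm. -/
def normFun {X : Type*} [CommGroup X] {U' U : Subgroup GQ} (h : U' ≤ U) (f : GQ ⧸ U' → X) :
    GQ ⧸ U → X :=
  fun x => ∏ᶠ (y : GQ ⧸ U') (_ : Quotient.map' id (fun _ _ hab =>
    QuotientGroup.leftRel_apply.2 (h (QuotientGroup.leftRel_apply.1 hab))) y = x), f y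

/-- The `S`-units of the fixed field of `U`. -/
def sUnits (S : Finset Nat.Primes) (U : Subgroup GQ) : Subgroup (AlgebraicClosure ℚ)ˣ where
  carrier := {a | a ∈ fixedUnits U ∧
    ∀ q ∉ S, ∀ x : GQ ⧸ U, ‖(diag q U a x : Omega q)‖ = 1}
  one_mem' := ⟨one_mem _, fun q _ x => by simp⟩
  mul_mem' := fun {a b} ha hb => ⟨mul_mem ha.1 hb.1, fun q hq x => by
    simp [ha.2 q hq x, hb.2 q hq x]⟩
  inv_mem' := fun {a} ha => ⟨inv_mem ha.1, fun q hq x => by simp [ha.2 q hq x]⟩

/-! ### Roots of unity and the cyclotomic tower -/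

/-- A fixed primitive `p`-th root of unity. -/
def zetaP : (AlgebraicClosure ℚ)ˣ :=
  haveI : NeZero p := ⟨(Fact.out : p.Prime).ne_zero⟩
  ((HasEnoughRootsOfUnity.exists_primitiveRoot (AlgebraicClosure ℚ) p).choose_spec.isUnit
    (NeZero.ne p)).unit

/-- `i ↦ ζ ^ i`, from `ofChar (cycloChar p)` to `ℚ̄ˣ`. -/
def muInc (i : ZMod p) : (AlgebraicClosure ℚ)ˣ := zetaP p ^ i.val

/-- The mod `p ^ (n + 1)` cyclotomic character. -/
def cyclo (n : ℕ) : GQ →* (ZMod (p ^ (n + 1)))ˣ :=
  haveI : NeZero (p ^ (n + 1)) := ⟨pow_ne_zero _ (Fact.out : p.Prime).ne_zero⟩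
  MonoidHom.mk'
    (fun σ => modularCyclotomicCharacter (AlgebraicClosure ℚ)
      (HasEnoughRootsOfUnity.natCard_rootsOfUnity (AlgebraicClosure ℚ) (p ^ (n + 1)))
      (σ : AlgebraicClosure ℚ ≃+* AlgebraicClosure ℚ))
    (fun a b => by rw [← map_mul]; congr 1)

open Classical in
/-- The logarithm to the base `1 + p` of `u ^ (p - 1)`. -/
def theta (n : ℕ) (u : (ZMod (p ^ (n + 1)))ˣ) : ZMod (p ^ n) :=
  if h : ∃ i : ℕ, (u : ZMod (p ^ (n + 1))) ^ (p - 1) = (1 + (p : ZMod (p ^ (n + 1)))) ^ i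
  then (h.choose : ZMod (p ^ n)) else 0

/-- The character of level `n` of the cyclotomic `ℤ_p`-extension. -/
def tower (n : ℕ) (σ : GQ) : ZMod (p ^ n) := theta p n (cyclo p n σ)

/-- The carry cocycle of the character `tower p n`. -/
def carry (n : ℕ) (g : GQ × GQ) : ℕ :=
  if p ^ n ≤ (tower p n g.1).val + (tower p n g.2).val then 1 else 0

open Classical in
/-- The symbol `b ↦ (b, tower p n)` at `q`. -/
def phiLoc (n : ℕ) (q : Nat.Primes) (b : (ℚ_[(q : ℕ)])ˣ) : ZMod (p ^ n) :=
  let v := Padic.valuation (b : ℚ_[(q : ℕ)])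
  if _hq : (q : ℕ) = p then
    let u : ℚ_[(q : ℕ)] := (b : ℚ_[(q : ℕ)]) * ((q : ℕ) : ℚ_[(q : ℕ)]) ^ (-v)
    if hu : ‖u‖ ≤ 1 then
      let w : ZMod (p ^ (n + 1)) := (PadicInt.toZModPow (n + 1) (⟨u, hu⟩ : ℤ_[(q : ℕ)])).val
      if hw : IsUnit w then - theta p n hw.unit else 0
    else 0
  else
    if hw : IsUnit ((q : ℕ) : ZMod (p ^ (n + 1))) then v • theta p n hw.unit else 0

/-- The module `μ_p` in additive notation. -/
abbrev muRep : Rep (ZMod p) GQ := ofChar (k := ZMod p) (cycloChar p)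

lemma muRep_apply (g : GQ) (m : ZMod p) : (muRep p).ρ g m = (cycloChar p g : ZMod p) * m := rfl

/-- `μ_p` on the local Galois group. -/
abbrev muLoc (q : Nat.Primes) : Rep (ZMod p) (primeLocalGaloisGroup q) :=
  Rep.res (primeLocalToGlobal q) (muRep p)

/-- `c` has invariant `i` at `q`: in `Omega qˣ` it differs by a coboundary from the carry cocycle
of some `b` with `phiLoc b = p ^ (n - 1) * i`. -/
def IsInvariant (q : Nat.Primes) (c : ↥(Z2 Levels.all (primeLocalToGlobal q) (muLoc p q)))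
    (i : ZMod p) : Prop :=
  ∃ (n : ℕ) (_ : 1 ≤ n) (b : (ℚ_[(q : ℕ)])ˣ) (f : primeLocalGaloisGroup q → (Omega q)ˣ),
    IsConst₁ Levels.all (primeLocalToGlobal q) f ∧
    phiLoc p n q b = ((p ^ (n - 1) * i.val : ℕ) : ZMod (p ^ n)) ∧
    ∀ s t, (iota q (muInc p (c.1 (s, t))) : Omega q) =
      locAct q s (f t) / f (s * t) * f s *
        algebraMap ℚ_[(q : ℕ)] (Omega q) b ^
          carry p n (primeLocalToGlobal q s, primeLocalToGlobal q t)

open Classical in
/-- The local invariant `H²(G_q, μ_p) → 𝔽_p`. -/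
def invLoc (q : Nat.Primes) :
    H2c Levels.all (primeLocalToGlobal q) (muLoc p q) →ₗ[ZMod p] ZMod p :=
  if h : ∃ F : H2c Levels.all (primeLocalToGlobal q) (muLoc p q) →ₗ[ZMod p] ZMod p,
      ∀ c, IsInvariant p q c (F (H2cπ _ _ _ c))
  then h.choose else 0

/-- An equivariant perfect pairing `A × M → μ_p`. -/
structure DualPair {G : Type} [Group G] (χ : G →* (ZMod p)ˣ) (A M : Rep.{0} (ZMod p) G) where
  β : A →ₗ[ZMod p] M →ₗ[ZMod p] ZMod p
  equivariant : ∀ g a m, β (A.ρ g a) (M.ρ g m) = (χ g : ZMod p) * β a m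
  left : ∀ a, (∀ m, β a m = 0) → a = 0
  right : ∀ m, (∀ a, β a m = 0) → m = 0

/-- The roots of unity `μ_p` on a subgroup of `Γ`. -/
abbrev muSub (U : Subgroup GQ) : Rep (ZMod p) U := Rep.res U.subtype (muRep p)

/-! ### Localisation -/

/-- The stabiliser in the local Galois group of a point of `Γ ⧸ U`: the local group of a place. -/
def placeStab (q : Nat.Primes) (U : Subgroup GQ) (x : GQ ⧸ U) :
    Subgroup (primeLocalGaloisGroup q) :=
  (MulAction.stabilizer GQ x).comap (primeLocalToGlobal q)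

lemma placeStab_conj_mem {q : Nat.Primes} {U : Subgroup GQ} {x : GQ ⧸ U}
    (τ : placeStab q U x) :
    (Quotient.out x : GQ)⁻¹ * primeLocalToGlobal q τ * Quotient.out x ∈ U := by
  have h : primeLocalToGlobal q τ • x = x := τ.2
  have h' : (QuotientGroup.mk (primeLocalToGlobal q τ * Quotient.out x) : GQ ⧸ U) =
      QuotientGroup.mk (Quotient.out x : GQ) := by
    rw [← smul_eq_mul, ← MulAction.Quotient.smul_mk, QuotientGroup.out_eq']
    exact h
  have := U.inv_mem (QuotientGroup.eq.1 h')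
  simpa [mul_assoc] using this

/-- The map from the local group of the place `x` to `U`. -/
def placeHom (q : Nat.Primes) (U : Subgroup GQ) (x : GQ ⧸ U) : placeStab q U x →* U :=
  MonoidHom.mk' (fun τ => ⟨_, placeStab_conj_mem τ⟩) fun a b => Subtype.ext (by
    simp [mul_assoc])

lemma isLevelHom_placeHom (q : Nat.Primes) (U : Subgroup GQ) (x : GQ ⧸ U) :
    IsLevelHom Levels.all U.subtype Levels.all
      ((primeLocalToGlobal q).comp (placeStab q U x).subtype) (placeHom q U x) := by
  intro F hF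
  haveI : FiniteDimensional ℚ F := hF
  haveI : FiniteDimensional ℚ ↥(F.map (Quotient.out x : GQ).toAlgHom) :=
    FiniteDimensional.of_surjective (F.intermediateFieldMap (Quotient.out x : GQ)).toLinearMap
      (F.intermediateFieldMap (Quotient.out x : GQ)).surjective
  refine ⟨F.map (Quotient.out x : GQ).toAlgHom, (inferInstance : FiniteDimensional ℚ _),
    fun h hh => ?_⟩
  simp only [placeHom, MonoidHom.mk'_apply, Subgroup.coe_subtype, MonoidHom.coe_comp,
    Function.comp_apply] at hh ⊢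
  rw [IntermediateField.mem_fixingSubgroup_iff] at hh ⊢
  intro y hy
  have := hh _ ((IntermediateField.mem_map _).2 ⟨y, hy, rfl⟩)
  simp only [AlgEquiv.mul_apply]
  rw [show primeLocalToGlobal q (h : primeLocalGaloisGroup q) ((Quotient.out x : GQ) y) =
      (Quotient.out x : GQ) y from this]
  exact (Quotient.out x : GQ).symm_apply_apply y

/-- Localisation of a class on `U` at the place `x`. -/
def locPlace (q : Nat.Primes) (U : Subgroup GQ) (x : GQ ⧸ U) :
    H2c Levels.all U.subtype (muSub p U) →ₗ[ZMod p]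
      H2c Levels.all ((primeLocalToGlobal q).comp (placeStab q U x).subtype)
        (Rep.res (placeStab q U x).subtype (muLoc p q)) :=
  mapH2 (placeHom q U x) (isLevelHom_placeHom q U x)
    ((cycloChar p (Quotient.out x) : ZMod p) • LinearMap.id) (fun h m => by
      change (cycloChar p (Quotient.out x) : ZMod p) * ((muRep p).ρ
          ((Quotient.out x : GQ)⁻¹ * primeLocalToGlobal q h * Quotient.out x) m) =
        (muRep p).ρ (primeLocalToGlobal q h) ((cycloChar p (Quotient.out x) : ZMod p) * m)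
      rw [muRep_apply, muRep_apply, map_mul, map_mul, map_inv, Units.val_mul, Units.val_mul,
        mul_assoc, mul_assoc, Units.mul_inv_cancel_left])

variable {S : Finset Nat.Primes}

/-- Localisation at `q` of an `S`-level class. -/
def locS (q : Nat.Primes) (M : Rep.{0} k GQ) :
    H2c (Levels.unr S) (MonoidHom.id GQ) M →ₗ[k]
      H2c Levels.all (primeLocalToGlobal q) (Rep.res (primeLocalToGlobal q) M) :=
  mapH2 (primeLocalToGlobal q) (fun F hF => ⟨F, hF.1, fun _ h => h⟩)
    (LinearMap.id : M →ₗ[k] Rep.res (primeLocalToGlobal q) M) (fun _ _ => rfl)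

variable {p}

/-- Restriction of a pairing along a homomorphism. -/
def DualPair.res {G G' : Type} [Group G] [Group G'] {χ : G →* (ZMod p)ˣ} {A M : Rep.{0} (ZMod p) G}
    (P : DualPair p χ A M) (f : G' →* G) : DualPair p (χ.comp f) (Rep.res f A) (Rep.res f M) where
  β := P.β
  equivariant g a m := P.equivariant (f g) a m
  left := P.left
  right := P.right

/-- A pairing read backwards. -/
def DualPair.swap {G : Type} [Group G] {χ : G →* (ZMod p)ˣ} {A M : Rep.{0} (ZMod p) G}
    (P : DualPair p χ A M) : DualPair p χ M A where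
  β := P.β.flip
  equivariant g m a := P.equivariant g a m
  left := P.right
  right := P.left

variable {q : Nat.Primes} {A M' : Rep.{0} (ZMod p) (primeLocalGaloisGroup q)}

/-- The local duality map `H²(G_q, M) → H⁰(G_q, A)^∨`. -/
def thetaLoc (P : DualPair p ((cycloChar p).comp (primeLocalToGlobal q)) A M') :
    H2c Levels.all (primeLocalToGlobal q) M' →ₗ[ZMod p] (A.ρ.invariants →ₗ[ZMod p] ZMod p) where
  toFun x :=
    { toFun := fun a => invLoc p q (pushH2 (M' := muLoc p q) (P.β a.1) (fun g m => by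
        have := P.equivariant g a.1 m
        rw [a.2 g] at this
        simpa [muLoc, muRep, Representation.twist_apply_apply] using this) x)
      map_add' := fun a b => by
        obtain ⟨c, rfl⟩ := Submodule.mkQ_surjective _ x
        rw [← map_add]
        congr 1
        exact congrArg (Submodule.Quotient.mk) (Subtype.ext (funext fun g => by
          change P.β _ (c.1 g) = _
          simp only [Submodule.coe_add, map_add]
          rfl))
      map_smul' := fun t a => by
        obtain ⟨c, rfl⟩ := Submodule.mkQ_surjective _ x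
        rw [RingHom.id_apply, ← map_smul]
        congr 1
        exact congrArg (Submodule.Quotient.mk) (Subtype.ext (funext fun g => by
          change P.β _ (c.1 g) = _
          simp only [Submodule.coe_smul, map_smul]
          rfl)) }
  map_add' x y := by ext a; simp
  map_smul' t x := by ext a; simp

end Fermat.Agent.CFT
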