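import Fermat.Prelude.Def_GroupCohomology_ContinuousUnramified
set_option autoImplicit false
set_option linter.style.haveILetI false

open CategoryTheory Module groupCohomology ExtCitation

noncomputable section

namespace Fermat.Agent.CFT

local instance instIsGaloisQbar : IsGalois ℚ (AlgebraicClosure ℚ) :=
  haveI : Algebra.IsAlgebraic ℚ (AlgebraicClosure ℚ) := AlgebraicClosure.isAlgebraic ℚ
  haveI : IsAlgClosure ℚ (AlgebraicClosure ℚ) := ⟨inferInstance, inferInstance⟩
  IsAlgClosure.isGalois ℚ (AlgebraicClosure ℚ)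

local notation "Γℚ" => (AlgebraicClosure ℚ ≃ₐ[ℚ] AlgebraicClosure ℚ)

/-- `K` contains every `S`-unramified field of degree at most `N`. -/
def HermiteBound (S : Finset Nat.Primes) (N : ℕ) (K : IntermediateField ℚ (AlgebraicClosure ℚ)) : Prop :=
  K.IsUnramifiedOutside S ∧ ∀ E : IntermediateField ℚ (AlgebraicClosure ℚ),
    E.IsUnramifiedOutside S → finrank ℚ E ≤ N → E ≤ K

theorem fixingSubgroup_fixedField_of_le {F : IntermediateField ℚ (AlgebraicClosure ℚ)}
    [FiniteDimensional ℚ F] {H : Subgroup Γℚ} (h : F.fixingSubgroup ≤ H) :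
    (IntermediateField.fixedField H).fixingSubgroup = H := by
  have ho : IsOpen (H : Set Γℚ) :=
    Subgroup.isOpen_mono h (IntermediateField.fixingSubgroup_isOpen F)
  exact InfiniteGalois.fixingSubgroup_fixedField ⟨H, Subgroup.isClosed_of_isOpen H ho⟩

theorem fixedField_le_of_le {F : IntermediateField ℚ (AlgebraicClosure ℚ)}
    {H : Subgroup Γℚ} (h : F.fixingSubgroup ≤ H) : IntermediateField.fixedField H ≤ F := by
  have := IntermediateField.fixedField_antitone h
  rwa [InfiniteGalois.fixedField_fixingSubgroup] at this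

theorem finrank_fixedField_of_le {F : IntermediateField ℚ (AlgebraicClosure ℚ)}
    [FiniteDimensional ℚ F] {H : Subgroup Γℚ} (h : F.fixingSubgroup ≤ H) :
    finrank ℚ (IntermediateField.fixedField H) = H.index := by
  rw [IntermediateField.finrank_eq_fixingSubgroup_index, fixingSubgroup_fixedField_of_le h]

theorem finiteIndex_fixingSubgroup (F : IntermediateField ℚ (AlgebraicClosure ℚ))
    [FiniteDimensional ℚ F] : F.fixingSubgroup.FiniteIndex :=
  ⟨by rw [← IntermediateField.finrank_eq_fixingSubgroup_index]; exact finrank_pos.ne'⟩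

section Modules

variable {k : Type} [CommRing k] (M : Rep k Γℚ) (S : Finset Nat.Primes)

/-- A finitely generated smooth module unramified outside `S` is trivial on the fixing group of an
`S`-unramified field. -/
theorem exists_unramifiedOutside_trivial [Module.Finite k M]
    (hsm : ∀ m : M, ∃ F : IntermediateField ℚ (AlgebraicClosure ℚ), FiniteDimensional ℚ F ∧
      ∀ s ∈ F.fixingSubgroup, M.ρ s m = m)
    (hMur : ∀ q : Nat.Primes, q ∉ S → ∀ A : ValuationSubring (AlgebraicClosure ℚ),
      A.LiesOverPrime (q : ℕ) → ∀ g ∈ A.inertiaSubgroupIn ℚ, M.ρ g = 1) :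
    ∃ F : IntermediateField ℚ (AlgebraicClosure ℚ), F.IsUnramifiedOutside S ∧
      ∀ s ∈ F.fixingSubgroup, M.ρ s = 1 := by
  classical
  obtain ⟨t, ht⟩ := Module.Finite.fg_top (R := k) (M := M)
  choose F hFd hF using fun m : M => hsm m
  let F₀ : IntermediateField ℚ (AlgebraicClosure ℚ) := ⨆ m ∈ t, F m
  haveI : FiniteDimensional ℚ F₀ := by
    haveI := fun m : {m // m ∈ t} => hFd m.1
    have : F₀ = ⨆ m : {m // m ∈ t}, F m.1 := by rw [iSup_subtype]
    rw [this]
    exact IntermediateField.finiteDimensional_iSup_of_finite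
  have hle : F₀.fixingSubgroup ≤ MonoidHom.ker M.ρ := by
    intro s hs
    rw [MonoidHom.mem_ker]
    refine LinearMap.ext_on (s := (t : Set M)) ht fun m hm => ?_
    simpa using hF m s
      (IntermediateField.fixingSubgroup_antitone (le_biSup F (Finset.mem_coe.1 hm)) hs)
  refine ⟨IntermediateField.fixedField (MonoidHom.ker M.ρ), ⟨?_, fun q hq A hA => ?_⟩, ?_⟩
  · exact FiniteDimensional.of_injective
      (IntermediateField.inclusion (fixedField_le_of_le hle)).toLinearMap
      (IntermediateField.inclusion_injective (fixedField_le_of_le hle))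
  · rw [fixingSubgroup_fixedField_of_le hle]
    exact fun g hg => MonoidHom.mem_ker.2 (hMur q hq A hA g hg)
  · rw [fixingSubgroup_fixedField_of_le hle]
    exact fun s hs => MonoidHom.mem_ker.1 hs

variable {M S}

/-- Every `S`-level cocycle is constant at a uniform level: that of a Hermite field. -/
theorem levelCocyclesS₁_uniform [Finite M]
    {F : IntermediateField ℚ (AlgebraicClosure ℚ)} (hFu : F.IsUnramifiedOutside S)
    (hF : ∀ s ∈ F.fixingSubgroup, M.ρ s = 1)
    {K : IntermediateField ℚ (AlgebraicClosure ℚ)}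
    (hK : HermiteBound S (finrank ℚ F * Nat.card M) K)
    (c : cocycles₁ M) (hc : IsLevelConstantS₁ S c) :
    ∀ g s, s ∈ K.fixingSubgroup → c (g * s) = c g := by
  haveI := hFu.1
  obtain ⟨Fc, hFcu, hFc⟩ := hc
  haveI := hFcu.1
  have hmul : ∀ g h, c (g * h) = M.ρ g (c h) + c g := (mem_cocycles₁_iff c.1).1 c.2
  have hhom : ∀ s ∈ F.fixingSubgroup, ∀ h, c (s * h) = c h + c s := fun s hs h => by
    rw [hmul s h, hF s hs, Module.End.one_apply]
  let f : F.fixingSubgroup →* Multiplicative M :=
    MonoidHom.mk' (fun s => Multiplicative.ofAdd (c s.1)) fun s t => by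
      rw [← ofAdd_add]
      exact congrArg Multiplicative.ofAdd ((hhom s.1 s.2 t.1).trans (add_comm _ _))
  let N : Subgroup Γℚ := (MonoidHom.ker f).map F.fixingSubgroup.subtype
  have hN : ∀ s, s ∈ N ↔ s ∈ F.fixingSubgroup ∧ c s = 0 := fun s => by
    constructor
    · rintro ⟨x, hx, rfl⟩
      exact ⟨x.2, congrArg Multiplicative.toAdd (MonoidHom.mem_ker.1 hx)⟩
    · exact fun h => ⟨⟨s, h.1⟩, MonoidHom.mem_ker.2 (congrArg Multiplicative.ofAdd h.2), rfl⟩
  have hle : (Fc ⊔ F).fixingSubgroup ≤ N := fun s hs => by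
    rw [IntermediateField.fixingSubgroup_sup] at hs
    refine (hN s).2 ⟨hs.2, ?_⟩
    have h1 : c (1 * s) = c 1 := hFc 1 s hs.1
    simpa [cocycles₁_map_one] using h1
  haveI : FiniteDimensional ℚ ↥(Fc ⊔ F) := IntermediateField.finiteDimensional_sup Fc F
  have hidx : N.index ≤ finrank ℚ F * Nat.card M := by
    have h1 : N.index = (MonoidHom.ker f).index * F.fixingSubgroup.index :=
      Subgroup.index_map_subtype (H := F.fixingSubgroup) _
    have h2 : (MonoidHom.ker f).index ≤ Nat.card M := by
      rw [Subgroup.index_ker]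
      exact (Nat.card_le_card_of_injective Subtype.val Subtype.val_injective).trans
        (Nat.card_congr Multiplicative.toAdd).le
    rw [h1, ← IntermediateField.finrank_eq_fixingSubgroup_index, mul_comm]
    exact Nat.mul_le_mul_left _ h2
  have hE : (IntermediateField.fixedField N) ≤ K :=
    hK.2 _ ((hFcu.sup hFu).of_le (fixedField_le_of_le hle))
      (by rw [finrank_fixedField_of_le hle]; exact hidx)
  intro g s hs
  have hsN : s ∈ N := by
    have := IntermediateField.fixingSubgroup_antitone hE hs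
    rwa [fixingSubgroup_fixedField_of_le hle] at this
  rw [hmul g s, ((hN s).1 hsN).2, map_zero, zero_add]

/-- The `S`-level cocycles with finite coefficients form a finite set. -/
theorem finite_levelCocyclesS₁ [Finite M]
    {F : IntermediateField ℚ (AlgebraicClosure ℚ)} (hFu : F.IsUnramifiedOutside S)
    (hF : ∀ s ∈ F.fixingSubgroup, M.ρ s = 1)
    (hH : ∀ N, ∃ K, HermiteBound S N K) :
    Finite (levelCocyclesS₁ S M) := by
  obtain ⟨K, hK⟩ := hH (finrank ℚ F * Nat.card M)
  haveI := hK.1.1
  haveI := finiteIndex_fixingSubgroup K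
  refine Finite.of_injective
    (fun c : levelCocyclesS₁ S M => fun x : Γℚ ⧸ K.fixingSubgroup => c.1 x.out) ?_
  intro c c' h
  refine Subtype.ext (cocycles₁_ext fun g => ?_)
  obtain ⟨s, hs⟩ := QuotientGroup.mk_out_eq_mul K.fixingSubgroup g
  have := congrFun h (QuotientGroup.mk g)
  simp only [hs] at this
  rwa [levelCocyclesS₁_uniform hFu hF hK c.1 c.2 g s s.2,
    levelCocyclesS₁_uniform hFu hF hK c'.1 c'.2 g s s.2] at this

theorem finite_continuousH1S [Finite M]
    {F : IntermediateField ℚ (AlgebraicClosure ℚ)} (hFu : F.IsUnramifiedOutside S)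
    (hF : ∀ s ∈ F.fixingSubgroup, M.ρ s = 1)
    (hH : ∀ N, ∃ K, HermiteBound S N K) :
    Finite (continuousH1S S M) := by
  haveI := finite_levelCocyclesS₁ hFu hF hH
  exact ((Set.toFinite ((levelCocyclesS₁ S M : Set (cocycles₁ M)))).image (H1π M).hom).to_subtype

end Modules

end Fermat.Agent.CFT
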