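import Fermat.Agent.Density.Zeta
import Mathlib.FieldTheory.KummerExtension
import Mathlib.RingTheory.RootsOfUnity.Lemmas
import Mathlib.NumberTheory.NumberField.Cyclotomic.Basic
import Mathlib.FieldTheory.Minpoly.IsIntegrallyClosed

/-!
# An element that is not a `p`-th power is a non-residue at infinitely many degree one primes

Degree one primes are handled as ring homomorphisms `𝓞 L →+* ZMod ℓ`. The proof compares the
number of such homomorphisms for `L` and for `L(b ^ (1/p))` using the behaviour of the two zeta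
functions at `s = 1`.
-/

namespace Fermat.Agent.CFT

open NumberField Filter Topology

section Count

variable (K : Type*) [Field K] [NumberField K] {ℓ : ℕ} [hℓ : Fact ℓ.Prime]

theorem nres_hom_ext_of_ker_eq {R : Type*} [CommRing R] {φ ψ : R →+* ZMod ℓ}
    (h : RingHom.ker φ = RingHom.ker ψ) : φ = ψ := by
  ext x
  have h1 : x - ((φ x).val : R) ∈ RingHom.ker φ := by
    rw [RingHom.mem_ker, map_sub, map_natCast, ZMod.natCast_zmod_val, sub_self]
  rw [h, RingHom.mem_ker, map_sub, map_natCast, ZMod.natCast_zmod_val, sub_eq_zero] at h1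
  exact h1.symm

theorem nres_ker_norm (φ : 𝓞 K →+* ZMod ℓ) : Ideal.absNorm (RingHom.ker φ) = ℓ := by
  rw [Ideal.absNorm_apply, Submodule.cardQuot_apply]
  exact (Nat.card_congr (RingHom.quotientKerEquivOfSurjective
    (ZMod.ringHom_surjective φ)).toEquiv).trans (Nat.card_zmod ℓ)

/-- Ideals of prime norm `ℓ` correspond to homomorphisms to `ZMod ℓ`. -/
theorem nres_idealCount_eq :
    Density.idealCount K ℓ = Nat.card (𝓞 K →+* ZMod ℓ) := by
  refine (Nat.card_eq_of_bijective (fun φ => ⟨RingHom.ker φ, nres_ker_norm K φ⟩) ⟨?_, ?_⟩).symm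
  · intro φ ψ h
    exact nres_hom_ext_of_ker_eq (congrArg Subtype.val h)
  · rintro ⟨I, hI⟩
    rw [Ideal.absNorm_apply, Submodule.cardQuot_apply] at hI
    have : Finite (𝓞 K ⧸ I) := Nat.finite_of_card_ne_zero (by rw [hI]; exact hℓ.out.ne_zero)
    have := Fintype.ofFinite (𝓞 K ⧸ I)
    rw [Nat.card_eq_fintype_card] at hI
    let e : ZMod ℓ ≃+* (𝓞 K ⧸ I) := ZMod.ringEquivOfPrime _ hℓ.out hI
    refine ⟨e.symm.toRingHom.comp (Ideal.Quotient.mk I), Subtype.ext ?_⟩
    ext x
    simp [RingHom.mem_ker, Ideal.Quotient.eq_zero_iff_mem]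

theorem nres_finite_hom : Finite (𝓞 K →+* ZMod ℓ) := by
  refine Finite.of_injective (fun φ =>
    (⟨RingHom.ker φ, nres_ker_norm K φ⟩ : {I : Ideal (𝓞 K) // Ideal.absNorm I = ℓ})) ?_
  · intro φ ψ h
    exact nres_hom_ext_of_ker_eq (congrArg Subtype.val h)

end Count

section Extend

variable {R S : Type*} [CommRing R] [CommRing S] [Algebra R S] {F : Type*} [Field F]

/-- A homomorphism on a subalgebra `A` extends to the whole ring if `d • S ⊆ A`, `d` invertible. -/
noncomputable def nresExtend (A : Subalgebra R S) (d : ℕ) (hd : ∀ x : S, (d : S) * x ∈ A)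
    (ψ : A →+* F) (hdF : (d : F) ≠ 0) : S →+* F where
  toFun x := ψ ⟨(d : S) * x, hd x⟩ / d
  map_one' := by
    have : (⟨(d : S) * 1, hd 1⟩ : A) = (d : A) := Subtype.ext (by simp)
    rw [this, map_natCast, div_self hdF]
  map_mul' x y := by
    have h1 : (⟨(d : S) * x, hd x⟩ : A) * ⟨(d : S) * y, hd y⟩ =
        (d : A) * ⟨(d : S) * (x * y), hd _⟩ := Subtype.ext (by simp; ring)
    have h2 := congrArg ψ h1
    rw [map_mul, map_mul, map_natCast] at h2
    field_simp
    linear_combination -h2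
  map_zero' := by
    have : (⟨(d : S) * 0, hd 0⟩ : A) = 0 := Subtype.ext (by simp)
    rw [this, map_zero, zero_div]
  map_add' x y := by
    have h1 : (⟨(d : S) * (x + y), hd _⟩ : A) = ⟨(d : S) * x, hd x⟩ + ⟨(d : S) * y, hd y⟩ :=
      Subtype.ext (by simp; ring)
    rw [h1, map_add, add_div]

theorem nresExtend_apply (A : Subalgebra R S) (d : ℕ) (hd : ∀ x : S, (d : S) * x ∈ A)
    (ψ : A →+* F) (hdF : (d : F) ≠ 0) (x : A) :
    nresExtend A d hd ψ hdF (x : S) = ψ x := by
  show ψ ⟨(d : S) * (x : S), hd _⟩ / d = _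
  have : (⟨(d : S) * (x : S), hd _⟩ : A) = (d : A) * x := Subtype.ext (by simp)
  rw [this, map_mul, map_natCast, mul_div_cancel_left₀ _ hdF]

end Extend

variable {L : Type} [Field L] [NumberField L] {p : ℕ} [hp : Fact p.Prime]

/-- Zeta comparison: a field cannot have `p` times as many degree one primes as another. -/
theorem nres_zeta_contradiction (M : Type) [Field M] [NumberField M] (E : Finset ℕ)
    (hE : ∀ ℓ : ℕ, ℓ.Prime → ℓ ∉ E → p * Density.idealCount L ℓ ≤ Density.idealCount M ℓ) :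
    False := by
  classical
  obtain ⟨B, hB⟩ := Density.exists_bound_primeSum L
  obtain ⟨B', hB'⟩ := Density.exists_bound_primeSum M
  set C : ℝ := ∑ ℓ ∈ E, (p * Density.idealCount L ℓ : ℕ)
  have hlim : Tendsto (fun s : ℝ => Real.log (s - 1)) (𝓝[>] 1) atBot := by
    refine Real.tendsto_log_nhdsGT_zero.comp (tendsto_nhdsWithin_iff.2 ⟨?_, ?_⟩)
    · have : Tendsto (fun s : ℝ => s - 1) (𝓝 1) (𝓝 (1 - 1)) :=
        (continuous_id.sub continuous_const).tendsto 1
      rw [sub_self] at this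
      exact this.mono_left nhdsWithin_le_nhds
    · filter_upwards [self_mem_nhdsWithin] with s hs
      exact Set.mem_Ioi.2 (sub_pos.2 (Set.mem_Ioi.1 hs))
  have hev := hlim.eventually (eventually_lt_atBot (-(B' + p * B + C + 1)))
  obtain ⟨s, ⟨⟨hsL, hL⟩, hsM, hM⟩, hs1, hlog⟩ :=
    ((hB.and hB').and ((show ∀ᶠ s in 𝓝[>] (1 : ℝ), s ∈ Set.Ioi (1 : ℝ) from
      self_mem_nhdsWithin).and hev)).exists
  have hs1 : (1 : ℝ) < s := hs1
  let g : Nat.Primes → ℝ := fun ℓ =>
    if (ℓ : ℕ) ∈ E then ((p * Density.idealCount L ℓ : ℕ) : ℝ) else 0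
  let EP : Finset Nat.Primes := E.subtype Nat.Prime
  have hg : ∀ ℓ ∉ EP, g ℓ = 0 := fun ℓ hℓ =>
    if_neg fun h => hℓ (Finset.mem_subtype.2 h)
  have hgs : Summable g := summable_of_ne_finset_zero hg
  have hgC : ∑' ℓ, g ℓ ≤ C := by
    rw [tsum_eq_sum hg]
    refine le_trans (le_of_eq (Finset.sum_congr rfl fun ℓ hℓ => ?_)) (le_trans (le_of_eq
      (Finset.sum_subtype_eq_sum_filter (fun n : ℕ => ((p * Density.idealCount L n : ℕ) : ℝ))
        (p := Nat.Prime))) (Finset.sum_le_sum_of_subset_of_nonneg (Finset.filter_subset _ _)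
          fun i _ _ => Nat.cast_nonneg _))
    exact if_pos (Finset.mem_subtype.1 hℓ)
  have hle : ∑' ℓ : Nat.Primes, (p : ℝ) * Density.zetaTerm L s ℓ ≤
      ∑' ℓ : Nat.Primes, (Density.zetaTerm M s ℓ + g ℓ) := by
    refine (hsL.mul_left _).tsum_le_tsum (fun ℓ => ?_) (hsM.add hgs)
    have hrp : ((ℓ : ℕ) : ℝ) ^ (-s) ≤ 1 :=
      Real.rpow_le_one_of_one_le_of_nonpos (mod_cast ℓ.2.one_le) (by linarith)
    have hrp0 : (0 : ℝ) ≤ ((ℓ : ℕ) : ℝ) ^ (-s) := by positivity
    simp only [Density.zetaTerm, g]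
    split_ifs with hmem
    · push_cast
      nlinarith [mul_le_mul_of_nonneg_left hrp
        (by positivity : (0 : ℝ) ≤ p * (Density.idealCount L ℓ : ℝ)),
        mul_nonneg (Nat.cast_nonneg (Density.idealCount M ℓ) : (0 : ℝ) ≤ _) hrp0]
    · rw [← mul_assoc, add_zero]
      exact mul_le_mul_of_nonneg_right (by exact_mod_cast hE ℓ ℓ.2 hmem) hrp0
  rw [tsum_mul_left, hsM.tsum_add hgs] at hle
  have h2 : (2 : ℝ) ≤ p := mod_cast hp.out.two_le
  have hC0 : 0 ≤ C := Finset.sum_nonneg fun i _ => Nat.cast_nonneg _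
  have hBnn : 0 ≤ B := (abs_nonneg _).trans hL
  have hB'nn : 0 ≤ B' := (abs_nonneg _).trans hM
  have := abs_le.1 hL
  have := abs_le.1 hM
  have hneg : 0 ≤ -Real.log (s - 1) := by nlinarith
  nlinarith [mul_nonneg (sub_nonneg.2 h2) hneg,
    mul_le_mul_of_nonneg_left (abs_le.1 hL).1 (by positivity : (0 : ℝ) ≤ p)]

/-- If `b` is not a `p`-th power in `L ∋ ζ_p`, there are infinitely many primes `ℓ` with a
degree one prime above at which `b` is a non-residue. -/
theorem nres_exists {ζ : L} (hζ : IsPrimitiveRoot ζ p) {b : 𝓞 L}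
    (hb : ∀ y : L, y ^ p ≠ (b : L)) (E : Finset ℕ) :
    ∃ ℓ : ℕ, ℓ.Prime ∧ ℓ ∉ E ∧ ∃ φ : 𝓞 L →+* ZMod ℓ, φ b ≠ 0 ∧ ∀ z, z ^ p ≠ φ b := by
  classical
  by_contra! hcon
  let f : Polynomial L := Polynomial.X ^ p - Polynomial.C (b : L)
  have hirr : Irreducible f := X_pow_sub_C_irreducible_of_prime hp.out hb
  have hirr' := Fact.mk hirr
  let M := AdjoinRoot f
  have hf0 : f ≠ 0 := hirr.ne_zero
  have : FiniteDimensional L M := (AdjoinRoot.powerBasis hf0).finite
  have : NumberField M := NumberField.of_module_finite L M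
  set β : M := AdjoinRoot.root f
  have hβp : β ^ p = algebraMap L M (b : L) := by
    have := AdjoinRoot.eval₂_root f
    simp only [f, Polynomial.eval₂_sub, Polynomial.eval₂_X_pow, Polynomial.eval₂_C] at this
    rw [sub_eq_zero] at this
    exact this
  have hβint : IsIntegral ℤ β := by
    refine IsIntegral.of_pow hp.out.pos ?_
    rw [hβp]
    exact (RingOfIntegers.isIntegral_coe b).algebraMap
  set βi : 𝓞 M := ⟨β, hβint⟩
  let A : Subalgebra (𝓞 L) (𝓞 M) := Algebra.adjoin (𝓞 L) {βi}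
  -- every integer of `M` has a positive multiple in `A`
  have hmult : ∀ x : 𝓞 M, ∃ d : ℕ, d ≠ 0 ∧ (d : 𝓞 M) * x ∈ A := by
    intro x
    obtain ⟨g, hg⟩ := AdjoinRoot.mk_surjective (g := f) (x : M)
    obtain ⟨⟨d, hd⟩, g', hg'⟩ : ∃ (d : nonZeroDivisors (𝓞 L)) (g' : Polynomial (𝓞 L)),
        g'.map (algebraMap (𝓞 L) L) = (d : 𝓞 L) • g := by
      obtain ⟨d, hd, h⟩ := IsLocalization.integerNormalization_spec (nonZeroDivisors (𝓞 L)) g
      exact ⟨⟨d, hd⟩, IsLocalization.integerNormalization (nonZeroDivisors (𝓞 L)) g,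
        h⟩
    have hd0 : d ≠ 0 := nonZeroDivisors.ne_zero hd
    refine ⟨Ideal.absNorm (Ideal.span {d}), by
      rw [Ne, Ideal.absNorm_eq_zero_iff, Ideal.span_singleton_eq_bot]; exact hd0, ?_⟩
    obtain ⟨c, hc⟩ := Ideal.mem_span_singleton.1 (Ideal.absNorm_mem (Ideal.span {d}))
    have hkey : Polynomial.aeval βi g' = algebraMap (𝓞 L) (𝓞 M) d * x := by
      apply RingOfIntegers.ext
      have h1 : algebraMap (𝓞 M) M (Polynomial.aeval βi g') = Polynomial.aeval β g' := by
        rw [← Polynomial.aeval_algebraMap_apply]; rfl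
      show algebraMap (𝓞 M) M _ = algebraMap (𝓞 M) M _
      rw [h1, ← Polynomial.aeval_map_algebraMap L β g', hg']
      show Polynomial.aeval β (d • g) = _
      rw [Algebra.smul_def, map_mul, IsScalarTower.algebraMap_apply (𝓞 L) L (Polynomial L),
        AlgHom.commutes, AdjoinRoot.aeval_eq, hg, map_mul, ← IsScalarTower.algebraMap_apply,
        ← IsScalarTower.algebraMap_apply]
    have : ((Ideal.absNorm (Ideal.span {d}) : ℕ) : 𝓞 M) * x =
        algebraMap (𝓞 L) (𝓞 M) c * Polynomial.aeval βi g' := by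
      rw [hkey, ← mul_assoc, ← map_mul, mul_comm c d, ← hc, map_natCast]
    rw [this]
    exact A.mul_mem (A.algebraMap_mem c) (Polynomial.aeval_mem_adjoin_singleton _ _)
  choose dd hdd0 hdd using hmult
  obtain ⟨gen, hgen⟩ := (Module.Finite.fg_top : (⊤ : Submodule ℤ (𝓞 M)).FG)
  set d : ℕ := ∏ x ∈ gen, dd x
  have hd : ∀ x : 𝓞 M, (d : 𝓞 M) * x ∈ A := by
    intro x
    have hx : x ∈ Submodule.span ℤ (gen : Set (𝓞 M)) := hgen ▸ Submodule.mem_top
    induction hx using Submodule.span_induction with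
    | mem y hy =>
      rw [show d = dd y * ∏ x ∈ gen.erase y, dd x from (Finset.mul_prod_erase _ _ hy).symm,
        Nat.cast_mul, mul_right_comm]
      exact A.mul_mem (hdd y) (natCast_mem A _)
    | zero => rw [mul_zero]; exact A.zero_mem
    | add y z _ _ hy hz => rw [mul_add]; exact A.add_mem hy hz
    | smul a y _ hy => rw [mul_smul_comm]; exact zsmul_mem hy a
  have hd0 : d ≠ 0 := Finset.prod_ne_zero_iff.2 fun x _ => hdd0 x
  set N := Ideal.absNorm (Ideal.span {b})
  have hb0 : b ≠ 0 := fun h => hb 0 (by simp [h, hp.out.ne_zero])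
  have hN0 : N ≠ 0 := by
    rw [Ne, Ideal.absNorm_eq_zero_iff, Ideal.span_singleton_eq_bot]; exact hb0
  refine nres_zeta_contradiction (L := L) (p := p) M
    (E ∪ (p * d * N).primeFactors) fun ℓ hℓ hℓE => ?_
  have := Fact.mk hℓ
  rw [Finset.mem_union, not_or, Nat.mem_primeFactors] at hℓE
  obtain ⟨hℓE, hℓdvd⟩ := hℓE
  have hdvd : ¬ ℓ ∣ p * d * N := fun h => hℓdvd ⟨hℓ, h, by simp [hp.out.ne_zero, hd0, hN0]⟩
  have hdF : (d : ZMod ℓ) ≠ 0 := by
    rw [Ne, ZMod.natCast_eq_zero_iff]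
    exact fun h => hdvd (Dvd.dvd.mul_right (Dvd.dvd.mul_left h p) N)
  have hpF : (p : ZMod ℓ) ≠ 0 := by
    rw [Ne, ZMod.natCast_eq_zero_iff]
    exact fun h => hdvd (Dvd.dvd.mul_right (Dvd.dvd.mul_right h d) N)
  rw [nres_idealCount_eq, nres_idealCount_eq]
  -- roots of `φ b`
  have hroot : ∀ φ : 𝓞 L →+* ZMod ℓ, ∃ r : Fin p → ZMod ℓ, Function.Injective r ∧
      ∀ i, r i ^ p = φ b := by
    intro φ
    have hφb : φ b ≠ 0 := by
      intro h
      obtain ⟨c, hc⟩ := Ideal.mem_span_singleton.1 (Ideal.absNorm_mem (Ideal.span {b}))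
      have := congrArg φ hc
      rw [map_natCast, map_mul, h, zero_mul, ZMod.natCast_eq_zero_iff] at this
      exact hdvd (Dvd.dvd.mul_left this _)
    obtain ⟨z, hz⟩ := hcon ℓ hℓ hℓE φ hφb
    have hz0 : z ≠ 0 := fun h => hφb (by rw [← hz, h, zero_pow hp.out.ne_zero])
    set ζi : 𝓞 L := hζ.toInteger
    have hζi : IsPrimitiveRoot ζi p := hζ.toInteger_isPrimitiveRoot
    set η : ZMod ℓ := φ ζi
    have hη : η ^ p = 1 := by rw [← map_pow, hζi.pow_eq_one, map_one]
    have hη1 : η ≠ 1 := by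
      intro h
      obtain ⟨m, hm⟩ : ∃ m, p = m + 1 := ⟨p - 1, by have := hp.out.pos; omega⟩
      have hζm : IsPrimitiveRoot ζi (m + 1) := hm ▸ hζi
      have h2 := congrArg φ hζm.prod_one_sub_pow_eq_order
      rw [map_prod, map_add, map_natCast, map_one] at h2
      have hmpos : 0 < m := by have := hp.out.two_le; omega
      rw [Finset.prod_eq_zero (Finset.mem_range.2 hmpos) (by rw [map_sub, map_pow, map_one, show φ ζi = 1 from h, one_pow, sub_self])] at h2
      exact hpF (by rw [hm]; push_cast; exact h2.symm)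
    have hηp : IsPrimitiveRoot η p :=
      (IsPrimitiveRoot.iff_def _ _).2 ⟨hη, fun l hl => by
        have h1 : orderOf η ∣ p := orderOf_dvd_of_pow_eq_one hη
        have h2 : orderOf η ≠ 1 := fun h => hη1 (orderOf_eq_one_iff.1 h)
        rw [(hp.out.eq_one_or_self_of_dvd _ h1).resolve_left h2 |>.symm]
        exact orderOf_dvd_of_pow_eq_one hl⟩
    refine ⟨fun i => z * η ^ (i : ℕ), fun i j hij => ?_, fun i => ?_⟩
    · exact Fin.ext (hηp.pow_inj i.2 j.2 (mul_left_cancel₀ hz0 hij))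
    · rw [mul_pow, ← pow_mul, mul_comm (i : ℕ), pow_mul, hη, one_pow, mul_one, hz]
  choose r hr hrp using hroot
  -- the homomorphisms of `M`
  have hext : ∀ (φ : 𝓞 L →+* ZMod ℓ) (i : Fin p), ∃ ψ : 𝓞 M →+* ZMod ℓ,
      (∀ x, ψ (algebraMap (𝓞 L) (𝓞 M) x) = φ x) ∧ ψ βi = r φ i := by
    intro φ i
    let fi : Polynomial (𝓞 L) := Polynomial.X ^ p - Polynomial.C b
    have hfm : fi.Monic := Polynomial.monic_X_pow_sub_C b hp.out.ne_zero
    have hmin : minpoly (𝓞 L) βi = fi := by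
      have hint : IsIntegral (𝓞 L) β :=
        (Algebra.IsIntegral.isIntegral (R := 𝓞 L) βi).algebraMap
      rw [← minpoly.algebraMap_eq (FaithfulSMul.algebraMap_injective (𝓞 M) M) βi]
      show minpoly (𝓞 L) β = fi
      apply Polynomial.map_injective _ (FaithfulSMul.algebraMap_injective (𝓞 L) L)
      rw [← minpoly.isIntegrallyClosed_eq_field_fractions' L hint,
        ← minpoly.eq_of_irreducible_of_monic hirr (x := β) (by simp [f, hβp])
          (Polynomial.monic_X_pow_sub_C _ hp.out.ne_zero)]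
      simp [f, fi]
    let e := minpoly.equivAdjoin (R := 𝓞 L) (x := βi) (Algebra.IsIntegral.isIntegral _)
    let lift : AdjoinRoot (minpoly (𝓞 L) βi) →+* ZMod ℓ :=
      AdjoinRoot.lift φ (r φ i) (by rw [hmin]; simp [fi, hrp])
    refine ⟨nresExtend A d hd (lift.comp e.symm.toRingHom) hdF, fun x => ?_, ?_⟩
    · have h1 := nresExtend_apply A d hd (lift.comp e.symm.toRingHom) hdF (algebraMap (𝓞 L) A x)
      refine h1.trans ?_
      show lift (e.symm (algebraMap (𝓞 L) A x)) = _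
      rw [AlgEquiv.commutes, AdjoinRoot.algebraMap_eq]
      exact AdjoinRoot.lift_of _
    · have h1 := nresExtend_apply A d hd (lift.comp e.symm.toRingHom) hdF
        ⟨βi, Algebra.self_mem_adjoin_singleton _ _⟩
      refine h1.trans ?_
      show lift (e.symm _) = _
      have : e.symm ⟨βi, Algebra.self_mem_adjoin_singleton _ _⟩ = AdjoinRoot.root _ := by
        rw [AlgEquiv.symm_apply_eq]
        apply Subtype.ext
        simp [e, minpoly.equivAdjoin, AdjoinRoot.Minpoly.toAdjoin, AdjoinRoot.liftAlgHom_root]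
      rw [this]
      exact AdjoinRoot.lift_root _
  choose ψ hψ hψβ using hext
  have := nres_finite_hom M (ℓ := ℓ)
  have hcard := Nat.card_le_card_of_injective
    (fun x : Fin p × (𝓞 L →+* ZMod ℓ) => ψ x.2 x.1) (by
      rintro ⟨i, φ⟩ ⟨j, φ'⟩ h
      obtain rfl : φ = φ' := RingHom.ext fun x => by
        rw [← hψ φ i x, ← hψ φ' j x]
        exact congrArg (fun g : 𝓞 M →+* ZMod ℓ => g (algebraMap (𝓞 L) (𝓞 M) x)) h
      obtain rfl : i = j := hr φ (by rw [← hψβ φ i, ← hψβ φ j]; exact congrArg (fun g : 𝓞 M →+* ZMod ℓ => g βi) h)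
      rfl)
  rwa [Nat.card_prod, Nat.card_fin] at hcard

end Fermat.Agent.CFT
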