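import Mathlib.NumberTheory.NumberField.Units.DirichletTheorem
import Mathlib.NumberTheory.NumberField.ClassNumber
import Mathlib.RingTheory.DedekindDomain.SInteger
import Mathlib.RingTheory.DedekindDomain.SelmerGroup
import Mathlib.LinearAlgebra.Dimension.RankNullity
import Mathlib.LinearAlgebra.Dimension.Localization
import Mathlib.GroupTheory.Index
import Mathlib.LinearAlgebra.FreeModule.PID
import Mathlib.LinearAlgebra.Dimension.Torsion.Basic
import Mathlib.GroupTheory.FiniteAbelian.Basic

/-!
# The group of `S`-units modulo `p`-th powers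

If the number field `K` contains a primitive `p`-th root of unity, `p` odd, then
`[U_S : U_S ^ p] = p ^ (#S + r₂)`.
-/

namespace Fermat.Agent.CFT

open NumberField IsDedekindDomain Module

section Abelian

variable (A : Type*) [AddCommGroup A] [Module.Finite ℤ A] (n : ℕ)

theorem supm_index_nsmul (hn : n ≠ 0) :
    (nsmulAddMonoidHom n : A →+ A).range.index =
      n ^ finrank ℤ A * Nat.card {a : A // n • a = 0} := by
  classical
  set T : Submodule ℤ A := Submodule.torsion ℤ A
  have hT : Finite T := Module.finite_of_fg_torsion T (fun ⟨a, ha⟩ => by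
    obtain ⟨c, hc⟩ := ha
    exact ⟨c, Subtype.ext hc⟩)
  have : Module.Free ℤ (A ⧸ T) := Module.free_of_finite_type_torsion_free'
  obtain ⟨s, hs⟩ := Module.projective_lifting_property T.mkQ LinearMap.id T.mkQ_surjective
  have hs' : ∀ q, T.mkQ (s q) = q := fun q => LinearMap.congr_fun hs q
  let e : (T × (A ⧸ T)) ≃+ A :=
    AddEquiv.ofBijective (AddMonoidHom.coprod T.subtype.toAddMonoidHom s.toAddMonoidHom) (by
      constructor
      · rintro ⟨t, q⟩ ⟨t', q'⟩ h
        simp only [AddMonoidHom.coprod_apply, LinearMap.toAddMonoidHom_coe,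
          Submodule.subtype_apply] at h
        have h1 := congrArg T.mkQ h
        rw [map_add, map_add, hs', hs'] at h1
        have e1 : T.mkQ (t : A) = 0 := (Submodule.Quotient.mk_eq_zero T).2 t.2
        have e2 : T.mkQ (t' : A) = 0 := (Submodule.Quotient.mk_eq_zero T).2 t'.2
        rw [e1, e2, zero_add, zero_add] at h1
        subst h1
        exact Prod.ext (Subtype.ext (add_right_cancel h)) rfl
      · intro a
        refine ⟨(⟨a - s (T.mkQ a), ?_⟩, T.mkQ a), ?_⟩
        · refine (Submodule.Quotient.mk_eq_zero T).1 ?_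
          show T.mkQ (a - s (T.mkQ a)) = 0
          rw [map_sub, hs', sub_self]
        · simp)
  let b := Module.Free.chooseBasis ℤ (A ⧸ T)
  have hr : finrank ℤ A = Fintype.card (Module.Free.ChooseBasisIndex ℤ (A ⧸ T)) := by
    rw [← Module.finrank_eq_card_chooseBasisIndex, ← finrank_quotient_torsion_eq (M := A),
      ← Submodule.torsion_int, Submodule.toAddSubgroup_toIntSubmodule]
  let e' : (T × (Module.Free.ChooseBasisIndex ℤ (A ⧸ T) → ℤ)) ≃+ A :=
    ((AddEquiv.refl T).prodCongr b.equivFun.toAddEquiv.symm).trans e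
  have hrange : (nsmulAddMonoidHom n : A →+ A).range =
      (((nsmulAddMonoidHom n : T →+ T).range).prod
        (nsmulAddMonoidHom n : (Module.Free.ChooseBasisIndex ℤ (A ⧸ T) → ℤ) →+ _).range).map
        e'.toAddMonoidHom := by
    apply le_antisymm
    · rintro _ ⟨a, rfl⟩
      obtain ⟨⟨t, f⟩, rfl⟩ := e'.surjective a
      exact ⟨n • (t, f), ⟨⟨t, rfl⟩, ⟨f, rfl⟩⟩, map_nsmul e'.toAddMonoidHom n (t, f)⟩
    · rintro _ ⟨⟨_, _⟩, ⟨⟨t, rfl⟩, ⟨f, rfl⟩⟩, rfl⟩
      exact ⟨e' (t, f), (map_nsmul e'.toAddMonoidHom n (t, f)).symm⟩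
  have hpi : ((nsmulAddMonoidHom n : (Module.Free.ChooseBasisIndex ℤ (A ⧸ T) → ℤ) →+ _).range).index
      = n ^ Fintype.card (Module.Free.ChooseBasisIndex ℤ (A ⧸ T)) := by
    have hne : NeZero n := ⟨hn⟩
    let red : (Module.Free.ChooseBasisIndex ℤ (A ⧸ T) → ℤ) →+
        (Module.Free.ChooseBasisIndex ℤ (A ⧸ T) → ZMod n) :=
      AddMonoidHom.compLeft (Int.castAddHom (ZMod n)) _
    have hker : red.ker =
        (nsmulAddMonoidHom n : (Module.Free.ChooseBasisIndex ℤ (A ⧸ T) → ℤ) →+ _).range := by
      ext f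
      constructor
      · intro hf
        refine ⟨fun i => f i / n, funext fun i => ?_⟩
        have h1 : ((f i : ℤ) : ZMod n) = 0 := congrFun hf i
        rw [ZMod.intCast_zmod_eq_zero_iff_dvd] at h1
        simp only [nsmulAddMonoidHom_apply, Pi.smul_apply, nsmul_eq_mul]
        exact Int.mul_ediv_cancel' h1
      · rintro ⟨g, rfl⟩
        funext i
        simp [red]
    have hsurj : Function.Surjective red := fun f =>
      ⟨fun i => (f i).cast, funext fun i => by simp [red]⟩
    rw [← hker, AddSubgroup.index_ker, AddMonoidHom.range_eq_top.2 hsurj,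
      AddSubgroup.card_top, Nat.card_fun, Nat.card_zmod, Nat.card_eq_fintype_card]
  have htor : ((nsmulAddMonoidHom n : T →+ T).range).index =
      Nat.card {a : A // n • a = 0} := by
    rw [AddSubgroup.index_range]
    refine Nat.card_congr ⟨fun t => ⟨(t.1 : A), congrArg Subtype.val t.2⟩,
      fun a => ⟨⟨a.1, ⟨⟨(n : ℤ), mem_nonZeroDivisors_of_ne_zero (by exact_mod_cast hn)⟩, ?_⟩⟩,
        Subtype.ext a.2⟩, fun _ => rfl, fun _ => rfl⟩
    show (n : ℤ) • a.1 = 0
    rw [natCast_zsmul]; exact a.2
  rw [hrange, AddSubgroup.index_map_of_bijective (f := e'.toAddMonoidHom) e'.bijective, AddSubgroup.index_prod, htor, hpi, hr, mul_comm]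

end Abelian

variable {K : Type*} [Field K] [NumberField K]

/-- The valuation vector of an `S`-unit. -/
noncomputable def supmVal (S : Finset (HeightOneSpectrum (𝓞 K))) :
    ↥((↑S : Set (HeightOneSpectrum (𝓞 K))).unit K) →* (S → Multiplicative ℤ) :=
  MonoidHom.pi fun v => (v.1.valuationOfNeZero).comp (Subgroup.subtype _)

theorem supm_mem_unit_iff {S : Set (HeightOneSpectrum (𝓞 K))} {x : Kˣ} :
    x ∈ S.unit K ↔ ∀ v ∉ S, v.valuation K (x : K) = 1 :=
  Iff.rfl

/-- A unit of `K` with all valuations trivial comes from a unit of the ring of integers. -/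
theorem supm_exists_unit {x : Kˣ}
    (h : ∀ v : HeightOneSpectrum (𝓞 K), v.valuation K (x : K) = 1) :
    ∃ u : (𝓞 K)ˣ, Units.map (algebraMap (𝓞 K) K : 𝓞 K →* K) u = x := by
  obtain ⟨a, ha⟩ :=
    HeightOneSpectrum.mem_integers_of_valuation_le_one K (x : K) fun v => (h v).le
  obtain ⟨b, hb⟩ := HeightOneSpectrum.mem_integers_of_valuation_le_one K
    ((x⁻¹ : Kˣ) : K) fun v => by rw [Units.val_inv_eq_inv_val, map_inv₀, h v, inv_one]
  have hab : a * b = 1 := by
    apply FaithfulSMul.algebraMap_injective (𝓞 K) K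
    rw [map_mul, map_one, ha, hb, Units.mul_inv]
  exact ⟨Units.mkOfMulEqOne a b hab, Units.ext (by simpa using ha)⟩

/-- Some positive power of every prime is the valuation vector of an element. -/
theorem supm_exists_supported (v : HeightOneSpectrum (𝓞 K)) :
    ∃ (x : Kˣ) (k : ℕ), 0 < k ∧ (∀ w, w ≠ v → w.valuation K (x : K) = 1) ∧
      Multiplicative.toAdd (v.valuationOfNeZero x) = -(k : ℤ) := by
  classical
  set h := Fintype.card (ClassGroup (𝓞 K))
  let I : nonZeroDivisors (Ideal (𝓞 K)) := ⟨v.asIdeal, mem_nonZeroDivisors_of_ne_zero v.ne_bot⟩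
  have h1 : ClassGroup.mk0 (I ^ h) = 1 := by rw [map_pow, pow_card_eq_one]
  rw [ClassGroup.mk0_eq_one_iff] at h1
  obtain ⟨a, ha⟩ := h1
  change v.asIdeal ^ h = Ideal.span {a} at ha
  have ha0 : a ≠ 0 := by
    rintro rfl
    rw [Ideal.span_singleton_eq_bot.2 rfl] at ha
    exact v.ne_bot (eq_zero_of_pow_eq_zero ha)
  refine ⟨Units.mk0 (algebraMap (𝓞 K) K a) (by simpa using ha0), h, Fintype.card_pos, ?_, ?_⟩
  · intro w hw
    show w.valuation K (algebraMap (𝓞 K) K a) = 1
    rw [HeightOneSpectrum.valuation_eq_one_iff_notMem]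
    intro hmem
    have h2 : v.asIdeal ^ h ≤ w.asIdeal := ha ▸ (Ideal.span_singleton_le_iff_mem _).2 hmem
    have h3 : v.asIdeal ≤ w.asIdeal := w.isPrime.le_of_pow_le h2
    exact hw (HeightOneSpectrum.ext (v.isMaximal.eq_of_le w.isPrime.ne_top h3).symm)
  · have h2 : (v.valuationOfNeZero
        (Units.mk0 (algebraMap (𝓞 K) K a) (by simpa using ha0)) : WithZero (Multiplicative ℤ)) =
        (Multiplicative.ofAdd (-(h : ℤ)) : Multiplicative ℤ) := by
      rw [HeightOneSpectrum.valuationOfNeZero_eq]
      show v.valuation K (algebraMap (𝓞 K) K a) = _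
      rw [HeightOneSpectrum.valuation_of_algebraMap,
        v.intValuation_eq_exp_neg_multiplicity ha0, ← ha]
      rw [multiplicity_pow_self_of_prime ((Ideal.prime_iff_isPrime v.ne_bot).2 v.isPrime)]
      rfl
    rw [WithZero.coe_inj.1 h2, toAdd_ofAdd]

variable (S : Finset (HeightOneSpectrum (𝓞 K)))

/-- The valuation vector as a `ℤ`-linear map. -/
noncomputable def supmValL :
    Additive ↥((↑S : Set (HeightOneSpectrum (𝓞 K))).unit K) →ₗ[ℤ] (S → ℤ) :=
  AddMonoidHom.toIntLinearMap
    { toFun := fun x v => Multiplicative.toAdd (supmVal S x.toMul v)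
      map_zero' := by ext v; simp
      map_add' := fun x y => by ext v; simp }

/-- Units of `𝓞 K` as `S`-units. -/
noncomputable def supmUnitL :
    Additive (𝓞 K)ˣ →ₗ[ℤ] Additive ↥((↑S : Set (HeightOneSpectrum (𝓞 K))).unit K) :=
  AddMonoidHom.toIntLinearMap (MonoidHom.toAdditive
    ((Units.map (algebraMap (𝓞 K) K : 𝓞 K →* K)).codRestrict
      ((↑S : Set (HeightOneSpectrum (𝓞 K))).unit K) fun u v _ => by
        rw [← HeightOneSpectrum.valuationOfNeZero_eq, v.valuation_of_unit_eq]
        rfl))

theorem supm_ker_valL : LinearMap.ker (supmValL S) = LinearMap.range (supmUnitL S) := by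
  ext x
  constructor
  · intro hx
    have h : ∀ v : HeightOneSpectrum (𝓞 K), v.valuation K ((x.toMul : Kˣ) : K) = 1 := by
      intro v
      by_cases hv : v ∈ S
      · have h1 : Multiplicative.toAdd (supmVal S x.toMul ⟨v, hv⟩) = 0 := congrFun hx ⟨v, hv⟩
        have h2 : v.valuationOfNeZero (x.toMul : Kˣ) = 1 := h1
        rw [← HeightOneSpectrum.valuationOfNeZero_eq, h2]
        rfl
      · exact x.toMul.2 v hv
    obtain ⟨u, hu⟩ := supm_exists_unit h
    exact ⟨Additive.ofMul u, Additive.toMul.injective (Subtype.ext hu)⟩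
  · rintro ⟨u, rfl⟩
    funext v
    exact congrArg Multiplicative.toAdd (v.1.valuation_of_unit_eq (K := K) u.toMul)

theorem supm_finrank_ker : finrank ℤ (LinearMap.ker (supmValL S)) = Units.rank K := by
  rw [supm_ker_valL, LinearMap.finrank_range_of_inj, Units.finrank_eq]
  intro u u' h
  have h1 := congrArg
    (fun t : Additive ↥((↑S : Set (HeightOneSpectrum (𝓞 K))).unit K) =>
      (((Additive.toMul t).1 : Kˣ) : K)) h
  exact Additive.toMul.injective
    (Units.ext (FaithfulSMul.algebraMap_injective (𝓞 K) K h1))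

theorem supm_finrank_range : finrank ℤ (LinearMap.range (supmValL S)) = S.card := by
  classical
  apply le_antisymm
  · exact (Submodule.finrank_le _).trans_eq (by simp)
  choose x k hk hx hxv using supm_exists_supported (K := K)
  let y : S → Additive ↥((↑S : Set (HeightOneSpectrum (𝓞 K))).unit K) := fun v =>
    Additive.ofMul ⟨x v.1, fun w hw => hx v.1 w (fun h => hw (h ▸ v.2))⟩
  have hy : ∀ v, supmValL S (y v) = Pi.single v (-(k v.1 : ℤ)) := by
    intro v; funext w
    by_cases h : w = v
    · subst h; rw [Pi.single_eq_same]; exact hxv w.1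
    · rw [Pi.single_eq_of_ne h]
      show Multiplicative.toAdd (w.1.valuationOfNeZero (x v.1)) = 0
      have : w.1.valuationOfNeZero (x v.1) = 1 := by
        rw [← WithZero.coe_inj, HeightOneSpectrum.valuationOfNeZero_eq]
        exact hx v.1 w.1 fun h' => h (Subtype.ext h')
      rw [this]; rfl
  have hli : LinearIndependent ℤ
      (fun v => (⟨supmValL S (y v), LinearMap.mem_range_self _ _⟩ :
        LinearMap.range (supmValL S))) := by
    rw [Fintype.linearIndependent_iff]
    intro c hc v
    have h1 := congrFun (congrArg Subtype.val hc) v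
    simp only [Submodule.coe_sum, Submodule.coe_smul, hy, Finset.sum_apply, Pi.smul_apply,
      Pi.single_apply, ZeroMemClass.coe_zero, Pi.zero_apply, smul_eq_mul, mul_ite, mul_zero,
      Finset.sum_ite_eq, Finset.mem_univ, if_true] at h1
    have := hk v.1
    rcases mul_eq_zero.1 h1 with h | h
    · exact h
    · omega
  simpa using hli.fintype_card_le_finrank

instance supm_finite_unit :
    Module.Finite ℤ (Additive ↥((↑S : Set (HeightOneSpectrum (𝓞 K))).unit K)) := by
  have h1 : Module.Finite ℤ (LinearMap.ker (supmValL S)) := by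
    rw [supm_ker_valL]; infer_instance
  rw [Module.finite_def]
  refine Submodule.fg_of_fg_map_of_fg_inf_ker (supmValL S) ?_ ?_
  · exact IsNoetherian.noetherian _
  · rw [inf_of_le_right le_top]; exact Module.Finite.iff_fg.1 h1

theorem supm_finrank :
    finrank ℤ (Additive ↥((↑S : Set (HeightOneSpectrum (𝓞 K))).unit K)) =
      Units.rank K + S.card := by
  rw [← (LinearMap.ker (supmValL S)).finrank_quotient_add_finrank,
    (supmValL S).quotKerEquivRange.finrank_eq, supm_finrank_range, supm_finrank_ker, add_comm]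

/-- `[U_S : U_S ^ p] = p ^ (#S + r₂)` when `K ∋ ζ_p`, `p` odd. -/
theorem supm_index {p : ℕ} [hp : Fact p.Prime] (hp2 : p ≠ 2) {ζ : K}
    (hζ : IsPrimitiveRoot ζ p) :
    (powMonoidHom p : ↥((↑S : Set (HeightOneSpectrum (𝓞 K))).unit K) →* _).range.index =
      p ^ (S.card + InfinitePlace.nrComplexPlaces K) := by
  classical
  have h2p : 2 < p := lt_of_le_of_ne hp.out.two_le (Ne.symm hp2)
  have hr : InfinitePlace.nrRealPlaces K = 0 := NumberField.InfinitePlace.IsPrimitiveRoot.nrRealPlaces_eq_zero_of_two_lt h2p hζ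
  have hc := InfinitePlace.card_eq_nrRealPlaces_add_nrComplexPlaces (K := K)
  have htor : Nat.card {a : Additive ↥((↑S : Set (HeightOneSpectrum (𝓞 K))).unit K) //
      p • a = 0} = p := by
    have h1 := hζ.card_rootsOfUnity
    refine Eq.trans (Nat.card_congr ?_) h1
    exact {
      toFun := fun a => ⟨(a.1.toMul : Kˣ), by
        rw [mem_rootsOfUnity]
        exact congrArg (fun t : Additive ↥((↑S : Set (HeightOneSpectrum (𝓞 K))).unit K) =>
          (Additive.toMul t).1) a.2⟩
      invFun := fun u => ⟨Additive.ofMul ⟨u.1, fun v _ => by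
          have h : v.valuation K ((u.1 : Kˣ) : K) ^ p = 1 := by
            rw [← map_pow, ← Units.val_pow_eq_pow_val, (mem_rootsOfUnity p u.1).1 u.2,
              Units.val_one, map_one]
          exact (pow_eq_one_iff_of_nonneg zero_le' hp.out.ne_zero).1 h⟩,
        Additive.toMul.injective (Subtype.ext ((mem_rootsOfUnity p u.1).1 u.2))⟩
      left_inv := fun a => rfl
      right_inv := fun u => rfl }
  have h := supm_index_nsmul (Additive ↥((↑S : Set (HeightOneSpectrum (𝓞 K))).unit K)) p
    hp.out.ne_zero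
  have hpos : 0 < Fintype.card (InfinitePlace K) := Fintype.card_pos
  rw [htor, supm_finrank, ← pow_succ] at h
  unfold Units.rank at h
  rw [show Fintype.card (InfinitePlace K) - 1 + S.card + 1 =
    S.card + InfinitePlace.nrComplexPlaces K by omega] at h
  rw [← h]
  rfl

end Fermat.Agent.CFT
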