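import Mathlib

/-!
# Herbrand quotients

`HerbrandPair A`: two endomorphisms `f g` of an abelian group with `f g = g f = 0`.
`HasQ P q`: both cohomology groups are finite and the ratio of their orders is `q`.
-/

namespace Fermat.Agent.CFT

universe u

structure HerbrandPair (A : Type*) [AddCommGroup A] where
  f : A →+ A
  g : A →+ A
  fg : ∀ a, f (g a) = 0
  gf : ∀ a, g (f a) = 0

namespace HerbrandPair

variable {A B C : Type*} [AddCommGroup A] [AddCommGroup B] [AddCommGroup C]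
variable (P : HerbrandPair A) (P' : HerbrandPair B) (P'' : HerbrandPair C)

@[simps]
def swap : HerbrandPair A := ⟨P.g, P.f, P.gf, P.fg⟩

/-- `ker f / im g`. -/
abbrev H : Type _ := P.f.ker ⧸ P.g.range.addSubgroupOf P.f.ker

abbrev cls : P.f.ker →+ P.H := QuotientAddGroup.mk' _

lemma cls_surjective : Function.Surjective P.cls := QuotientAddGroup.mk'_surjective _

lemma cls_eq_zero_iff {a : P.f.ker} : P.cls a = 0 ↔ ∃ x, P.g x = a.1 := by
  simp [QuotientAddGroup.eq_zero_iff, AddSubgroup.mem_addSubgroupOf]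

lemma cls_eq_cls_iff {a b : P.f.ker} : P.cls a = P.cls b ↔ ∃ x, P.g x = a.1 - b.1 := by
  rw [← sub_eq_zero, ← map_sub, cls_eq_zero_iff]; rfl

/-- `HasQ P q`: both cohomology groups are finite and `#H / #H' = q`. -/
structure HasQ (q : ℚ) : Prop where
  ne₀ : Nat.card P.H ≠ 0
  ne₁ : Nat.card P.swap.H ≠ 0
  eq : (Nat.card P.H : ℚ) / Nat.card P.swap.H = q

lemma HasQ.pos {q : ℚ} (h : P.HasQ q) : 0 < q := by
  rw [← h.eq]
  have h₀ := Nat.pos_of_ne_zero h.ne₀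
  have h₁ := Nat.pos_of_ne_zero h.ne₁
  positivity

lemma HasQ.unique {q q' : ℚ} (h : P.HasQ q) (h' : P.HasQ q') : q = q' := h.eq ▸ h'.eq

lemma HasQ.le_card {q : ℚ} (h : P.HasQ q) : q ≤ Nat.card P.H := by
  rw [← h.eq]
  exact div_le_self (by positivity) (by exact_mod_cast Nat.pos_of_ne_zero h.ne₁)

lemma HasQ.of_eq {q q' : ℚ} (h : P.HasQ q) (e : q = q') : P.HasQ q' := e ▸ h

variable {P P' P''}

/-- A morphism commuting with both endomorphisms. -/
structure Hom (P : HerbrandPair A) (P' : HerbrandPair B) (φ : A →+ B) : Prop where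
  comm_f : ∀ a, φ (P.f a) = P'.f (φ a)
  comm_g : ∀ a, φ (P.g a) = P'.g (φ a)

lemma Hom.swap {φ : A →+ B} (h : Hom P P' φ) : Hom P.swap P'.swap φ := ⟨h.comm_g, h.comm_f⟩

def Hom.kerMap {φ : A →+ B} (h : Hom P P' φ) : P.f.ker →+ P'.f.ker :=
  (φ.comp P.f.ker.subtype).codRestrict _ fun a => by
    have : P.f a.1 = 0 := a.2
    simp [AddMonoidHom.mem_ker, ← h.comm_f, this]

@[simp] lemma Hom.kerMap_coe {φ : A →+ B} (h : Hom P P' φ) (a : P.f.ker) :
    (h.kerMap a : B) = φ a := rfl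

def Hom.map {φ : A →+ B} (h : Hom P P' φ) : P.H →+ P'.H :=
  QuotientAddGroup.lift _ (P'.cls.comp h.kerMap) fun a ha => by
    obtain ⟨x, hx⟩ := (cls_eq_zero_iff P).1 ((QuotientAddGroup.eq_zero_iff a).2 ha)
    exact (cls_eq_zero_iff P').2 ⟨φ x, by rw [← h.comm_g, hx]; rfl⟩

@[simp] lemma Hom.map_cls {φ : A →+ B} (h : Hom P P' φ) (a : P.f.ker) :
    h.map (P.cls a) = P'.cls (h.kerMap a) := rfl

/-- A short exact sequence of Herbrand pairs. -/
structure ShortExact (P : HerbrandPair A) (P' : HerbrandPair B) (P'' : HerbrandPair C)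
    (ι : A →+ B) (π : B →+ C) : Prop where
  inj : Function.Injective ι
  surj : Function.Surjective π
  exact : ∀ b, π b = 0 ↔ ∃ a, ι a = b
  homι : Hom P P' ι
  homπ : Hom P' P'' π

variable {ι : A →+ B} {π : B →+ C}

lemma ShortExact.swap (h : ShortExact P P' P'' ι π) :
    ShortExact P.swap P'.swap P''.swap ι π :=
  ⟨h.inj, h.surj, h.exact, h.homι.swap, h.homπ.swap⟩

lemma ShortExact.π_ι (h : ShortExact P P' P'' ι π) (a : A) : π (ι a) = 0 :=
  (h.exact _).2 ⟨a, rfl⟩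

lemma ShortExact.exists_lift (h : ShortExact P P' P'' ι π) (c : P''.f.ker) :
    ∃ a : P.swap.f.ker, ∃ b, π b = c.1 ∧ ι a.1 = P'.f b := by
  obtain ⟨b, hb⟩ := h.surj c.1
  obtain ⟨a, ha⟩ := (h.exact (P'.f b)).1 (by rw [h.homπ.comm_f, hb]; exact c.2)
  refine ⟨⟨a, ?_⟩, b, hb, ha⟩
  change P.g a = 0
  apply h.inj
  rw [h.homι.comm_g, ha, P'.gf, map_zero]

lemma ShortExact.lift_indep (h : ShortExact P P' P'' ι π) {c : C} {a a' : P.swap.f.ker} {b b' : B}
    (hb : π b = c) (ha : ι a.1 = P'.f b) (hb' : π b' = c) (ha' : ι a'.1 = P'.f b') :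
    P.swap.cls a = P.swap.cls a' := by
  obtain ⟨x, hx⟩ := (h.exact (b - b')).1 (by rw [map_sub, hb, hb', sub_self])
  refine (cls_eq_cls_iff _).2 ⟨x, h.inj ?_⟩
  show ι (P.f x) = ι (a.1 - a'.1)
  rw [h.homι.comm_f, hx, map_sub, map_sub, ha, ha']

noncomputable def ShortExact.deltaKer (h : ShortExact P P' P'' ι π) : P''.f.ker →+ P.swap.H :=
  AddMonoidHom.mk' (fun c => P.swap.cls (h.exists_lift c).choose) fun c d => by
    obtain ⟨b, hb, ha⟩ := (h.exists_lift c).choose_spec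
    obtain ⟨b', hb', ha'⟩ := (h.exists_lift d).choose_spec
    obtain ⟨b'', hb'', ha''⟩ := (h.exists_lift (c + d)).choose_spec
    rw [← map_add]
    exact h.lift_indep hb'' ha'' (b' := b + b') (by simp [map_add, hb, hb'])
      (by simp [map_add, ha, ha'])

lemma ShortExact.deltaKer_eq (h : ShortExact P P' P'' ι π) {c : P''.f.ker} {a : P.swap.f.ker} {b : B}
    (hb : π b = c.1) (ha : ι a.1 = P'.f b) : h.deltaKer c = P.swap.cls a := by
  obtain ⟨b', hb', ha'⟩ := (h.exists_lift c).choose_spec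
  exact h.lift_indep hb' ha' hb ha

noncomputable def ShortExact.delta (h : ShortExact P P' P'' ι π) : P''.H →+ P.swap.H :=
  QuotientAddGroup.lift _ h.deltaKer fun c hc => by
    obtain ⟨x, hx⟩ := (cls_eq_zero_iff P'').1 ((QuotientAddGroup.eq_zero_iff c).2 hc)
    obtain ⟨y, rfl⟩ := h.surj x
    rw [AddMonoidHom.mem_ker,
      h.deltaKer_eq (a := 0) (b := P'.g y) (by rw [h.homπ.comm_g, hx]) (by simp [P'.fg]),
      map_zero]

@[simp] lemma ShortExact.delta_cls (h : ShortExact P P' P'' ι π) (c : P''.f.ker) :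
    h.delta (P''.cls c) = h.deltaKer c := rfl

lemma ShortExact.exact₁ (h : ShortExact P P' P'' ι π) : h.homπ.map.ker = h.homι.map.range := by
  ext x
  obtain ⟨b, rfl⟩ := P'.cls_surjective x
  rw [AddMonoidHom.mem_ker, AddMonoidHom.mem_range, Hom.map_cls, cls_eq_zero_iff]
  constructor
  · rintro ⟨z, hz⟩
    obtain ⟨y, rfl⟩ := h.surj z
    have hz' : π (b.1 - P'.g y) = 0 := by
      rw [map_sub, h.homπ.comm_g, hz, Hom.kerMap_coe, sub_self]
    obtain ⟨a, ha⟩ := (h.exact _).1 hz'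
    have haf : a ∈ P.f.ker := by
      apply h.inj
      rw [h.homι.comm_f, ha, map_sub, P'.fg, map_zero, sub_zero]
      exact b.2
    refine ⟨P.cls ⟨a, haf⟩, ?_⟩
    rw [Hom.map_cls, cls_eq_cls_iff]
    exact ⟨-y, by simp [ha]⟩
  · rintro ⟨a', ha'⟩
    obtain ⟨a, rfl⟩ := P.cls_surjective a'
    rw [Hom.map_cls, cls_eq_cls_iff] at ha'
    obtain ⟨y, hy⟩ := ha'
    refine ⟨π (-y), ?_⟩
    rw [← h.homπ.comm_g, Hom.kerMap_coe]
    simp only [Hom.kerMap_coe] at hy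
    rw [map_neg, hy, map_neg, map_sub, h.π_ι, zero_sub, neg_neg]

lemma ShortExact.exact₂ (h : ShortExact P P' P'' ι π) : h.delta.ker = h.homπ.map.range := by
  ext x
  obtain ⟨c, rfl⟩ := P''.cls_surjective x
  rw [AddMonoidHom.mem_ker, AddMonoidHom.mem_range, ShortExact.delta_cls]
  constructor
  · intro h0
    obtain ⟨a, b, hb, ha⟩ := h.exists_lift c
    rw [h.deltaKer_eq hb ha, cls_eq_zero_iff] at h0
    obtain ⟨y, hy⟩ := h0
    have hy' : P.f y = a.1 := hy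
    have hker : b - ι y ∈ P'.f.ker := by
      rw [AddMonoidHom.mem_ker, map_sub, ← h.homι.comm_f, hy', ha, sub_self]
    refine ⟨P'.cls ⟨b - ι y, hker⟩, ?_⟩
    rw [Hom.map_cls, cls_eq_cls_iff]
    exact ⟨0, by simp [hb, h.π_ι]⟩
  · rintro ⟨b', hb'⟩
    obtain ⟨b, rfl⟩ := P'.cls_surjective b'
    rw [Hom.map_cls] at hb'
    rw [← h.delta_cls, ← hb', h.delta_cls,
      h.deltaKer_eq (a := 0) (b := b.1) rfl (by simpa using (show P'.f b.1 = 0 from b.2).symm),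
      map_zero]

lemma ShortExact.exact₃ (h : ShortExact P P' P'' ι π) :
    h.homι.swap.map.ker = h.delta.range := by
  ext x
  obtain ⟨a, rfl⟩ := P.swap.cls_surjective x
  rw [AddMonoidHom.mem_ker, AddMonoidHom.mem_range, Hom.map_cls, cls_eq_zero_iff]
  constructor
  · rintro ⟨b, hb⟩
    have hb' : P'.f b = ι a.1 := hb
    have hc : π b ∈ P''.f.ker := by
      rw [AddMonoidHom.mem_ker, ← h.homπ.comm_f, hb', h.π_ι]
    exact ⟨P''.cls ⟨π b, hc⟩, h.deltaKer_eq (c := ⟨π b, hc⟩) rfl hb'.symm⟩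
  · rintro ⟨c', hc'⟩
    obtain ⟨c, rfl⟩ := P''.cls_surjective c'
    obtain ⟨a', b, hb, ha⟩ := h.exists_lift c
    rw [h.delta_cls, h.deltaKer_eq hb ha, cls_eq_cls_iff] at hc'
    obtain ⟨y, hy⟩ := hc'
    refine ⟨b - ι y, ?_⟩
    change P'.f (b - ι y) = ι a.1
    rw [map_sub, ← h.homι.comm_f, show P.f y = a'.1 - a.1 from hy, map_sub, ha, sub_sub_cancel]

lemma card_eq_card_ker_mul_card_range {X Y : Type*} [AddCommGroup X] [AddCommGroup Y]
    (φ : X →+ Y) : Nat.card X = Nat.card φ.ker * Nat.card φ.range := by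
  rw [AddSubgroup.card_eq_card_quotient_mul_card_addSubgroup φ.ker,
    Nat.card_congr (QuotientAddGroup.quotientKerEquivRange φ).toEquiv, mul_comm]

/-- Multiplicativity of the Herbrand quotient in the division-free form, with finiteness. -/
lemma ShortExact.card_relation (h : ShortExact P P' P'' ι π) :
    ∃ r₁ r₂ r₃ r₄ r₅ r₆ : ℕ, Nat.card P.H = r₆ * r₁ ∧ Nat.card P'.H = r₁ * r₂ ∧
      Nat.card P''.H = r₂ * r₃ ∧ Nat.card P.swap.H = r₃ * r₄ ∧
      Nat.card P'.swap.H = r₄ * r₅ ∧ Nat.card P''.swap.H = r₅ * r₆ := by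
  refine ⟨Nat.card h.homι.map.range, Nat.card h.homπ.map.range, Nat.card h.delta.range,
    Nat.card h.homι.swap.map.range, Nat.card h.homπ.swap.map.range,
    Nat.card h.swap.delta.range, ?_, ?_, ?_, ?_, ?_, ?_⟩
  · rw [card_eq_card_ker_mul_card_range h.homι.map, h.swap.exact₃.symm]; rfl
  · rw [card_eq_card_ker_mul_card_range h.homπ.map, h.exact₁]
  · rw [card_eq_card_ker_mul_card_range h.delta, h.exact₂]
  · rw [card_eq_card_ker_mul_card_range h.homι.swap.map, h.exact₃]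
  · rw [card_eq_card_ker_mul_card_range h.homπ.swap.map, h.swap.exact₁]
  · rw [card_eq_card_ker_mul_card_range h.swap.delta, h.swap.exact₂]

lemma ShortExact.mul_eq (h : ShortExact P P' P'' ι π) {a b c : ℚ} (ha : P.HasQ a)
    (hb : P'.HasQ b) (hc : P''.HasQ c) : b = a * c := by
  obtain ⟨r₁, r₂, r₃, r₄, r₅, r₆, e₀, e₀', e₀'', e₁, e₁', e₁''⟩ := h.card_relation
  have n₁ := e₀ ▸ ha.ne₀
  have n₂ := e₁ ▸ ha.ne₁
  have n₃ := e₀' ▸ hb.ne₀
  have n₄ := e₁' ▸ hb.ne₁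
  simp only [mul_ne_zero_iff] at n₁ n₂ n₃ n₄
  obtain ⟨n6, n1⟩ := n₁
  obtain ⟨n3, n4⟩ := n₂
  obtain ⟨-, n2⟩ := n₃
  obtain ⟨-, n5⟩ := n₄
  have q1 : (r₁ : ℚ) ≠ 0 := by exact_mod_cast n1
  have q2 : (r₂ : ℚ) ≠ 0 := by exact_mod_cast n2
  have q3 : (r₃ : ℚ) ≠ 0 := by exact_mod_cast n3
  have q4 : (r₄ : ℚ) ≠ 0 := by exact_mod_cast n4
  have q5 : (r₅ : ℚ) ≠ 0 := by exact_mod_cast n5
  have q6 : (r₆ : ℚ) ≠ 0 := by exact_mod_cast n6
  rw [← ha.eq, ← hb.eq, ← hc.eq, e₀, e₀', e₀'', e₁, e₁', e₁'']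
  push_cast
  field_simp

lemma ShortExact.hasQ_right (h : ShortExact P P' P'' ι π) {a b : ℚ} (ha : P.HasQ a)
    (hb : P'.HasQ b) : P''.HasQ (b / a) := by
  obtain ⟨r₁, r₂, r₃, r₄, r₅, r₆, e₀, e₀', e₀'', e₁, e₁', e₁''⟩ := h.card_relation
  have n₁ := e₀ ▸ ha.ne₀
  have n₂ := e₁ ▸ ha.ne₁
  have n₃ := e₀' ▸ hb.ne₀
  have n₄ := e₁' ▸ hb.ne₁
  simp only [mul_ne_zero_iff] at n₁ n₂ n₃ n₄
  have hc : P''.HasQ ((Nat.card P''.H : ℚ) / Nat.card P''.swap.H) :=
    ⟨by rw [e₀'']; exact mul_ne_zero n₃.2 n₂.1, by rw [e₁'']; exact mul_ne_zero n₄.2 n₁.1, rfl⟩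
  refine hc.of_eq _ ?_
  rw [h.mul_eq ha hb hc, mul_div_cancel_left₀ _ (ha.pos _).ne']

lemma ShortExact.hasQ_mid (h : ShortExact P P' P'' ι π) {a c : ℚ} (ha : P.HasQ a)
    (hc : P''.HasQ c) : P'.HasQ (a * c) := by
  obtain ⟨r₁, r₂, r₃, r₄, r₅, r₆, e₀, e₀', e₀'', e₁, e₁', e₁''⟩ := h.card_relation
  have n₁ := e₀ ▸ ha.ne₀
  have n₂ := e₁ ▸ ha.ne₁
  have n₃ := e₀'' ▸ hc.ne₀
  have n₄ := e₁'' ▸ hc.ne₁
  simp only [mul_ne_zero_iff] at n₁ n₂ n₃ n₄
  have hb : P'.HasQ ((Nat.card P'.H : ℚ) / Nat.card P'.swap.H) :=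
    ⟨by rw [e₀']; exact mul_ne_zero n₁.2 n₃.1, by rw [e₁']; exact mul_ne_zero n₂.2 n₄.1, rfl⟩
  exact hb.of_eq _ (h.mul_eq ha hb hc)

lemma ShortExact.hasQ_left (h : ShortExact P P' P'' ι π) {b c : ℚ} (hb : P'.HasQ b)
    (hc : P''.HasQ c) : P.HasQ (b / c) := by
  obtain ⟨r₁, r₂, r₃, r₄, r₅, r₆, e₀, e₀', e₀'', e₁, e₁', e₁''⟩ := h.card_relation
  have n₁ := e₀' ▸ hb.ne₀
  have n₂ := e₁' ▸ hb.ne₁
  have n₃ := e₀'' ▸ hc.ne₀
  have n₄ := e₁'' ▸ hc.ne₁
  simp only [mul_ne_zero_iff] at n₁ n₂ n₃ n₄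
  have ha : P.HasQ ((Nat.card P.H : ℚ) / Nat.card P.swap.H) :=
    ⟨by rw [e₀]; exact mul_ne_zero n₄.2 n₁.1, by rw [e₁]; exact mul_ne_zero n₃.2 n₂.1, rfl⟩
  refine ha.of_eq _ ?_
  rw [h.mul_eq ha hb hc, mul_div_cancel_right₀ _ (hc.pos _).ne']

lemma hasQ_one_of_finite (P : HerbrandPair A) [Finite A] : P.HasQ 1 := by
  have hcard : ∀ Q : HerbrandPair A,
      Nat.card Q.f.ker = Nat.card Q.H * Nat.card Q.g.range := fun Q => by
    have hle : Q.g.range ≤ Q.f.ker := by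
      rintro _ ⟨x, rfl⟩
      exact Q.fg x
    rw [AddSubgroup.card_eq_card_quotient_mul_card_addSubgroup (Q.g.range.addSubgroupOf Q.f.ker),
      Nat.card_congr (AddSubgroup.addSubgroupOfEquivOfLe hle).toEquiv]
  have e₁ := card_eq_card_ker_mul_card_range P.f
  have e₂ := card_eq_card_ker_mul_card_range P.g
  rw [hcard P] at e₁
  rw [show Nat.card P.g.ker = Nat.card P.swap.H * Nat.card P.f.range from hcard P.swap] at e₂
  have key : Nat.card P.H = Nat.card P.swap.H := by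
    have hf : 0 < Nat.card P.f.range := Nat.card_pos
    have hg : 0 < Nat.card P.g.range := Nat.card_pos
    have := e₁.symm.trans e₂
    refine Nat.eq_of_mul_eq_mul_right (Nat.mul_pos hf hg) ?_
    calc Nat.card P.H * (Nat.card P.f.range * Nat.card P.g.range)
        = Nat.card P.H * Nat.card P.g.range * Nat.card P.f.range := by ring
      _ = Nat.card P.swap.H * Nat.card P.f.range * Nat.card P.g.range := this
      _ = _ := by ring
  refine ⟨Nat.card_pos.ne', Nat.card_pos.ne', ?_⟩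
  rw [key, div_self]
  exact_mod_cast (Nat.card_pos (α := P.swap.H)).ne'

lemma hasQ_of_equiv {q : ℚ} (e : A ≃+ B) (h : Hom P P' e.toAddMonoidHom) (hq : P.HasQ q) :
    P'.HasQ q := by
  set Z : HerbrandPair (⊥ : AddSubgroup B) := ⟨0, 0, fun _ => rfl, fun _ => rfl⟩
  have hs : ShortExact Z P' P (⊥ : AddSubgroup B).subtype e.symm.toAddMonoidHom := by
    refine ⟨Subtype.coe_injective, e.symm.surjective, fun b => ⟨fun hb => ⟨0, ?_⟩, ?_⟩, ?_, ?_⟩
    · simpa using (e.symm.map_eq_zero_iff.1 hb).symm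
    · rintro ⟨a, rfl⟩
      simp [show (a : B) = 0 from a.2]
    · exact ⟨fun a => by simp [show (a : B) = 0 from a.2, Z],
        fun a => by simp [show (a : B) = 0 from a.2, Z]⟩
    · refine ⟨fun b => e.injective ?_, fun b => e.injective ?_⟩
      · show e (e.symm (P'.f b)) = e (P.f (e.symm b))
        rw [e.apply_symm_apply]
        have := h.comm_f (e.symm b)
        simp only [AddEquiv.toAddMonoidHom_eq_coe, AddMonoidHom.coe_coe, e.apply_symm_apply] at this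
        exact this.symm
      · show e (e.symm (P'.g b)) = e (P.g (e.symm b))
        rw [e.apply_symm_apply]
        have := h.comm_g (e.symm b)
        simp only [AddEquiv.toAddMonoidHom_eq_coe, AddMonoidHom.coe_coe, e.apply_symm_apply] at this
        exact this.symm
  exact (hs.hasQ_mid (hasQ_one_of_finite Z) hq).of_eq _ (one_mul q)

end HerbrandPair

/-! ### Pairs attached to an automorphism of finite order -/

section Cyclic

variable {A B : Type*} [AddCommGroup A] [AddCommGroup B]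

/-- The pair `(σ - 1, 1 + σ + ⋯ + σ^(n-1))`. -/
def cycPair (σ : AddMonoid.End A) (n : ℕ) (hσ : ∀ a, (⇑σ)^[n] a = a) : HerbrandPair A where
  f := (σ - 1 : AddMonoid.End A)
  g := (∑ i ∈ Finset.range n, σ ^ i : AddMonoid.End A)
  fg a := by
    have h : (σ - 1) * (∑ i ∈ Finset.range n, σ ^ i) =
        σ ^ n - 1 := mul_geom_sum _ _
    have h' := DFunLike.congr_fun h a
    rw [show σ ^ n = 1 from DFunLike.ext _ _ fun x => by
      simpa [AddMonoid.End.coe_pow] using hσ x, sub_self] at h'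
    exact h'
  gf a := by
    have h : (∑ i ∈ Finset.range n, σ ^ i) * (σ - 1) =
        σ ^ n - 1 := geom_sum_mul _ _
    have h' := DFunLike.congr_fun h a
    rw [show σ ^ n = 1 from DFunLike.ext _ _ fun x => by
      simpa [AddMonoid.End.coe_pow] using hσ x, sub_self] at h'
    exact h'

lemma cycPair_f_apply (σ : AddMonoid.End A) (n : ℕ) (hσ : ∀ a, (⇑σ)^[n] a = a) (a : A) :
    (cycPair σ n hσ).f a = σ a - a := rfl

lemma cycPair_g_apply (σ : AddMonoid.End A) (n : ℕ) (hσ : ∀ a, (⇑σ)^[n] a = a) (a : A) :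
    (cycPair σ n hσ).g a = ∑ i ∈ Finset.range n, (⇑σ)^[i] a := by
  rw [show (cycPair σ n hσ).g a = ∑ i ∈ Finset.range n, (σ ^ i) a from
    AddMonoidHom.finsetSum_apply _ _ _]
  exact Finset.sum_congr rfl fun i _ => by rw [AddMonoid.End.coe_pow]

lemma cycPair_hom {σ : AddMonoid.End A} {τ : AddMonoid.End B} {n : ℕ} (hσ : ∀ a, (⇑σ)^[n] a = a)
    (hτ : ∀ b, (⇑τ)^[n] b = b) (φ : A →+ B) (h : ∀ a, φ (σ a) = τ (φ a)) :
    HerbrandPair.Hom (cycPair σ n hσ) (cycPair τ n hτ) φ := by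
  refine ⟨fun a => by rw [cycPair_f_apply, cycPair_f_apply, map_sub, h], fun a => ?_⟩
  rw [cycPair_g_apply, cycPair_g_apply, map_sum]
  exact Finset.sum_congr rfl fun i _ => (Function.Semiconj.iterate_right (fun a => h a) i a)

end Cyclic

end Fermat.Agent.CFT
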