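import Fermat.Agent.CFT.GlobalFinite
import Fermat.Agent.Galois.Unramified
set_option autoImplicit false

open CategoryTheory Module groupCohomology

noncomputable section

namespace Fermat.Agent.CFT

/-- Hermite: one `S`-unramified level contains all of those of bounded degree. -/
theorem exists_hermiteBound (S : Finset Nat.Primes) (N : ℕ) : ∃ K, HermiteBound S N K := by
  classical
  let T : Finset ℕ := S.image fun q : Nat.Primes => (q : ℕ)
  have key : ∀ E : IntermediateField ℚ (AlgebraicClosure ℚ), E.IsUnramifiedOutside S →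
      ∀ q : ℕ, q.Prime → q ∉ T → Fermat.Agent.Galois.InertiaLE q E.fixingSubgroup :=
    fun E hE q hq hqT =>
      hE.2 ⟨q, hq⟩ fun h => hqT (Finset.mem_image_of_mem (fun x : Nat.Primes => (x : ℕ)) (a := (⟨q, hq⟩ : Nat.Primes)) h)
  have hfin : {E : IntermediateField ℚ (AlgebraicClosure ℚ) |
      E.IsUnramifiedOutside S ∧ finrank ℚ E ≤ N}.Finite :=
    (Fermat.Agent.Galois.finite_setOf_inertiaLE T N).subset
      fun E hE => ⟨hE.1.1, hE.2, key E hE.1⟩
  refine ⟨hfin.toFinset.sup id, ?_, fun E hE hN => ?_⟩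
  · exact Finset.sup_induction (p := fun E => IntermediateField.IsUnramifiedOutside E S) (f := id)
      (IntermediateField.isUnramifiedOutside_bot S)
      (fun a ha b hb => ha.sup hb) fun E hE => (hfin.mem_toFinset.1 hE).1
  · exact Finset.le_sup (f := id) (hfin.mem_toFinset.2 ⟨hE, hN⟩)

/-- `H¹` unramified outside `S` of a finite smooth module is finite. -/
theorem finite_continuousH1S_of_smooth {k : Type} [CommRing k]
    (M : Rep k (AlgebraicClosure ℚ ≃ₐ[ℚ] AlgebraicClosure ℚ)) [Finite M] (S : Finset Nat.Primes)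
    (hsm : ∀ m : M, ∃ F : IntermediateField ℚ (AlgebraicClosure ℚ), FiniteDimensional ℚ F ∧
      ∀ s ∈ F.fixingSubgroup, M.ρ s m = m)
    (hMur : ∀ q : Nat.Primes, q ∉ S → ∀ A : ValuationSubring (AlgebraicClosure ℚ),
      A.LiesOverPrime (q : ℕ) → ∀ g ∈ A.inertiaSubgroupIn ℚ, M.ρ g = 1) :
    Finite (continuousH1S S M) := by
  obtain ⟨F, hFu, hF⟩ := exists_unramifiedOutside_trivial M S hsm hMur
  exact finite_continuousH1S hFu hF fun N => exists_hermiteBound S N

end Fermat.Agent.CFT
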