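import Fermat.Agent.CFT.GlobalFinite
import Fermat.Agent.CFT.Setup
import Fermat.Agent.Galois.Decomposition
import Fermat.Agent.Galois.PadicPlace

/-!
# Places as orbits: the bridge to the primes of the fixed field
-/

set_option autoImplicit false
set_option linter.style.haveILetI false

open CategoryTheory groupCohomology ExtCitation Module NumberField IsDedekindDomain
open scoped Pointwise

noncomputable section

namespace Fermat.Agent.CFT

section Norms

/-- The `q`-adic absolute value of `g a` for the chosen embedding. -/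
def galNorm (q : Nat.Primes) (g : GQ) (a : AlgebraicClosure ℚ) : ℝ :=
  ‖padicEmbedding (q : ℕ) (g a)‖

theorem mem_padicPlace_iff_norm (q : Nat.Primes) {x : AlgebraicClosure ℚ} :
    x ∈ padicPlace (q : ℕ) ↔ ‖padicEmbedding (q : ℕ) x‖ ≤ 1 := Iff.rfl

theorem mem_nonunits_padicPlace_iff (q : Nat.Primes) {x : AlgebraicClosure ℚ} :
    x ∈ (padicPlace (q : ℕ)).nonunits ↔ ‖padicEmbedding (q : ℕ) x‖ < 1 := by
  rw [(padicPlace (q : ℕ)).mem_nonunits_iff_or, mem_padicPlace_iff_norm, map_inv₀, norm_inv]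
  constructor
  · rintro (rfl | h)
    · simp
    · by_contra h'
      exact h (inv_le_one_of_one_le₀ (not_lt.1 h'))
  · intro h
    by_cases hx : x = 0
    · exact Or.inl hx
    · refine Or.inr (not_le.2 (one_lt_inv₀ (norm_pos_iff.2 ?_) |>.2 h))
      simpa using hx

theorem galNorm_eq_of_local (q : Nat.Primes) (τ : primeLocalGaloisGroup q) (g : GQ)
    (a : AlgebraicClosure ℚ) : galNorm q (primeLocalToGlobal q τ * g) a = galNorm q g a := by
  show ‖padicEmbedding (q : ℕ) (localGaloisToGlobal (q : ℕ) τ (g a))‖ = _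
  rw [padicEmbedding_localGaloisToGlobal, ← coe_nnnorm, nnnorm_padicAlgCl_algEquiv]
  rfl

theorem galNorm_mul_of_mem {U : Subgroup GQ} (q : Nat.Primes) (g : GQ) {u : GQ} (hu : u ∈ U)
    {a : AlgebraicClosure ℚ} (ha : a ∈ IntermediateField.fixedField U) :
    galNorm q (g * u) a = galNorm q g a := by
  show ‖padicEmbedding (q : ℕ) (g (u a))‖ = _
  rw [show u a = a from ha ⟨u, hu⟩]
  rfl

theorem galNorm_natCast (q : Nat.Primes) (g : GQ) :
    galNorm q g ((q : ℕ) : AlgebraicClosure ℚ) = ((q : ℕ) : ℝ)⁻¹ := by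
  show ‖padicEmbedding (q : ℕ) (g ((q : ℕ) : AlgebraicClosure ℚ))‖ = _
  rw [map_natCast, map_natCast, ← map_natCast (algebraMap ℚ_[(q : ℕ)] (PadicAlgCl (q : ℕ))),
    norm_algebraMap', Padic.norm_p]

theorem galNorm_natCast_lt_one (q : Nat.Primes) (g : GQ) :
    galNorm q g ((q : ℕ) : AlgebraicClosure ℚ) < 1 := by
  rw [galNorm_natCast]
  exact inv_lt_one_of_one_lt₀ (by exact_mod_cast q.2.one_lt)

theorem mem_nonunits_inv_smul_iff (q : Nat.Primes) (g : GQ) {x : AlgebraicClosure ℚ} :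
    x ∈ (g⁻¹ • padicPlace (q : ℕ)).nonunits ↔ galNorm q g x < 1 := by
  conv_lhs => rw [← Fermat.Agent.Galois.galQ_inv_apply g x]
  rw [Fermat.Agent.Galois.apply_mem_nonunits_smul_iff, mem_nonunits_padicPlace_iff]
  rfl

theorem galNorm_le_one_of_isIntegral (q : Nat.Primes) (g : GQ) {x : AlgebraicClosure ℚ}
    (hx : IsIntegral ℤ x) : galNorm q g x ≤ 1 :=
  (mem_padicPlace_iff_norm q).1
    (Fermat.Agent.Galois.place_mem_of_isIntegral (padicPlace (q : ℕ))
      (hx.map (g.toAlgHom.restrictScalars ℤ)))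

end Norms

section Bridge

variable (L : IntermediateField ℚ (AlgebraicClosure ℚ))

theorem isIntegral_coe_ringOfIntegers (a : 𝓞 L) :
    IsIntegral ℤ ((a : L) : AlgebraicClosure ℚ) :=
  (RingOfIntegers.isIntegral_coe a).map (L.val.restrictScalars ℤ)

/-- The prime of `L` under the place of `g`. -/
def primeUnder (q : Nat.Primes) (g : GQ) : Ideal (𝓞 L) where
  carrier := {a | galNorm q g ((a : L) : AlgebraicClosure ℚ) < 1}
  zero_mem' := by simp [galNorm]
  add_mem' := fun {a b} ha hb => by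
    have h := IsUltrametricDist.norm_add_le_max
      (padicEmbedding (q : ℕ) (g ((a : L) : AlgebraicClosure ℚ)))
      (padicEmbedding (q : ℕ) (g ((b : L) : AlgebraicClosure ℚ)))
    rw [Set.mem_ofPred_eq] at *
    simp only [galNorm, map_add, AddMemClass.coe_add]
    exact h.trans_lt (max_lt ha hb)
  smul_mem' := fun c a ha => by
    have hc := galNorm_le_one_of_isIntegral q g (isIntegral_coe_ringOfIntegers L c)
    rw [Set.mem_ofPred_eq] at *
    simp only [galNorm, smul_eq_mul, map_mul, MulMemClass.coe_mul, norm_mul] at *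
    exact (mul_le_of_le_one_left (norm_nonneg _) hc).trans_lt ha

theorem mem_primeUnder_iff {q : Nat.Primes} {g : GQ} {a : 𝓞 L} :
    a ∈ primeUnder L q g ↔ galNorm q g ((a : L) : AlgebraicClosure ℚ) < 1 := Iff.rfl

theorem natCast_mem_primeUnder (q : Nat.Primes) (g : GQ) :
    ((q : ℕ) : 𝓞 L) ∈ primeUnder L q g := by
  rw [mem_primeUnder_iff]
  simpa using galNorm_natCast_lt_one q g

theorem primeUnder_isPrime (q : Nat.Primes) (g : GQ) : (primeUnder L q g).IsPrime := by
  refine Ideal.isPrime_iff.2 ⟨fun h => ?_, fun {a b} hab => ?_⟩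
  · have := (Ideal.eq_top_iff_one _).1 h
    simp [mem_primeUnder_iff, galNorm] at this
  · simp only [mem_primeUnder_iff, galNorm, map_mul, MulMemClass.coe_mul, norm_mul] at hab ⊢
    by_contra h
    rw [not_or, not_lt, not_lt] at h
    exact not_lt.2 (one_le_mul_of_one_le_of_one_le h.1 h.2) hab

theorem primeUnder_ne_bot (q : Nat.Primes) (g : GQ) : primeUnder L q g ≠ ⊥ := by
  intro h
  have := natCast_mem_primeUnder L q g
  rw [h, Ideal.mem_bot, Nat.cast_eq_zero] at this
  exact q.2.ne_zero this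

/-- The same as a height one prime. -/
def primeAt (q : Nat.Primes) (g : GQ) : HeightOneSpectrum (𝓞 L) :=
  ⟨primeUnder L q g, primeUnder_isPrime L q g, primeUnder_ne_bot L q g⟩

theorem valuation_primeAt_lt_one_iff [NumberField L] (q : Nat.Primes) (g : GQ) (a : L) :
    (primeAt L q g).valuation L a < 1 ↔ galNorm q g (a : AlgebraicClosure ℚ) < 1 := by
  set v := primeAt L q g
  have hd : ∀ d : 𝓞 L, d ∉ v.asIdeal → galNorm q g ((d : L) : AlgebraicClosure ℚ) = 1 :=
    fun d hd => le_antisymm (galNorm_le_one_of_isIntegral q g (isIntegral_coe_ringOfIntegers L d))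
      (not_lt.1 hd)
  have key : ∀ b : L, v.valuation L b ≤ 1 →
      galNorm q g (b : AlgebraicClosure ℚ) ≤ 1 ∧
        (v.valuation L b < 1 ↔ galNorm q g (b : AlgebraicClosure ℚ) < 1) := by
    intro b hb
    obtain ⟨n, d, hnd⟩ := v.exists_primeCompl_mul_eq_of_integer b hb
    have h1 : galNorm q g (b : AlgebraicClosure ℚ) = galNorm q g ((n : L) : AlgebraicClosure ℚ) := by
      conv_rhs => rw [show (n : L) = b * ((d : 𝓞 L) : L) from hnd.symm]
      simp only [galNorm, MulMemClass.coe_mul, map_mul, norm_mul]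
      rw [show ‖padicEmbedding (q : ℕ) (g (((d : 𝓞 L) : L) : AlgebraicClosure ℚ))‖ = 1 from hd _ d.2,
        mul_one]
    have h2 : v.valuation L b = v.valuation L (algebraMap (𝓞 L) L n) := by
      rw [← hnd, map_mul, v.valuation_of_algebraMap (K := L) (d : 𝓞 L),
        (v.intValuation_eq_one_iff_mem_primeCompl d).2 d.2, mul_one]
    refine ⟨h1 ▸ galNorm_le_one_of_isIntegral q g (isIntegral_coe_ringOfIntegers L n), ?_⟩
    rw [h1, h2, v.valuation_lt_one_iff_mem]
    rfl
  rcases le_or_gt (v.valuation L a) 1 with h | h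
  · exact (key a h).2
  · refine iff_of_false (not_lt.2 h.le) ?_
    have hinv : v.valuation L a⁻¹ < 1 := by rw [map_inv₀]; exact inv_lt_one_of_one_lt₀ h
    have := (key a⁻¹ hinv.le).2.1 hinv
    simp only [galNorm, IntermediateField.coe_inv, map_inv₀, norm_inv] at this
    intro h'
    rcases eq_or_ne a 0 with rfl | ha
    · simp at h
    · have hpos : 0 < ‖padicEmbedding (q : ℕ) (g (a : AlgebraicClosure ℚ))‖ := by
        rw [norm_pos_iff]; simpa using ha
      exact lt_asymm ((inv_lt_one₀ hpos).1 this) h'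

theorem exists_primeAt_eq (P : HeightOneSpectrum (𝓞 L)) [NumberField L] :
    ∃ (q : Nat.Primes) (g : GQ), primeAt L q g = P := by
  let f : 𝓞 L →+* AlgebraicClosure ℚ := L.val.toRingHom.comp (algebraMap (𝓞 L) L)
  have hf : Function.Injective f := fun a b h => RingOfIntegers.ext (Subtype.ext h)
  let R : Subring (AlgebraicClosure ℚ) := f.range
  let e : 𝓞 L ≃+* R := RingEquiv.ofBijective f.rangeRestrict
    ⟨fun a b h => hf (show (f.rangeRestrict a : AlgebraicClosure ℚ) = f.rangeRestrict b from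
      congrArg _ h), f.rangeRestrict_surjective⟩
  haveI : (P.asIdeal.map (e : 𝓞 L →+* R)).IsPrime := Ideal.map_isPrime_of_equiv e
  obtain ⟨A, hRA, hA⟩ := Ideal.image_subset_nonunits_valuationSubring
    (P.asIdeal.map (e : 𝓞 L →+* R)) Ideal.IsPrime.ne_top'
  have hsub : ∀ a : 𝓞 L, a ∈ P.asIdeal → f a ∈ A.nonunits := fun a ha =>
    hA ⟨e a, Ideal.mem_map_of_mem _ ha, rfl⟩
  have hmax : P.asIdeal.IsMaximal := P.isPrime.isMaximal P.ne_bot
  have hiff : ∀ a : 𝓞 L, f a ∈ A.nonunits ↔ a ∈ P.asIdeal := by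
    refine fun a => ⟨fun ha => ?_, hsub a⟩
    by_contra hP
    obtain ⟨r, m, hm, hr⟩ := hmax.exists_inv hP
    have h1 := congrArg f hr
    rw [map_add, map_mul, map_one] at h1
    have hra : f r * f a ∈ A.nonunits := by
      rw [A.mem_nonunits_iff] at ha ⊢
      rw [map_mul]
      exact (mul_le_of_le_one_left' ((A.valuation_le_one_iff _).2 (hRA ⟨r, rfl⟩))).trans_lt ha
    have h2 := add_mem hra (hsub m hm)
    rw [h1, A.mem_nonunits_iff, map_one] at h2
    exact lt_irrefl _ h2
  obtain ⟨n, hn, hnP⟩ : ∃ n : ℕ, n ≠ 0 ∧ (n : 𝓞 L) ∈ P.asIdeal :=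
    ⟨Ideal.absNorm P.asIdeal, mt Ideal.absNorm_eq_zero_iff.1 P.ne_bot, Ideal.absNorm_mem _⟩
  obtain ⟨q₀, hq₀, hqP⟩ : ∃ q₀ : ℕ, q₀.Prime ∧ ((q₀ : ℕ) : 𝓞 L) ∈ P.asIdeal := by
    have : (n.primeFactorsList.map (fun k : ℕ => (k : 𝓞 L))).prod ∈ P.asIdeal := by
      rwa [← Nat.cast_list_prod, Nat.prod_primeFactorsList hn]
    obtain ⟨x, hx, hxP⟩ := (P.isPrime.multiset_prod_mem_iff_exists_mem
      (↑(n.primeFactorsList.map (fun k : ℕ => (k : 𝓞 L))) : Multiset (𝓞 L))).1
      (by rwa [Multiset.prod_coe])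
    obtain ⟨k, hk, rfl⟩ := List.mem_map.1 (Multiset.mem_coe.1 hx)
    exact ⟨k, Nat.prime_of_mem_primeFactorsList hk, hxP⟩
  have hAq : A.LiesOverPrime q₀ := by
    have := hsub _ hqP
    rwa [map_natCast] at this
  haveI := Fact.mk hq₀
  obtain ⟨σ, hσ⟩ := Fermat.Agent.Galois.exists_smul_eq
    (Fermat.Agent.Galois.padicPlace_liesOverPrime q₀) hAq hq₀
  refine ⟨⟨q₀, hq₀⟩, σ⁻¹, HeightOneSpectrum.ext (SetLike.ext fun a => ?_)⟩
  show galNorm ⟨q₀, hq₀⟩ σ⁻¹ ((a : L) : AlgebraicClosure ℚ) < 1 ↔ a ∈ P.asIdeal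
  rw [← hiff, ← mem_nonunits_inv_smul_iff, inv_inv, hσ]
  rfl

theorem primeAt_eq_iff {U : Subgroup GQ}
    (hU : (IntermediateField.fixedField U).fixingSubgroup = U) {q q' : Nat.Primes} {g g' : GQ} :
    primeAt (IntermediateField.fixedField U) q g = primeAt (IntermediateField.fixedField U) q' g' ↔
      q = q' ∧ ∃ (τ : primeLocalGaloisGroup q) (u : GQ), u ∈ U ∧
        g' = primeLocalToGlobal q τ * g * u := by
  constructor
  · intro h
    have hmem : ∀ a : 𝓞 (IntermediateField.fixedField U),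
        galNorm q g ((a : IntermediateField.fixedField U) : AlgebraicClosure ℚ) < 1 ↔
          galNorm q' g' ((a : IntermediateField.fixedField U) : AlgebraicClosure ℚ) < 1 := fun a =>
      SetLike.ext_iff.1 (congrArg HeightOneSpectrum.asIdeal h) a
    have hA := Fermat.Agent.Galois.liesOverPrime_smul
      (Fermat.Agent.Galois.padicPlace_liesOverPrime (q : ℕ)) g⁻¹
    have hB := Fermat.Agent.Galois.liesOverPrime_smul
      (Fermat.Agent.Galois.padicPlace_liesOverPrime (q' : ℕ)) g'⁻¹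
    have hqq : q = q' := by
      have hA' : (g'⁻¹ • padicPlace (q' : ℕ)).LiesOverPrime (q : ℕ) := by
        show ((q : ℕ) : AlgebraicClosure ℚ) ∈ _
        rw [mem_nonunits_inv_smul_iff]
        have := (hmem ((q : ℕ) : 𝓞 (IntermediateField.fixedField U))).1
        simpa using this (by simpa using galNorm_natCast_lt_one q g)
      exact Subtype.ext (Fermat.Agent.Galois.place_prime_unique hA' hB q.2 q'.2)
    subst hqq
    refine ⟨rfl, ?_⟩
    obtain ⟨u, hu, hue⟩ := Fermat.Agent.Galois.exists_fixing_smul_eq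
      (IntermediateField.fixedField U) hA hB q.2 (fun x hx hxi => by
        rw [mem_nonunits_inv_smul_iff, mem_nonunits_inv_smul_iff]
        obtain ⟨a, ha⟩ : ∃ a : 𝓞 (IntermediateField.fixedField U),
            (a : IntermediateField.fixedField U) = ⟨x, hx⟩ :=
          ⟨⟨⟨x, hx⟩, (isIntegral_algebraMap_iff
            (A := IntermediateField.fixedField U) (B := AlgebraicClosure ℚ)
            (algebraMap (IntermediateField.fixedField U) (AlgebraicClosure ℚ)).injective).1 hxi⟩, rfl⟩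
        have := hmem a
        rwa [ha] at this)
    rw [hU] at hu
    rw [← mul_smul] at hue
    have hdec : g' * u * g⁻¹ ∈ (padicPlace (q : ℕ)).decompositionSubgroup ℚ := by
      rw [MulAction.mem_stabilizer_iff, mul_assoc, mul_smul, hue, smul_inv_smul]
    rw [← Fermat.Agent.Galois.localGaloisToGlobal_range] at hdec
    obtain ⟨τ, hτ⟩ := hdec
    refine ⟨τ, u⁻¹, inv_mem hu, ?_⟩
    show g' = localGaloisToGlobal (q : ℕ) τ * g * u⁻¹
    rw [hτ]
    group
  · rintro ⟨rfl, τ, u, hu, rfl⟩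
    refine HeightOneSpectrum.ext (SetLike.ext fun a => ?_)
    show galNorm q g _ < 1 ↔ galNorm q (primeLocalToGlobal q τ * g * u) _ < 1
    rw [galNorm_mul_of_mem q _ hu (a : IntermediateField.fixedField U).2, galNorm_eq_of_local]

theorem fixingSubgroup_fixedField_of_level {U : Subgroup GQ}
    (hU : IsLevelSubgroup Levels.all (MonoidHom.id GQ) U) :
    (IntermediateField.fixedField U).fixingSubgroup = U := by
  obtain ⟨F, hF, hle⟩ := hU
  haveI : FiniteDimensional ℚ F := hF
  exact fixingSubgroup_fixedField_of_le fun s hs => hle s hs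

/-- Orbits of `(q, x)` correspond to the nonzero primes of the fixed field. -/
theorem exists_placeBridge_proof {U : Subgroup GQ}
    (hU : IsLevelSubgroup Levels.all (MonoidHom.id GQ) U)
    [NumberField (IntermediateField.fixedField U)] :
    ∃ e : (Σ _q : Nat.Primes, GQ ⧸ U) → HeightOneSpectrum (𝓞 (IntermediateField.fixedField U)),
      Function.Surjective e ∧
      (∀ q q' x y, e ⟨q, x⟩ = e ⟨q', y⟩ ↔ q = q' ∧
        ∃ τ : primeLocalGaloisGroup q, primeLocalToGlobal q τ • x = y) ∧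
      (∀ q x, ((q : ℕ) : 𝓞 (IntermediateField.fixedField U)) ∈ (e ⟨q, x⟩).asIdeal) ∧
      ∀ q x (a : IntermediateField.fixedField U),
        (e ⟨q, x⟩).valuation (IntermediateField.fixedField U) a < 1 ↔
          ‖padicEmbedding (q : ℕ) ((Quotient.out x : GQ) a)‖ < 1 := by
  have hfix := fixingSubgroup_fixedField_of_level hU
  refine ⟨fun z => primeAt _ z.1 (Quotient.out z.2), fun P => ?_, fun q q' x y => ?_,
    fun q x => natCast_mem_primeUnder _ q _, fun q x a => valuation_primeAt_lt_one_iff _ q _ a⟩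
  · obtain ⟨q, g, rfl⟩ := exists_primeAt_eq _ P
    refine ⟨⟨q, QuotientGroup.mk g⟩, ((primeAt_eq_iff hfix).2 ⟨rfl, 1, ?_⟩).symm⟩
    obtain ⟨u, hu⟩ := QuotientGroup.mk_out_eq_mul U g
    exact ⟨u, u.2, by rw [map_one, one_mul]; exact hu⟩
  · rw [primeAt_eq_iff hfix]
    refine and_congr_right fun _ => exists_congr fun τ => ⟨?_, fun h => ?_⟩
    · rintro ⟨u, hu, h⟩
      rw [← QuotientGroup.out_eq' y, h, ← QuotientGroup.out_eq' x, MulAction.Quotient.smul_mk,
        QuotientGroup.out_eq', QuotientGroup.eq, smul_eq_mul]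
      simpa [mul_assoc] using hu
    · rw [← QuotientGroup.out_eq' x, MulAction.Quotient.smul_mk] at h
      obtain ⟨u, hu⟩ := QuotientGroup.mk_out_eq_mul U
        (primeLocalToGlobal q τ • (Quotient.out x : GQ))
      refine ⟨u, u.2, ?_⟩
      rw [← h, hu, smul_eq_mul]

end Bridge

end Fermat.Agent.CFT
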