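import Mathlib

/-!
# The Galois action on finite places of a number field (scoped)
-/

namespace Fermat.Agent.CFT

open NumberField IsDedekindDomain

variable {K L : Type*} [Field K] [Field L] [Algebra K L]

/-- The automorphism of `𝓞 L` given by a Galois element. -/
def ringOfIntegersAut (g : Gal(L/K)) : 𝓞 L ≃+* 𝓞 L := MulSemiringAction.toRingEquiv Gal(L/K) (𝓞 L) g

lemma ringOfIntegersAut_apply (g : Gal(L/K)) (x : 𝓞 L) : ringOfIntegersAut g x = g • x := rfl

variable [NumberField L]

/-- `g • v = g(v)`. -/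
scoped instance placeAct : MulAction Gal(L/K) (HeightOneSpectrum (𝓞 L)) where
  smul g v :=
    { asIdeal := v.asIdeal.comap (ringOfIntegersAut g⁻¹).toRingHom
      isPrime := Ideal.comap_isPrime _ _
      ne_bot := fun h => v.ne_bot (Ideal.comap_injective_of_surjective _
        (ringOfIntegersAut g⁻¹).surjective (h.trans
          (Ideal.comap_bot_of_injective _ (ringOfIntegersAut g⁻¹).injective).symm)) }
  one_smul v := HeightOneSpectrum.ext (SetLike.ext fun x => by
    show ringOfIntegersAut (1 : Gal(L/K))⁻¹ x ∈ v.asIdeal ↔ _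
    rw [inv_one, ringOfIntegersAut_apply, one_smul])
  mul_smul g h v := HeightOneSpectrum.ext (SetLike.ext fun x => by
    show ringOfIntegersAut (g * h)⁻¹ x ∈ v.asIdeal ↔
      ringOfIntegersAut h⁻¹ (ringOfIntegersAut g⁻¹ x) ∈ v.asIdeal
    rw [ringOfIntegersAut_apply, ringOfIntegersAut_apply, ringOfIntegersAut_apply, mul_inv_rev,
      mul_smul])

omit [NumberField L] in
lemma mem_placeAct_iff (g : Gal(L/K)) (v : HeightOneSpectrum (𝓞 L)) (x : 𝓞 L) :
    x ∈ (g • v).asIdeal ↔ g⁻¹ • x ∈ v.asIdeal := Iff.rfl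

lemma placeAct_asIdeal (g : Gal(L/K)) (v : HeightOneSpectrum (𝓞 L)) :
    (g • v).asIdeal = v.asIdeal.map (ringOfIntegersAut g).toRingHom := by
  ext x
  rw [Ideal.mem_map_iff_of_surjective (ringOfIntegersAut g).toRingHom
    (ringOfIntegersAut g).surjective]
  constructor
  · exact fun h => ⟨g⁻¹ • x, h, smul_inv_smul g x⟩
  · rintro ⟨y, hy, rfl⟩
    rwa [mem_placeAct_iff, show (ringOfIntegersAut g).toRingHom y = g • y from rfl,
      inv_smul_smul]

lemma mem_placeAct_pow_iff (g : Gal(L/K)) (v : HeightOneSpectrum (𝓞 L)) (x : 𝓞 L) (n : ℕ) :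
    g • x ∈ (g • v).asIdeal ^ n ↔ x ∈ v.asIdeal ^ n := by
  rw [placeAct_asIdeal, ← Ideal.map_pow]
  exact ⟨fun h => by
    obtain ⟨y, hy, he⟩ :=
      (Ideal.mem_map_iff_of_surjective (ringOfIntegersAut g).toRingHom
        (ringOfIntegersAut g).surjective).1 h
    rwa [← (ringOfIntegersAut g).injective he], fun h => Ideal.mem_map_of_mem _ h⟩

lemma intValuation_placeAct (g : Gal(L/K)) (v : HeightOneSpectrum (𝓞 L)) (x : 𝓞 L) :
    (g • v).intValuation (g • x) = v.intValuation x := by
  rcases eq_or_ne x 0 with rfl | hx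
  · rw [smul_zero, map_zero, map_zero]
  have hgx : g • x ≠ 0 := fun h => hx ((ringOfIntegersAut g).map_eq_zero_iff.1 h)
  have h₁ := v.intValuation_eq_exp_neg_multiplicity hx
  have h₂ := (g • v).intValuation_eq_exp_neg_multiplicity hgx
  refine le_antisymm ?_ ?_
  · rw [h₁, HeightOneSpectrum.intValuation_le_pow_iff_mem, mem_placeAct_pow_iff,
      ← HeightOneSpectrum.intValuation_le_pow_iff_mem, h₁]
  · rw [h₂, HeightOneSpectrum.intValuation_le_pow_iff_mem, ← mem_placeAct_pow_iff g,
      ← HeightOneSpectrum.intValuation_le_pow_iff_mem, h₂]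

/-- Galois equivariance of the valuations. -/
lemma valuation_placeAct (g : Gal(L/K)) (v : HeightOneSpectrum (𝓞 L)) (x : L) :
    (g • v).valuation L (g x) = v.valuation L x := by
  obtain ⟨a, b, -, rfl⟩ := IsFractionRing.div_surjective (A := 𝓞 L) x
  have h : ∀ c : 𝓞 L, g (algebraMap (𝓞 L) L c) = algebraMap (𝓞 L) L (g • c) := fun c => rfl
  rw [map_div₀, map_div₀, map_div₀, h, h]
  simp only [HeightOneSpectrum.valuation_of_algebraMap, intValuation_placeAct]

lemma valuation_apply_eq (g : Gal(L/K)) (v : HeightOneSpectrum (𝓞 L)) (x : L) :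
    v.valuation L (g x) = (g⁻¹ • v).valuation L x := by
  rw [← valuation_placeAct g (g⁻¹ • v) x, smul_inv_smul]

end Fermat.Agent.CFT
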