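import Fermat.Agent.CFT.LatticeReduction
set_option autoImplicit false
set_option linter.style.haveILetI false

/-! Artin induction for additive functions on `𝔽_p[G]`-modules. -/

noncomputable section

open CategoryTheory Module TensorProduct

namespace Fermat.Agent.CFT

variable {p : ℕ} [Fact p.Prime] {G : Type} [Group G]

section Perm

variable {k V : Type} [CommRing k] [AddCommGroup V] [Module k V]

/-- Functions on a `G`-set with values in a representation. -/
def permTwistRep (X : Type) [MulAction G X] (ρ : Representation k G V) :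
    Representation k G (X → V) where
  toFun g := LinearMap.pi fun x => (ρ g).comp (LinearMap.proj (g⁻¹ • x))
  map_one' := by ext h x; simp
  map_mul' a b := by ext h x; simp [mul_smul]

@[simp]
theorem permTwistRep_apply (X : Type) [MulAction G X] (ρ : Representation k G V) (g : G) (h : X → V)
    (x : X) : permTwistRep X ρ g h x = ρ g (h (g⁻¹ • x)) := rfl

end Perm

/-- The permutation lattice of a `G`-set. -/
abbrev permLattice (X : Type) [MulAction G X] : Representation ℤ G (X → ℤ) :=
  permTwistRep X (Representation.trivial ℤ G ℤ)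

theorem trace_permLattice (X : Type) [MulAction G X] [Fintype X] (g : G) :
    LinearMap.trace ℤ (X → ℤ) (permLattice X g) = Nat.card {x : X // g • x = x} := by
  classical
  rw [LinearMap.trace_eq_matrix_trace ℤ (Pi.basisFun ℤ X), Matrix.trace,
    Nat.card_eq_fintype_card, Fintype.card_subtype, ← Finset.sum_boole]
  refine Finset.sum_congr rfl fun x _ => ?_
  simp [Pi.single_apply]
  exact if_congr (by rw [inv_smul_eq_iff]; exact eq_comm) rfl rfl

/-! ### Tensor with a fixed module -/

/-- `f (· ⊗ M)`. -/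
def tensorFun (f : Rep.{0} (ZMod p) G → ℤ) (M : Rep.{0} (ZMod p) G) :
    Rep.{0} (ZMod p) G → ℤ :=
  fun V => f (Rep.of (V.ρ.tprod M.ρ))

theorem isAdditiveOnRep_tensorFun {f : Rep.{0} (ZMod p) G → ℤ} (hf : IsAdditiveOnRep f)
    (M : Rep.{0} (ZMod p) G) [FiniteDimensional (ZMod p) M] :
    IsAdditiveOnRep (tensorFun f M) := by
  intro A B C φ ψ hB hi hs he
  have h1 : ∀ {P Q : Rep.{0} (ZMod p) G} (u : P ⟶ Q) (g : G),
      (u.hom.toLinearMap.rTensor M) ∘ₗ (P.ρ.tprod M.ρ g)
        = (Q.ρ.tprod M.ρ g) ∘ₗ (u.hom.toLinearMap.rTensor M) := by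
    intro P Q u g
    refine TensorProduct.ext' fun x m => ?_
    simp [Representation.tprod_apply, Rep.hom_comm_apply]
  refine hf (Rep.ofHom ⟨φ.hom.toLinearMap.rTensor M, h1 φ⟩)
    (Rep.ofHom ⟨ψ.hom.toLinearMap.rTensor M, h1 ψ⟩)
    (inferInstanceAs (FiniteDimensional (ZMod p) (B ⊗[ZMod p] M))) ?_ ?_ ?_
  · exact Module.Flat.rTensor_preserves_injective_linearMap (M := M) φ.hom.toLinearMap hi
  · exact LinearMap.rTensor_surjective M hs
  · exact rTensor_exact M he hs

/-- The twisted permutation module. -/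
abbrev permTwist (X : Type) [MulAction G X] (M : Rep.{0} (ZMod p) G) : Rep.{0} (ZMod p) G :=
  Rep.of (permTwistRep X M.ρ)

theorem redLattice_tensor_eq_permTwist {f : Rep.{0} (ZMod p) G → ℤ} (hf : IsAdditiveOnRep f)
    (X : Type) [MulAction G X] [Fintype X] (M : Rep.{0} (ZMod p) G)
    [FiniteDimensional (ZMod p) M] :
    tensorFun f M (redLattice p (permLattice (G := G) X)) = f (permTwist X M) := by
  classical
  let v : (ZMod p ⊗[ℤ] (X → ℤ)) ≃ₗ[ZMod p] (X → ZMod p) :=
    TensorProduct.piScalarRight ℤ (ZMod p) (ZMod p) X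
  let e : (ZMod p ⊗[ℤ] (X → ℤ)) ⊗[ZMod p] M ≃ₗ[ZMod p] (X → M) :=
    (TensorProduct.congr v (LinearEquiv.refl _ _)).trans <|
      (TensorProduct.comm _ _ _).trans (TensorProduct.piScalarRight (ZMod p) (ZMod p) M X)
  have hev : ∀ (c : ZMod p) (l : X → ℤ) (m : M) (x : X),
      e ((c ⊗ₜ l) ⊗ₜ m) x = (l x • c) • m := by
    intro c l m x
    simp [e, v]
  haveI : FiniteDimensional (ZMod p)
      (Rep.of ((redLattice p (permLattice (G := G) X)).ρ.tprod M.ρ)) :=
    LinearEquiv.finiteDimensional e.symm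
  refine additive_eq_of_equiv hf
    (A := Rep.of ((redLattice p (permLattice (G := G) X)).ρ.tprod M.ρ)) (B := permTwist X M) e
    fun g t => ?_
  induction t using TensorProduct.induction_on with
  | zero => simp
  | tmul a m =>
    induction a using TensorProduct.induction_on with
    | zero => simp
    | tmul c l =>
      funext x
      show e ((c ⊗ₜ permLattice X g l) ⊗ₜ M.ρ g m) x = M.ρ g (e ((c ⊗ₜ l) ⊗ₜ m) (g⁻¹ • x))
      rw [hev, hev, map_smul]
      rfl
    | add a b ha hb => simp only [TensorProduct.add_tmul, map_add, ha, hb]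
  | add a b ha hb => simp only [map_add, ha, hb]

theorem permTwist_eq_of_fixed_eq [Fintype G] {f : Rep.{0} (ZMod p) G → ℤ} (hf : IsAdditiveOnRep f)
    (M : Rep.{0} (ZMod p) G) [FiniteDimensional (ZMod p) M]
    (X Y : Type) [MulAction G X] [MulAction G Y] [Fintype X] [Fintype Y]
    (h : ∀ g : G, Nat.card {x : X // g • x = x} = Nat.card {y : Y // g • y = y}) :
    f (permTwist X M) = f (permTwist Y M) := by
  rw [← redLattice_tensor_eq_permTwist hf, ← redLattice_tensor_eq_permTwist hf]
  exact additive_red_eq_of_trace_eq (isAdditiveOnRep_tensorFun hf M) _ _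
    fun g => by rw [trace_permLattice, trace_permLattice, h]

/-! ### Finite sums -/

theorem permTwist_sigma {f : Rep.{0} (ZMod p) G → ℤ} (hf : IsAdditiveOnRep f)
    (M : Rep.{0} (ZMod p) G) [FiniteDimensional (ZMod p) M]
    (ι : Type) [Fintype ι] :
    ∀ (X : ι → Type) [∀ i, Fintype (X i)] [∀ i, MulAction G (X i)]
      (Y : Type) [Fintype Y] [MulAction G Y] (e : Y ≃ Σ i, X i)
      (_ : ∀ (g : G) (y : Y), e (g • y) = ⟨(e y).1, g • (e y).2⟩),
      f (permTwist Y M) = ∑ i, f (permTwist (X i) M) := by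
  refine Fintype.induction_empty_option
    (P := fun ι (_ : Fintype ι) => ∀ (X : ι → Type) [∀ i, Fintype (X i)] [∀ i, MulAction G (X i)]
      (Y : Type) [Fintype Y] [MulAction G Y] (e : Y ≃ Σ i, X i)
      (_ : ∀ (g : G) (y : Y), e (g • y) = ⟨(e y).1, g • (e y).2⟩),
      f (permTwist Y M) = ∑ i, f (permTwist (X i) M)) ?_ ?_ ?_ ι
  · intro α β _ ε ih X _ _ Y _ _ e he
    letI : Fintype α := Fintype.ofEquiv β ε.symm
    rw [ih (fun a => X (ε a)) Y (e.trans (Equiv.sigmaCongrLeft ε).symm) fun g y => ?_]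
    · exact Fintype.sum_equiv ε _ _ fun a => rfl
    · apply (Equiv.sigmaCongrLeft ε).injective
      rw [Equiv.trans_apply, Equiv.apply_symm_apply, he]
      obtain ⟨z, hz⟩ := (Equiv.sigmaCongrLeft ε).surjective (e y)
      rw [Equiv.trans_apply, ← hz, Equiv.symm_apply_apply]
      rfl
  · intro X _ _ Y _ _ e _
    haveI : IsEmpty Y := e.isEmpty
    haveI : Subsingleton (permTwist Y M) := inferInstanceAs (Subsingleton (Y → M))
    rw [additive_subsingleton hf, Finset.univ_eq_empty, Finset.sum_empty]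
  · intro α _ ih X _ _ Y _ _ e he
    rw [Fintype.sum_option]
    have he' : ∀ (g : G) z, e.symm ⟨z.1, g • z.2⟩ = g • e.symm z := fun g z => by
      apply e.injective
      rw [Equiv.apply_symm_apply, he, Equiv.apply_symm_apply]
    letI : MulAction G (Σ a : α, X (some a)) :=
      { smul := fun g z => ⟨z.1, g • z.2⟩
        one_smul := fun ⟨a, z⟩ => Sigma.ext rfl (heq_of_eq (one_smul G z))
        mul_smul := fun g g' ⟨a, z⟩ => Sigma.ext rfl (heq_of_eq (mul_smul g g' z)) }
    let φ : permTwist (Σ a : α, X (some a)) M ⟶ permTwist Y M :=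
      Rep.ofHom ⟨LinearMap.pi fun y => (fun z : Σ o, X o =>
          match z with
          | ⟨none, _⟩ => 0
          | ⟨some a, x⟩ => LinearMap.proj (⟨a, x⟩ : Σ a : α, X (some a))) (e y),
        fun g => by
          refine LinearMap.ext fun h => funext fun y => ?_
          obtain ⟨⟨o, x⟩, rfl⟩ := e.symm.surjective y
          simp only [LinearMap.comp_apply, LinearMap.pi_apply, permTwistRep_apply,
            Equiv.apply_symm_apply, ← he']
          cases o with
          | none => simp
          | some a => rfl⟩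
    let ψ : permTwist Y M ⟶ permTwist (X none) M :=
      Rep.ofHom ⟨LinearMap.pi fun x => LinearMap.proj (e.symm ⟨none, x⟩), fun g => by
        refine LinearMap.ext fun h => funext fun x => ?_
        simp only [LinearMap.comp_apply, LinearMap.pi_apply, permTwistRep_apply,
          LinearMap.proj_apply, ← he']⟩
    have hs := hf φ ψ (inferInstanceAs (FiniteDimensional (ZMod p) (Y → M))) ?_ ?_ ?_
    · rw [hs, ih (fun a => X (some a)) _ (Equiv.refl _) (fun g z => rfl), add_comm]
    · intro h h' hh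
      funext z
      have := congrFun hh (e.symm ⟨some z.1, z.2⟩)
      simpa [φ] using this
    · intro h
      refine ⟨fun y => (fun z : Σ o, X o =>
          match z with
          | ⟨none, x⟩ => h x
          | ⟨some _, _⟩ => 0) (e y), funext fun x => ?_⟩
      simp [ψ]
    · intro h
      constructor
      · intro hh
        refine ⟨fun z => h (e.symm ⟨some z.1, z.2⟩), funext fun y => ?_⟩
        obtain ⟨⟨o, x⟩, rfl⟩ := e.symm.surjective y
        cases o with
        | none =>
          have := congrFun hh x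
          simp [φ, ψ] at this ⊢
          exact this.symm
        | some a => simp [φ]
      · rintro ⟨h', rfl⟩
        funext x
        simp [φ, ψ]
        rfl

/-! ### Artin weights -/

section Weights

variable [Fintype G]

/-- Weights with `∑_{D cyclic, E ≤ D} w D = 1` for every cyclic `E`. -/
theorem exists_artinWeight :
    ∃ w : Subgroup G → ℤ, (∀ D : Subgroup G, ¬ IsCyclic D → w D = 0) ∧
      ∀ E : Subgroup G, IsCyclic E →
        ∑ᶠ D ∈ {D : Subgroup G | E ≤ D}, w D = 1 := by
  classical
  let w : Subgroup G → ℤ :=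
    (Finite.wellFounded_of_trans_of_irrefl (fun a b : Subgroup G => b < a)).fix
      fun E rec => if IsCyclic E then
        1 - ∑ D : {D : Subgroup G // E < D}, rec D.1 D.2 else 0
  have hw : ∀ E, w E = if IsCyclic E then 1 - ∑ D : {D : Subgroup G // E < D}, w D.1 else 0 :=
    fun E => WellFounded.fix_eq _ _ E
  refine ⟨w, fun D hD => by rw [hw, if_neg hD], fun E hE => ?_⟩
  rw [finsum_mem_eq_finite_toFinset_sum _ (Set.toFinite _)]
  have hins : (Set.toFinite {D : Subgroup G | E ≤ D}).toFinset
      = insert E (Finset.univ.filter (E < ·)) := by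
    ext D
    simp only [Set.Finite.mem_toFinset, Set.mem_ofPred_eq, Finset.mem_insert, Finset.mem_filter,
      Finset.mem_univ, true_and]
    rw [le_iff_lt_or_eq, eq_comm, or_comm]
  rw [hins, Finset.sum_insert (by simp), hw E, if_pos hE,
    ← Finset.sum_subtype (Finset.univ.filter (E < ·)) (by simp) w]
  ring

omit [Fintype G] in
theorem card_mul_card_fixed (D : Subgroup G) (x : G) :
    Nat.card D * Nat.card {q : G ⧸ D // x • q = q} = Nat.card {g : G // g⁻¹ * x * g ∈ D} := by
  rw [← Nat.card_prod]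
  refine (Nat.card_congr ((QuotientGroup.preimageMkEquivSubgroupProdSet D
    {q : G ⧸ D | x • q = q}).symm.trans (Equiv.subtypeEquivRight fun g => ?_)))
  show x • (QuotientGroup.mk g : G ⧸ D) = QuotientGroup.mk g ↔ _
  rw [eq_comm, MulAction.Quotient.smul_mk, QuotientGroup.eq, smul_eq_mul, mul_assoc]

theorem artinWeight_fixed_sum (w : Subgroup G → ℤ)
    (hw : ∀ E : Subgroup G, IsCyclic E → ∑ᶠ D ∈ {D : Subgroup G | E ≤ D}, w D = 1) (x : G) :
    ∑ D : Subgroup G, w D * (Nat.card D * Nat.card {q : G ⧸ D // x • q = q} : ℕ) = Nat.card G := by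
  classical
  have h : ∀ D : Subgroup G, ((Nat.card D * Nat.card {q : G ⧸ D // x • q = q} : ℕ) : ℤ)
      = ∑ g : G, if g⁻¹ * x * g ∈ D then (1 : ℤ) else 0 := fun D => by
    rw [card_mul_card_fixed, Finset.sum_boole, Nat.card_eq_fintype_card, Fintype.card_subtype]
  simp only [h, Finset.mul_sum, mul_ite, mul_one, mul_zero]
  rw [Finset.sum_comm, Nat.card_eq_fintype_card, ← Finset.card_univ, Finset.card_eq_sum_ones,
    Nat.cast_sum, Nat.cast_one]
  refine Finset.sum_congr rfl fun g _ => ?_
  have hcy : IsCyclic (Subgroup.zpowers (g⁻¹ * x * g)) := inferInstance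
  have := hw _ hcy
  rw [finsum_mem_eq_finite_toFinset_sum _ (Set.toFinite _)] at this
  refine (Finset.sum_filter _ _).symm.trans ((Finset.sum_congr ?_ fun _ _ => rfl).trans this)
  ext D
  simp

omit [Fintype G] in
theorem card_fixed_sigma {ι : Type} [Fintype ι] (X : ι → Type) [∀ i, Fintype (X i)]
    [∀ i, MulAction G (X i)] (x : G) :
    Nat.card {z : Σ i, X i // x • z = z} = ∑ i, Nat.card {y : X i // x • y = y} := by
  rw [← Nat.card_sigma]
  refine Nat.card_congr ((Equiv.subtypeEquivRight (q := fun z : Σ i, X i => x • z.2 = z.2)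
    fun z => ?_).trans
      { toFun := fun z => ⟨z.1.1, z.1.2, z.2⟩
        invFun := fun z => ⟨⟨z.1, z.2.1⟩, z.2.2⟩
        left_inv := fun _ => rfl
        right_inv := fun _ => rfl })
  obtain ⟨i, y⟩ := z
  simp

omit [Fintype G] in
theorem permTwist_sigma_self {f : Rep.{0} (ZMod p) G → ℤ} (hf : IsAdditiveOnRep f)
    (M : Rep.{0} (ZMod p) G) [FiniteDimensional (ZMod p) M] {ι : Type} [Fintype ι]
    (E : ι → Subgroup G) [∀ i, Fintype (G ⧸ E i)] :
    f (permTwist (Σ i, G ⧸ E i) M) = ∑ i, f (permTwist (G ⧸ E i) M) :=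
  permTwist_sigma hf M ι (fun i => G ⧸ E i) _ (Equiv.refl _) (fun _ ⟨_, _⟩ => rfl)

/-- **Artin induction**: an additive function vanishing on modules induced from cyclic subgroups
vanishes. -/
theorem additive_eq_zero_of_cyclic {f : Rep.{0} (ZMod p) G → ℤ} (hf : IsAdditiveOnRep f)
    (M : Rep.{0} (ZMod p) G) [FiniteDimensional (ZMod p) M]
    (hC : ∀ D : Subgroup G, IsCyclic D → f (permTwist (G ⧸ D) M) = 0) : f M = 0 := by
  classical
  obtain ⟨w, hwc, hw⟩ := exists_artinWeight (G := G)
  let a : Subgroup G → ℕ := fun D => (w D).toNat * Nat.card D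
  let b : Subgroup G → ℕ := fun D => (-w D).toNat * Nat.card D
  let A : (Σ D : Subgroup G, Fin (a D)) → Subgroup G := fun i => i.1
  let B : ((Σ D : Subgroup G, Fin (b D)) ⊕ Fin (Nat.card G)) → Subgroup G :=
    Sum.elim (fun j => j.1) fun _ => ⊤
  letI : ∀ D : Subgroup G, Fintype (G ⧸ D) := fun D => Fintype.ofFinite _
  haveI := QuotientGroup.subsingleton_quotient_top (G := G)
  have hfix : ∀ x : G, Nat.card {z : Σ i, G ⧸ A i // x • z = z}
      = Nat.card {z : Σ i, G ⧸ B i // x • z = z} := by
    intro x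
    rw [card_fixed_sigma, card_fixed_sigma, Fintype.sum_sum_type]
    let c : Subgroup G → ℕ := fun D => Nat.card {q : G ⧸ D // x • q = q}
    change ∑ i : (Σ D, Fin (a D)), c i.1
      = ∑ i : (Σ D, Fin (b D)), c i.1 + ∑ _i : Fin (Nat.card G), c ⊤
    rw [Fintype.sum_sigma, Fintype.sum_sigma]
    have top : Nat.card {q : G ⧸ (⊤ : Subgroup G) // x • q = q} = 1 := by
      rw [Nat.card_eq_one_iff_unique]
      exact ⟨inferInstance, ⟨⟨QuotientGroup.mk 1, Subsingleton.elim _ _⟩⟩⟩
    apply Nat.cast_injective (R := ℤ)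
    simp only [Finset.sum_const, Finset.card_univ, Fintype.card_fin, smul_eq_mul, c, top,
      mul_one, a, b]
    push_cast
    rw [← sub_eq_iff_eq_add', ← Finset.sum_sub_distrib, ← artinWeight_fixed_sum w hw x]
    refine Finset.sum_congr rfl fun D _ => ?_
    push_cast
    linear_combination ((Nat.card D : ℤ) * (Nat.card {q : G ⧸ D // x • q = q} : ℤ))
      * Int.toNat_sub_toNat_neg (w D)
  have h := permTwist_eq_of_fixed_eq hf M (Σ i, G ⧸ A i) (Σ i, G ⧸ B i) hfix
  rw [permTwist_sigma_self hf M A, permTwist_sigma_self hf M B] at h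
  have z : ∀ (D : Subgroup G) (n : ℕ), (w D = 0 → n = 0) → ∀ _ : Fin n,
      f (permTwist (G ⧸ D) M) = 0 := fun D n hn j => by
    refine hC D (by_contra fun hD => ?_)
    have := hn (hwc D hD)
    exact absurd j.2 (by omega)
  rw [Fintype.sum_sum_type,
    Finset.sum_eq_zero (fun i _ => z i.1 _ (fun h => by simp [a, h]) i.2)] at h
  change 0 = ∑ i : (Σ D, Fin (b D)), f (permTwist (G ⧸ i.1) M)
    + ∑ _i : Fin (Nat.card G), f (permTwist (G ⧸ (⊤ : Subgroup G)) M) at h
  rw [Finset.sum_eq_zero (fun i _ => z i.1 _ (fun h => by simp [b, h]) i.2), zero_add,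
    Finset.sum_const, Finset.card_univ, Fintype.card_fin, nsmul_eq_mul] at h
  haveI : Unique (G ⧸ (⊤ : Subgroup G)) := uniqueOfSubsingleton (QuotientGroup.mk 1)
  have htop : f (permTwist (G ⧸ (⊤ : Subgroup G)) M) = f M :=
    additive_eq_of_equiv hf (A := permTwist (G ⧸ (⊤ : Subgroup G)) M) (B := M)
      (LinearEquiv.funUnique _ (ZMod p) M) fun g h => by
        exact congrArg (fun q => M.ρ g (h q)) (Subsingleton.elim _ _)
  rw [htop] at h
  exact (mul_eq_zero.1 h.symm).resolve_left (Nat.cast_ne_zero.2 Nat.card_pos.ne')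

end Weights

end Fermat.Agent.CFT
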