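import Fermat.Agent.CFT.UnitsHerbrand
import Fermat.Agent.CFT.PlaceAction
import Fermat.Agent.CFT.SUnitsModP

/-!
# The Herbrand quotient of the `S`-units of a cyclic extension of number fields
-/

namespace Fermat.Agent.CFT

open NumberField HerbrandPair IsDedekindDomain
open scoped Classical

section basic

variable (K : Type*) {L : Type*} [Field K] [Field L] [NumberField K] [NumberField L] [Algebra K L]

/-- The place of `K` under a place of `L`. -/
noncomputable def placeBelow (w : HeightOneSpectrum (𝓞 L)) : HeightOneSpectrum (𝓞 K) where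
  asIdeal := w.asIdeal.under (𝓞 K)
  isPrime := inferInstance
  ne_bot := mt Ideal.eq_bot_of_comap_eq_bot w.ne_bot

variable {K}

set_option linter.unusedSectionVars false

omit [NumberField K] [NumberField L] in
lemma placeBelow_smul (g : Gal(L/K)) (w : HeightOneSpectrum (𝓞 L)) :
    placeBelow K (g • w) = placeBelow K w := by
  refine HeightOneSpectrum.ext (SetLike.ext fun x => ?_)
  show g⁻¹ • algebraMap (𝓞 K) (𝓞 L) x ∈ w.asIdeal ↔ algebraMap (𝓞 K) (𝓞 L) x ∈ w.asIdeal
  rw [show g⁻¹ • algebraMap (𝓞 K) (𝓞 L) x = algebraMap (𝓞 K) (𝓞 L) x from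
    RingOfIntegers.ext (g⁻¹.commutes (x : K))]

omit [NumberField K] in
lemma placeBelow_surjective : Function.Surjective (placeBelow K (L := L)) := fun v => by
  obtain ⟨P, -, hP, hPv⟩ := Ideal.exists_ideal_over_prime_of_isIntegral v.asIdeal (⊥ : Ideal (𝓞 L))
    (by rw [Ideal.comap_bot_of_injective _ (FaithfulSMul.algebraMap_injective (𝓞 K) (𝓞 L))]; simp)
  refine ⟨⟨P, hP, fun h => v.ne_bot ?_⟩, HeightOneSpectrum.ext hPv⟩
  rw [← hPv, h, Ideal.comap_bot_of_injective _ (FaithfulSMul.algebraMap_injective (𝓞 K) (𝓞 L))]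

variable (L) in
/-- The places of `L` above a finite set of places of `K`. -/
abbrev PlacesAbove (S : Finset (HeightOneSpectrum (𝓞 K))) : Type _ :=
  {w : HeightOneSpectrum (𝓞 L) // placeBelow K w ∈ S}

scoped instance placesAboveAct (S : Finset (HeightOneSpectrum (𝓞 K))) :
    MulAction Gal(L/K) (PlacesAbove L S) where
  smul g w := ⟨g • w.1, by rw [placeBelow_smul]; exact w.2⟩
  one_smul w := Subtype.ext (one_smul Gal(L/K) w.1)
  mul_smul g h w := Subtype.ext (mul_smul g h w.1)

@[simp] lemma coe_placesAboveAct (S : Finset (HeightOneSpectrum (𝓞 K))) (g : Gal(L/K))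
    (w : PlacesAbove L S) : ((g • w : PlacesAbove L S) : HeightOneSpectrum (𝓞 L)) = g • w.1 := rfl

variable (L) in
/-- The `S`-units of `L`, for a finite set `S` of places of `K`. -/
noncomputable def sUnitsL (S : Finset (HeightOneSpectrum (𝓞 K))) : Subgroup Lˣ :=
  {w : HeightOneSpectrum (𝓞 L) | placeBelow K w ∈ S}.unit L

lemma mem_sUnitsL {S : Finset (HeightOneSpectrum (𝓞 K))} {x : Lˣ} :
    x ∈ sUnitsL L S ↔ ∀ w : HeightOneSpectrum (𝓞 L), placeBelow K w ∉ S → w.valuation L (x : L) = 1 := Iff.rfl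

lemma smul_mem_sUnitsL {S : Finset (HeightOneSpectrum (𝓞 K))} (g : Gal(L/K)) {x : Lˣ}
    (hx : x ∈ sUnitsL L S) : g • x ∈ sUnitsL L S := fun w hw => by
  show w.valuation L (g (x : L)) = 1
  rw [valuation_apply_eq]
  exact hx _ fun (h : placeBelow K (g⁻¹ • w) ∈ S) => hw (by rwa [placeBelow_smul] at h)

scoped instance sUnitsAct (S : Finset (HeightOneSpectrum (𝓞 K))) :
    MulDistribMulAction Gal(L/K) (sUnitsL L S) where
  smul g x := ⟨g • x.1, smul_mem_sUnitsL g x.2⟩
  one_smul x := Subtype.ext (one_smul Gal(L/K) x.1)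
  mul_smul g h x := Subtype.ext (mul_smul g h x.1)
  smul_mul g x y := Subtype.ext (smul_mul' g x.1 y.1)
  smul_one g := Subtype.ext (smul_one g)

lemma finite_placeBelow_fibre (v : HeightOneSpectrum (𝓞 K)) :
    Set.Finite {w : HeightOneSpectrum (𝓞 L) | placeBelow K w = v} := by
  refine ((IsDedekindDomain.primesOver_finite v.asIdeal (𝓞 L)).preimage
    (f := fun w : HeightOneSpectrum (𝓞 L) => w.asIdeal) ?_).subset fun w hw => ?_
  · exact fun w _ w' _ h => HeightOneSpectrum.ext h
  · exact ⟨w.isPrime, ⟨(congrArg HeightOneSpectrum.asIdeal hw).symm⟩⟩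

instance finite_placesAbove (S : Finset (HeightOneSpectrum (𝓞 K))) : Finite (PlacesAbove L S) :=
  Set.Finite.to_subtype ((S.finite_toSet.biUnion fun v _ => finite_placeBelow_fibre v).subset
    fun w hw => Set.mem_biUnion hw rfl)

/-- Galois acts transitively on the places over a given place. -/
lemma exists_smul_eq_of_placeBelow_eq [IsGalois K L] {w w' : HeightOneSpectrum (𝓞 L)}
    (h : placeBelow K w = placeBelow K w') : ∃ g : Gal(L/K), g • w = w' := by
  obtain ⟨g, hg⟩ := Algebra.IsInvariant.exists_smul_of_under_eq (𝓞 K) (𝓞 L) Gal(L/K)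
    w.asIdeal w'.asIdeal (congrArg HeightOneSpectrum.asIdeal h)
  refine ⟨g, HeightOneSpectrum.ext ?_⟩
  rw [hg, placeAct_asIdeal]
  rfl

variable (L) in
/-- The local degree of `L/K` at a place of `K`: the order of a decomposition group. -/
noncomputable def placeDeg (v : HeightOneSpectrum (𝓞 K)) : ℕ :=
  Nat.card (MulAction.stabilizer Gal(L/K) (placeBelow_surjective (L := L) v).choose)

lemma placeDeg_pos (v : HeightOneSpectrum (𝓞 K)) : 0 < placeDeg L v := Nat.card_pos

lemma card_stabilizer_eq_placeDeg [IsGalois K L] (w : HeightOneSpectrum (𝓞 L)) :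
    Nat.card (MulAction.stabilizer Gal(L/K) w) = placeDeg L (placeBelow K w) := by
  set w' := (placeBelow_surjective (K := K) (L := L) (placeBelow K w)).choose
  obtain ⟨g, hg⟩ := exists_smul_eq_of_placeBelow_eq (K := K) (w := w') (w' := w)
    (placeBelow_surjective (K := K) (L := L) (placeBelow K w)).choose_spec
  show _ = Nat.card (MulAction.stabilizer Gal(L/K) w')
  rw [← hg, MulAction.stabilizer_smul_eq_stabilizer_map_conj]
  exact Nat.card_congr ((MulAction.stabilizer Gal(L/K) w').equivMapOfInjective _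
    (MulAut.conj g).injective).symm.toEquiv

/-- The valuation vector of an `S`-unit. -/
noncomputable def sValHom (S : Finset (HeightOneSpectrum (𝓞 K))) :
    Additive (sUnitsL L S) →+ PermMod Gal(L/K) (PlacesAbove L S) :=
  AddMonoidHom.mk' (fun x => ⟨fun w => Multiplicative.toAdd (w.1.valuationOfNeZero x.toMul.1)⟩)
    fun x y => PermMod.ext' fun w => by simp

lemma valuationOfNeZero_eq_one_iff (w : HeightOneSpectrum (𝓞 L)) (x : Lˣ) :
    w.valuationOfNeZero x = 1 ↔ w.valuation L (x : L) = 1 := by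
  rw [← HeightOneSpectrum.valuationOfNeZero_eq, ← WithZero.coe_one, WithZero.coe_inj]

lemma valuationOfNeZero_smul (g : Gal(L/K)) (w : HeightOneSpectrum (𝓞 L)) (x : Lˣ) :
    w.valuationOfNeZero (g • x) = (g⁻¹ • w).valuationOfNeZero x := by
  rw [← WithZero.coe_inj, HeightOneSpectrum.valuationOfNeZero_eq,
    HeightOneSpectrum.valuationOfNeZero_eq]
  exact valuation_apply_eq g w (x : L)

/-- Units of `𝓞 L` as `S`-units. -/
noncomputable def unitsToSUnits (S : Finset (HeightOneSpectrum (𝓞 K))) :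
    Additive (𝓞 L)ˣ →+ Additive (sUnitsL L S) :=
  MonoidHom.toAdditive ((Units.map (algebraMap (𝓞 L) L : 𝓞 L →* L)).codRestrict (sUnitsL L S)
    fun u w _ => by
      rw [← HeightOneSpectrum.valuationOfNeZero_eq, w.valuation_of_unit_eq]
      rfl)

lemma sValHom_eq_zero_iff (S : Finset (HeightOneSpectrum (𝓞 K))) (x : Additive (sUnitsL L S)) :
    sValHom S x = 0 ↔ ∃ u, unitsToSUnits S u = x := by
  constructor
  · intro h
    obtain ⟨u, hu⟩ := supm_exists_unit (x := x.toMul.1) fun w => by
      by_cases hw : placeBelow K w ∈ S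
      · have := congrArg (fun c => c.toFun ⟨w, hw⟩) h
        exact (valuationOfNeZero_eq_one_iff w _).1 (Multiplicative.toAdd.injective this)
      · exact x.toMul.2 w hw
    exact ⟨Additive.ofMul u, Additive.toMul.injective (Subtype.ext hu)⟩
  · rintro ⟨u, rfl⟩
    refine PermMod.ext' fun w => ?_
    exact congrArg Multiplicative.toAdd (w.1.valuation_of_unit_eq (K := L) u.toMul)

lemma finite_quot_range_sValHom (S : Finset (HeightOneSpectrum (𝓞 K))) :
    Finite (PermMod Gal(L/K) (PlacesAbove L S) ⧸ (sValHom (L := L) S).range) := by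
  have := Fintype.ofFinite (PlacesAbove L S)
  choose x k hk hx hxv using supm_exists_supported (K := L)
  let eLin : PermMod Gal(L/K) (PlacesAbove L S) ≃ₗ[ℤ] (PlacesAbove L S → ℤ) :=
    ({ PermMod.equivFun with map_add' := fun _ _ => rfl } : _ ≃+ _).toIntLinearEquiv
  have : Module.Finite ℤ (PermMod Gal(L/K) (PlacesAbove L S)) := Module.Finite.equiv eLin.symm
  have hsingle : ∀ w : PlacesAbove L S,
      (k w.1 : ℤ) • (PermMod.single w : PermMod Gal(L/K) _) ∈ (sValHom (L := L) S).range := by
    intro w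
    refine ⟨-Additive.ofMul ⟨x w.1, fun w' hw' => hx w.1 w' fun h => hw' (h ▸ w.2)⟩,
      PermMod.ext' fun w' => ?_⟩
    rw [map_neg, PermMod.neg_apply]
    show -Multiplicative.toAdd (w'.1.valuationOfNeZero (x w.1)) =
      PermMod.applyHom w' ((k w.1 : ℤ) • PermMod.single w)
    rw [map_zsmul, show PermMod.applyHom w' (PermMod.single w) = if w' = w then 1 else 0 from by
        show (PermMod.single w : PermMod Gal(L/K) _).toFun w' = _
        simp [PermMod.single]]
    split_ifs with h
    · subst h; simp [hxv]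
    · simp [(valuationOfNeZero_eq_one_iff w'.1 _).2 (hx w.1 w'.1 fun e => h (Subtype.ext e))]
  refine @Module.finite_of_fg_torsion _ _ _ (inferInstanceAs
    (Module.Finite ℤ (_ ⧸ (sValHom (L := L) S).toIntLinearMap.range))) ?_
  intro c
  refine ⟨⟨(∏ w : PlacesAbove L S, (k w.1 : ℤ)), mem_nonZeroDivisors_of_ne_zero
    (Finset.prod_ne_zero_iff.2 fun w _ => by have := hk w.1; omega)⟩, ?_⟩
  obtain ⟨c, rfl⟩ := QuotientAddGroup.mk_surjective c
  refine (QuotientAddGroup.eq_zero_iff ((∏ w : PlacesAbove L S, (k w.1 : ℤ)) • c)).2 ?_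
  rw [ PermMod.eq_sum_single c, Finset.smul_sum]
  refine AddSubgroup.sum_mem _ fun w _ => ?_
  rw [← Finset.mul_prod_erase _ _ (Finset.mem_univ w), smul_smul, mul_right_comm,
    mul_comm ((k w.1 : ℤ) * _), mul_smul]
  rw [mul_comm, mul_smul]
  exact AddSubgroup.zsmul_mem _ (AddSubgroup.zsmul_mem _ (hsingle w) _) _

/-- Herbrand quotient of the `S`-units: `(∏_{v ∈ S ∪ ∞} n_v) / n`. -/
theorem hasQ_sUnits [IsGalois K L] (S : Finset (HeightOneSpectrum (𝓞 K))) (s : Gal(L/K))
    (hs : ∀ g, g ∈ Subgroup.zpowers s) :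
    (actPair (Additive (sUnitsL L S)) s).HasQ
      ((∏ v ∈ S, (placeDeg L v : ℚ)) * (infDegProd K L / Module.finrank K L)) := by
  have := Fintype.ofFinite (PlacesAbove L S)
  set P := actPair (PermMod Gal(L/K) (PlacesAbove L S)) s
  have hval : Hom (actPair (Additive (sUnitsL L S)) s) P (sValHom S) := actPair_hom fun x =>
    PermMod.ext' fun w => congrArg Multiplicative.toAdd (valuationOfNeZero_smul s w.1 x.toMul.1)
  have hunit : Hom (actPair (Additive (𝓞 L)ˣ) s) (actPair (Additive (sUnitsL L S)) s)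
      (unitsToSUnits S) := actPair_hom fun u => rfl
  let r : MulAction.orbitRel.Quotient Gal(L/K) (PlacesAbove L S) → PlacesAbove L S := Quotient.out
  have hP : P.HasQ ((∏ v ∈ S, placeDeg L v : ℕ) : ℚ) := by
    refine (hasQ_permMod s hs r Quotient.out_eq).of_eq _ ?_
    congr 1
    rw [← Finset.prod_coe_sort, ← finprod_eq_prod_of_fintype]
    let φ : MulAction.orbitRel.Quotient Gal(L/K) (PlacesAbove L S) → S :=
      Quotient.lift (fun w => ⟨placeBelow K w.1, w.2⟩) fun w w' h => by
        obtain ⟨g, hg⟩ := h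
        refine Subtype.ext ?_
        show placeBelow K w.1 = placeBelow K w'.1
        rw [← hg]
        exact placeBelow_smul g w'.1
    refine finprod_eq_of_bijective φ ⟨fun o o' h => ?_, fun v => ?_⟩ fun o => ?_
    · obtain ⟨w, rfl⟩ := Quotient.exists_rep o
      obtain ⟨w', rfl⟩ := Quotient.exists_rep o'
      obtain ⟨g, hg⟩ := exists_smul_eq_of_placeBelow_eq (K := K)
        (show placeBelow K w'.1 = placeBelow K w.1 from (congrArg Subtype.val h).symm)
      exact Quotient.sound ⟨g, Subtype.ext hg⟩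
    · obtain ⟨w, hw⟩ := placeBelow_surjective (K := K) (L := L) v.1
      exact ⟨⟦⟨w, hw ▸ v.2⟩⟧, Subtype.ext hw⟩
    · have h1 : φ o = ⟨placeBelow K (r o).1, (r o).2⟩ := by
        conv_lhs => rw [← Quotient.out_eq o]
        rfl
      rw [h1, ← card_stabilizer_eq_placeDeg]
      congr 2
      ext g
      simp [MulAction.mem_stabilizer_iff, Subtype.ext_iff]
  have := finite_quot_range_sValHom (L := L) S
  have hR := (P.shortExact_quot _ hval.f_mem_range hval.g_mem_range).hasQ_left hP
    (hasQ_one_of_finite _)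
  have hs' : ShortExact (actPair (Additive (𝓞 L)ˣ) s) (actPair (Additive (sUnitsL L S)) s)
      (P.restrict _ hval.f_mem_range hval.g_mem_range) (unitsToSUnits S)
      (sValHom S).rangeRestrict :=
    ⟨fun u u' h => Additive.toMul.injective (Units.ext (FaithfulSMul.algebraMap_injective (𝓞 L) L
      (congrArg (fun x : Additive (sUnitsL L S) => ((x.toMul : Lˣ) : L)) h))),
      (sValHom S).rangeRestrict_surjective,
      fun x => by rw [← sValHom_eq_zero_iff]; exact Subtype.ext_iff,
      hunit, ⟨fun x => Subtype.ext (hval.comm_f x), fun x => Subtype.ext (hval.comm_g x)⟩⟩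
  refine (hs'.hasQ_mid (hasQ_units s hs) hR).of_eq _ ?_
  push_cast
  ring

end basic

end Fermat.Agent.CFT
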