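import Fermat.Agent.CFT.Herbrand

/-!
# Restriction and quotient Herbrand pairs, invariance under finite cokernels
-/

namespace Fermat.Agent.CFT.HerbrandPair

variable {A B Z : Type*} [AddCommGroup A] [AddCommGroup B] [AddCommGroup Z]

/-- The pair induced on an invariant subgroup. -/
def restrict (P : HerbrandPair A) (D : AddSubgroup A) (hf : ∀ a ∈ D, P.f a ∈ D)
    (hg : ∀ a ∈ D, P.g a ∈ D) : HerbrandPair D where
  f := (P.f.comp D.subtype).codRestrict D fun a => hf _ a.2
  g := (P.g.comp D.subtype).codRestrict D fun a => hg _ a.2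
  fg a := Subtype.ext (P.fg a.1)
  gf a := Subtype.ext (P.gf a.1)

/-- The pair induced on the quotient by an invariant subgroup. -/
def quot (P : HerbrandPair A) (D : AddSubgroup A) (hf : ∀ a ∈ D, P.f a ∈ D)
    (hg : ∀ a ∈ D, P.g a ∈ D) : HerbrandPair (A ⧸ D) where
  f := QuotientAddGroup.map D D P.f hf
  g := QuotientAddGroup.map D D P.g hg
  fg a := by
    obtain ⟨a, rfl⟩ := QuotientAddGroup.mk_surjective a
    exact congrArg _ (P.fg a)
  gf a := by
    obtain ⟨a, rfl⟩ := QuotientAddGroup.mk_surjective a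
    exact congrArg _ (P.gf a)

lemma shortExact_quot (P : HerbrandPair A) (D : AddSubgroup A) (hf : ∀ a ∈ D, P.f a ∈ D)
    (hg : ∀ a ∈ D, P.g a ∈ D) :
    ShortExact (P.restrict D hf hg) P (P.quot D hf hg) D.subtype (QuotientAddGroup.mk' D) where
  inj := Subtype.coe_injective
  surj := QuotientAddGroup.mk'_surjective D
  exact b := ⟨fun h => ⟨⟨b, (QuotientAddGroup.eq_zero_iff b).1 h⟩, rfl⟩, by
    rintro ⟨a, rfl⟩
    exact (QuotientAddGroup.eq_zero_iff _).2 a.2⟩
  homι := ⟨fun _ => rfl, fun _ => rfl⟩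
  homπ := ⟨fun _ => rfl, fun _ => rfl⟩

variable {P : HerbrandPair A} {P' : HerbrandPair B} {φ : A →+ B}

lemma Hom.f_mem_range (h : Hom P P' φ) : ∀ b ∈ φ.range, P'.f b ∈ φ.range := by
  rintro _ ⟨a, rfl⟩
  exact ⟨P.f a, h.comm_f a⟩

lemma Hom.g_mem_range (h : Hom P P' φ) : ∀ b ∈ φ.range, P'.g b ∈ φ.range := by
  rintro _ ⟨a, rfl⟩
  exact ⟨P.g a, h.comm_g a⟩

/-- A morphism with finite cokernel: the Herbrand quotient of the target is that of the source
divided by that of the kernel. -/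
lemma Hom.hasQ_of_finite_coker (h : Hom P P' φ) {Q : HerbrandPair Z} {ι : Z →+ A}
    (hι : Function.Injective ι) (hQ : Hom Q P ι) (hker : ∀ a, φ a = 0 ↔ ∃ z, ι z = a)
    [Finite (B ⧸ φ.range)] {a z : ℚ} (ha : P.HasQ a) (hz : Q.HasQ z) : P'.HasQ (a / z) := by
  have hs : ShortExact Q P (P'.restrict φ.range h.f_mem_range h.g_mem_range) ι φ.rangeRestrict :=
    ⟨hι, φ.rangeRestrict_surjective, fun b => by rw [← hker b]; exact Subtype.ext_iff,
      hQ, ⟨fun x => Subtype.ext (h.comm_f x), fun x => Subtype.ext (h.comm_g x)⟩⟩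
  have hr := hs.hasQ_right hz ha
  exact ((P'.shortExact_quot _ h.f_mem_range h.g_mem_range).hasQ_mid hr
    (hasQ_one_of_finite _)).of_eq _ (mul_one _)

end Fermat.Agent.CFT.HerbrandPair
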