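import Fermat.Agent.CFT.Herbrand

/-!
# Herbrand quotients for group actions and for permutation modules
-/

namespace Fermat.Agent.CFT

open HerbrandPair

/-- The endomorphism of an additive group given by a group element. -/
abbrev smulEnd {G : Type*} [Monoid G] (A : Type*) [AddCommGroup A] [DistribMulAction G A] (s : G) :
    AddMonoid.End A := DistribMulAction.toAddMonoidEnd G A s

lemma smulEnd_iterate {G A : Type*} [Monoid G] [AddCommGroup A] [DistribMulAction G A] (s : G)
    (i : ℕ) (a : A) : (⇑(smulEnd A s))^[i] a = s ^ i • a := by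
  induction i generalizing a with
  | zero => simp
  | succ k ih =>
    rw [Function.iterate_succ_apply, ih, pow_succ, mul_smul]; rfl

/-- The Herbrand pair of a finite-order element acting on an abelian group. -/
noncomputable def actPair {G : Type*} [Monoid G] (A : Type*) [AddCommGroup A]
    [DistribMulAction G A] (s : G) : HerbrandPair A :=
  cycPair (smulEnd A s) (orderOf s) fun a => by
    rw [smulEnd_iterate, pow_orderOf_eq_one, one_smul]

section action

variable {G A B C : Type*} [Monoid G] [AddCommGroup A] [AddCommGroup B] [AddCommGroup C]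
  [DistribMulAction G A] [DistribMulAction G B] [DistribMulAction G C] (s : G)

lemma actPair_f_apply (a : A) : (actPair A s).f a = s • a - a := rfl

lemma actPair_g_apply (a : A) :
    (actPair A s).g a = ∑ i ∈ Finset.range (orderOf s), s ^ i • a := by
  rw [actPair, cycPair_g_apply]
  exact Finset.sum_congr rfl fun i _ => smulEnd_iterate s i a

variable {s} in
lemma actPair_hom {φ : A →+ B} (h : ∀ a, φ (s • a) = s • φ a) :
    Hom (actPair A s) (actPair B s) φ :=
  cycPair_hom _ _ φ h

variable {s} in
lemma actPair_shortExact {ι : A →+ B} {π : B →+ C} (hι : Function.Injective ι)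
    (hπ : Function.Surjective π) (hex : ∀ b, π b = 0 ↔ ∃ a, ι a = b)
    (eι : ∀ a, ι (s • a) = s • ι a) (eπ : ∀ b, π (s • b) = s • π b) :
    ShortExact (actPair A s) (actPair B s) (actPair C s) ι π :=
  ⟨hι, hπ, hex, actPair_hom eι, actPair_hom eπ⟩

end action

/-- The trivial pair `(0, n)` on a group with trivial action. -/
noncomputable def trivPair (A : Type*) [AddCommGroup A] (n : ℕ) : HerbrandPair A :=
  cycPair 1 n fun a => by simp

lemma trivPair_g_apply (A : Type*) [AddCommGroup A] (n : ℕ) (a : A) :
    (trivPair A n).g a = n • a := by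
  rw [trivPair, cycPair_g_apply]
  simp

lemma trivPair_f_apply (A : Type*) [AddCommGroup A] (n : ℕ) (a : A) :
    (trivPair A n).f a = 0 := by
  rw [trivPair, cycPair_f_apply]
  simp

lemma hasQ_trivPair_int {n : ℕ} (hn : n ≠ 0) : (trivPair ℤ n).HasQ n := by
  have h₀ : Nat.card (trivPair ℤ n).H = n := by
    show (trivPair ℤ n).g.range.relIndex (trivPair ℤ n).f.ker = n
    rw [show (trivPair ℤ n).f.ker = ⊤ from top_unique fun a _ => trivPair_f_apply ℤ n a,
      AddSubgroup.relIndex_top_right,
      show (trivPair ℤ n).g.range = AddSubgroup.zmultiples (n : ℤ) from ?_,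
      Int.index_zmultiples, Int.natAbs_natCast]
    ext a
    simp only [AddMonoidHom.mem_range, trivPair_g_apply, AddSubgroup.mem_zmultiples_iff,
      smul_eq_mul, nsmul_eq_mul]
    exact ⟨fun ⟨x, hx⟩ => ⟨x, by linarith⟩, fun ⟨x, hx⟩ => ⟨x, by linarith⟩⟩
  have h₁ : Nat.card (trivPair ℤ n).swap.H = 1 := by
    have : Subsingleton (trivPair ℤ n).swap.f.ker := ⟨fun a b => Subtype.ext <| by
      have ha : (trivPair ℤ n).g a.1 = 0 := a.2
      have hb : (trivPair ℤ n).g b.1 = 0 := b.2
      rw [trivPair_g_apply, smul_eq_zero] at ha hb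
      rw [ha.resolve_left hn, hb.resolve_left hn]⟩
    have : Subsingleton (trivPair ℤ n).swap.H := (cls_surjective _).subsingleton
    exact Nat.card_of_subsingleton 0
  exact ⟨by rw [h₀]; exact hn, by rw [h₁]; exact one_ne_zero, by rw [h₀, h₁]; simp⟩

/-! ### Permutation modules -/

section Perm

variable {G X : Type*}

/-- Functions `X → ℤ` with the translation action of `G`. -/
structure PermMod (G X : Type*) where
  /-- the underlying function -/
  toFun : X → ℤ

namespace PermMod

@[ext] lemma ext' {c d : PermMod G X} (h : ∀ x, c.toFun x = d.toFun x) : c = d := by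
  cases c; cases d; congr; funext x; exact h x

def equivFun : PermMod G X ≃ (X → ℤ) := ⟨toFun, mk, fun _ => rfl, fun _ => rfl⟩

noncomputable instance : AddCommGroup (PermMod G X) := equivFun.addCommGroup

@[simp] lemma add_apply (c d : PermMod G X) (x : X) : (c + d).toFun x = c.toFun x + d.toFun x := rfl
@[simp] lemma zero_apply (x : X) : (0 : PermMod G X).toFun x = 0 := rfl
@[simp] lemma sub_apply (c d : PermMod G X) (x : X) : (c - d).toFun x = c.toFun x - d.toFun x := rfl
@[simp] lemma neg_apply (c : PermMod G X) (x : X) : (-c).toFun x = -c.toFun x := rfl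

def applyHom (x : X) : PermMod G X →+ ℤ where
  toFun c := c.toFun x
  map_zero' := rfl
  map_add' _ _ := rfl

@[simp] lemma sum_apply {ι : Type*} (t : Finset ι) (c : ι → PermMod G X) (x : X) :
    (∑ i ∈ t, c i).toFun x = ∑ i ∈ t, (c i).toFun x :=
  map_sum (applyHom x) c t

variable [Group G] [MulAction G X]

noncomputable instance : DistribMulAction G (PermMod G X) where
  smul g c := ⟨fun x => c.toFun (g⁻¹ • x)⟩
  one_smul c := ext' fun x => show c.toFun ((1 : G)⁻¹ • x) = _ by simp
  mul_smul g h c := ext' fun x => show c.toFun ((g * h)⁻¹ • x) = c.toFun (h⁻¹ • g⁻¹ • x) by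
    rw [mul_inv_rev, mul_smul]
  smul_zero _ := rfl
  smul_add _ _ _ := rfl

@[simp] lemma smul_apply (g : G) (c : PermMod G X) (x : X) :
    (g • c).toFun x = c.toFun (g⁻¹ • x) := rfl

open Classical in
/-- The indicator of a point. -/
noncomputable def single (x : X) : PermMod G X := ⟨fun y => if y = x then 1 else 0⟩

lemma smul_single (g : G) (x : X) : g • (single x : PermMod G X) = single (g • x) := by
  ext y
  classical
  exact if_congr inv_smul_eq_iff rfl rfl

omit [Group G] [MulAction G X] in
lemma eq_sum_single [Fintype X] (c : PermMod G X) : c = ∑ x, c.toFun x • single x := by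
  classical
  ext y
  rw [sum_apply]
  simp [single, show ∀ (m : ℤ) (d : PermMod G X), (m • d).toFun y = m * d.toFun y
    from fun m d => (map_zsmul (applyHom y) m d).trans (smul_eq_mul _ _)]

end PermMod

variable [Group G] [MulAction G X]

/-- The Herbrand quotient of a permutation module is the product of the stabiliser orders,
taken over the orbits. -/
theorem hasQ_permMod [Finite X] [Finite G] (s : G) (hs : ∀ g : G, g ∈ Subgroup.zpowers s)
    (r : MulAction.orbitRel.Quotient G X → X) (hr : ∀ o, Quotient.mk'' (r o) = o) :
    (actPair (PermMod G X) s).HasQ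
      ((∏ᶠ o, Nat.card (MulAction.stabilizer G (r o)) : ℕ) : ℚ) := by
  classical
  have := Fintype.ofFinite G
  have := Fintype.ofFinite X
  have : Fintype (MulAction.orbitRel.Quotient G X) := Fintype.ofFinite _
  set P := actPair (PermMod G X) s
  have hord : orderOf s = Nat.card G := orderOf_eq_card_of_forall_mem_zpowers hs
  have hN : ∀ c : PermMod G X, P.g c = ∑ g : G, g • c := fun c => by
    rw [show P.g c = _ from actPair_g_apply s c]
    refine Finset.sum_bij (fun i _ => s ^ i) (fun i _ => Finset.mem_univ _) ?_ ?_ fun i _ => rfl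
    · intro i hi j hj h
      exact pow_injOn_Iio_orderOf (by simpa using hi) (by simpa using hj) h
    · intro g _
      obtain ⟨i, hi, rfl⟩ : ∃ i, i < orderOf s ∧ s ^ i = g := by
        have := mem_powers_iff_mem_zpowers.2 (hs g)
        obtain ⟨k, rfl⟩ := this
        exact ⟨k % orderOf s, Nat.mod_lt _ (orderOf_pos s), pow_mod_orderOf s k⟩
      exact ⟨i, Finset.mem_range.2 hi, rfl⟩
  -- every element of `ker f` is invariant
  have hinv : ∀ c : P.f.ker, ∀ g : G, g • c.1 = c.1 := by
    intro c g
    have h1 : s • c.1 = c.1 := sub_eq_zero.1 c.2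
    exact MulAction.mem_stabilizer_iff.1 ((Subgroup.zpowers_le.2
      (MulAction.mem_stabilizer_iff.2 h1)) (hs g))
  have hconst : ∀ c : P.f.ker, ∀ (g : G) (x : X), c.1.toFun (g • x) = c.1.toFun x := by
    intro c g x
    conv_lhs => rw [← hinv c g]
    simp
  have horb : ∀ x : X, ∃ g : G, g • r (Quotient.mk'' x) = x := fun x => by
    have h := Quotient.eq''.1 (hr (Quotient.mk'' x))
    obtain ⟨g, hg⟩ := h
    exact ⟨g⁻¹, by rw [← hg, inv_smul_smul]⟩
  let m : MulAction.orbitRel.Quotient G X → ℕ := fun o => Nat.card (MulAction.stabilizer G (r o))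
  -- norm of an indicator
  have hNsingle : ∀ o o', (P.g (PermMod.single (r o))).toFun (r o') = if o' = o then (m o : ℤ) else 0 := by
    intro o o'
    rw [hN, PermMod.sum_apply]
    simp only [PermMod.smul_single]
    simp only [PermMod.single]
    split_ifs with h
    · subst h
      rw [Finset.sum_boole]
      congr 1
      rw [show m o' = _ from Nat.card_eq_fintype_card, Fintype.card_subtype]
      exact congrArg Finset.card (Finset.filter_congr fun g _ => by
        rw [MulAction.mem_stabilizer_iff, eq_comm])
    · refine Finset.sum_eq_zero fun g _ => if_neg fun hg => h ?_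
      rw [← hr o', ← hr o, hg]
      exact Quotient.sound' ⟨g, rfl⟩
  let φ : P.f.ker →+ ∀ o, ZMod (m o) :=
    AddMonoidHom.mk' (fun c o => (c.1.toFun (r o) : ZMod (m o)))
      fun c d => funext fun o => by simp
  have hφ : Function.Surjective φ := by
    intro v
    choose z hz using fun o => ZMod.intCast_surjective (v o)
    refine ⟨⟨⟨fun x => z (Quotient.mk'' x)⟩, sub_eq_zero.2 (PermMod.ext' fun x => ?_)⟩,
      funext fun o => ?_⟩
    · show z (Quotient.mk'' (s⁻¹ • x)) = z (Quotient.mk'' x)
      exact congrArg z (Quotient.sound' ⟨s⁻¹, rfl⟩)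
    · show ((z (Quotient.mk'' (r o)) : ℤ) : ZMod (m o)) = v o
      rw [hr, hz]
  have hker : φ.ker = P.g.range.addSubgroupOf P.f.ker := by
    ext c
    rw [AddMonoidHom.mem_ker, AddSubgroup.mem_addSubgroupOf, AddMonoidHom.mem_range]
    constructor
    · intro hc
      have hdvd : ∀ o, (m o : ℤ) ∣ c.1.toFun (r o) := fun o =>
        (ZMod.intCast_zmod_eq_zero_iff_dvd _ _).1 (congrFun hc o)
      choose z hz using hdvd
      refine ⟨∑ o, z o • PermMod.single (r o), PermMod.ext' fun x => ?_⟩
      obtain ⟨g, hg⟩ := horb x
      rw [← hg, hconst c]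
      have hgc : P.g (∑ o, z o • PermMod.single (r o)) ∈ P.f.ker := P.fg _
      rw [hconst ⟨_, hgc⟩]
      show (P.g (∑ o, z o • PermMod.single (r o))).toFun (r _) = _
      rw [map_sum, PermMod.sum_apply]
      simp only [map_zsmul, show ∀ (k : ℤ) (d : PermMod G X) (y : X),
        (k • d).toFun y = k * d.toFun y from fun k d y =>
          (map_zsmul (PermMod.applyHom y) k d).trans (smul_eq_mul _ _), hNsingle, mul_ite, mul_zero,
        Finset.sum_ite_eq, Finset.mem_univ, if_true]
      rw [hz, mul_comm]
    · rintro ⟨d, hd⟩
      funext o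
      show ((c.1.toFun (r o) : ℤ) : ZMod (m o)) = 0
      rw [ZMod.intCast_zmod_eq_zero_iff_dvd, ← hd, hN, PermMod.sum_apply]
      simp only [PermMod.smul_apply]
      rw [show (∑ g : G, d.toFun (g⁻¹ • r o)) = ∑ g : G, d.toFun (g • r o) from
          Equiv.sum_comp (Equiv.inv G) fun g => d.toFun (g • r o),
        ← Finset.sum_fiberwise_of_maps_to (g := fun g : G => g • r o) (t := Finset.univ)
          (fun g _ => Finset.mem_univ _) fun g => d.toFun (g • r o)]
      refine Finset.dvd_sum fun y _ => ?_
      rw [Finset.sum_congr rfl (g := fun _ => d.toFun y) fun g hg => by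
        rw [(Finset.mem_filter.1 hg).2], Finset.sum_const, nsmul_eq_mul]
      refine Dvd.dvd.mul_right ?_ _
      rw [Int.natCast_dvd_natCast]
      by_cases hy : ∃ g : G, g • r o = y
      · obtain ⟨g, rfl⟩ := hy
        refine dvd_of_eq ?_
        rw [show m o = _ from Nat.card_eq_fintype_card, Fintype.card_subtype]
        refine Finset.card_bij (fun a _ => g * a) (fun a ha => ?_) (fun a _ b _ h => by simpa using h)
          fun b hb => ⟨g⁻¹ * b, ?_, by simp⟩
        · simp only [Finset.mem_filter, Finset.mem_univ, true_and,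
            MulAction.mem_stabilizer_iff] at ha ⊢
          rw [mul_smul, ha]
        · simp only [Finset.mem_filter, Finset.mem_univ, true_and,
            MulAction.mem_stabilizer_iff] at hb ⊢
          rw [mul_smul, hb, inv_smul_smul]
      · rw [show (Finset.univ.filter fun g : G => g • r o = y) = ∅ from
          Finset.filter_eq_empty_iff.2 fun g _ h => hy ⟨g, h⟩]
        simp
  have h₀ : Nat.card P.H = ∏ o, m o := by
    rw [Nat.card_congr ((QuotientAddGroup.quotientAddEquivOfEq hker.symm).trans
      (QuotientAddGroup.quotientKerEquivOfSurjective φ hφ)).toEquiv, Nat.card_pi]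
    simp
  have h₁ : Nat.card P.swap.H = 1 := by
    refine @Nat.card_of_subsingleton _ (0 : P.swap.H) ?_
    refine subsingleton_of_forall_eq 0 fun x => ?_
    obtain ⟨c, rfl⟩ := P.swap.cls_surjective x
    rw [cls_eq_zero_iff]
    show ∃ d, P.f d = c.1
    have hgen : ∀ (g : G) (x : X), PermMod.single (g • x) - PermMod.single x ∈ P.f.range := by
      intro g x
      obtain ⟨k, rfl⟩ := mem_powers_iff_mem_zpowers.2 (hs g)
      induction k with
      | zero => simp
      | succ k ih =>
        have h2 : PermMod.single (s • (s ^ k • x)) - PermMod.single (s ^ k • x) ∈ P.f.range :=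
          ⟨PermMod.single (s ^ k • x), by
            rw [show P.f (PermMod.single (s ^ k • x)) = _ from actPair_f_apply s _, PermMod.smul_single]⟩
        have := P.f.range.add_mem h2 ih
        rwa [sub_add_sub_cancel, smul_smul, ← pow_succ'] at this
    let base : X → PermMod G X := fun x => PermMod.single (r (Quotient.mk'' x))
    have hbase : ∀ x, PermMod.single x - base x ∈ P.f.range := fun x => by
      obtain ⟨g, hg⟩ := horb x
      simpa [hg] using hgen g (r (Quotient.mk'' x))
    have hsum : ∑ x, c.1.toFun x • base x = 0 := by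
      ext y
      rw [PermMod.sum_apply]
      simp only [show ∀ (k : ℤ) (d : PermMod G X), (k • d).toFun y = k * d.toFun y from
        fun k d => (map_zsmul (PermMod.applyHom y) k d).trans (smul_eq_mul _ _), PermMod.zero_apply]
      by_cases hy : y = r (Quotient.mk'' y)
      · have hy0 : ∀ g : G, (∑ h : G, h • c.1).toFun (g • y) = 0 := fun g => by
          rw [← hN, show P.g c.1 = 0 from c.2]; rfl
        have hs0 := hy0 1
        rw [PermMod.sum_apply, one_smul] at hs0
        simp only [PermMod.smul_apply] at hs0
        rw [show (∑ g : G, c.1.toFun (g⁻¹ • y)) = ∑ g : G, c.1.toFun (g • y) from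
            Equiv.sum_comp (Equiv.inv G) fun g => c.1.toFun (g • y),
          ← Finset.sum_fiberwise_of_maps_to (g := fun g : G => g • y) (t := Finset.univ)
            (fun g _ => Finset.mem_univ _) fun g => c.1.toFun (g • y)] at hs0
        have hcount : ∀ x, (∑ g ∈ Finset.univ.filter (fun g : G => g • y = x), c.1.toFun (g • y))
            = (Nat.card (MulAction.stabilizer G y) : ℤ) * (c.1.toFun x * (base x).toFun y) := by
          intro x
          rw [Finset.sum_congr rfl (g := fun _ => c.1.toFun x) fun g hg => by
            rw [(Finset.mem_filter.1 hg).2], Finset.sum_const, nsmul_eq_mul]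
          by_cases hx : ∃ g : G, g • y = x
          · obtain ⟨g, rfl⟩ := hx
            have hq : (Quotient.mk'' (g • y) : MulAction.orbitRel.Quotient G X) = Quotient.mk'' y :=
              Quotient.sound' ⟨g, rfl⟩
            simp only [base, PermMod.single, hq, ← hy, if_true, mul_one]
            congr 1
            rw [Nat.card_eq_fintype_card, Fintype.card_subtype, Nat.cast_inj]
            refine Finset.card_bij (fun a _ => g⁻¹ * a) (fun a ha => ?_)
              (fun a _ b _ h => by simpa using h) fun b hb => ⟨g * b, ?_, by simp⟩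
            · simp only [Finset.mem_filter, Finset.mem_univ, true_and,
                MulAction.mem_stabilizer_iff] at ha ⊢
              rw [mul_smul, ha, inv_smul_smul]
            · simp only [Finset.mem_filter, Finset.mem_univ, true_and,
                MulAction.mem_stabilizer_iff] at hb ⊢
              rw [mul_smul, hb]
          · have hne : y ≠ r (Quotient.mk'' x) := by
              intro h
              obtain ⟨g, hg⟩ := horb x
              exact hx ⟨g, by rw [h, hg]⟩
            rw [show (Finset.univ.filter fun g : G => g • y = x) = ∅ from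
              Finset.filter_eq_empty_iff.2 fun g _ h => hx ⟨g, h⟩]
            simp [base, PermMod.single, hne]
        rw [Finset.sum_congr rfl fun x _ => hcount x, ← Finset.mul_sum, mul_eq_zero] at hs0
        exact hs0.resolve_left (by exact_mod_cast (Nat.card_pos (α := MulAction.stabilizer G y)).ne')
      · refine Finset.sum_eq_zero fun x _ => ?_
        have hne : y ≠ r (Quotient.mk'' x) := fun h => hy (by rw [h, hr, ← h])
        simp [base, PermMod.single, hne]
    have : c.1 = ∑ x, c.1.toFun x • (PermMod.single x - base x) := by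
      simp_rw [smul_sub, Finset.sum_sub_distrib, hsum, sub_zero]
      exact PermMod.eq_sum_single c.1
    rw [this]
    exact P.f.range.sum_mem fun x _ => P.f.range.zsmul_mem (hbase x) _
  have hpos : (∏ o, m o) ≠ 0 := Finset.prod_ne_zero_iff.2 fun o _ => Nat.card_pos.ne'
  refine ⟨by rw [h₀]; exact hpos, by rw [h₁]; exact one_ne_zero, ?_⟩
  rw [h₀, h₁, finprod_eq_prod_of_fintype]
  simp [m]

end Perm

end Fermat.Agent.CFT
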