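import Mathlib.RingTheory.DiscreteValuationRing.Basic
import Mathlib.RingTheory.Ideal.Norm.AbsNorm
import Mathlib.RingTheory.AdicCompletion.Basic
import Mathlib.RingTheory.RootsOfUnity.CyclotomicUnits
import Mathlib.RingTheory.RootsOfUnity.Lemmas
import Mathlib.RingTheory.Polynomial.Cyclotomic.Basic
import Mathlib.GroupTheory.Index

/-!
# The index of `p`-th powers in the units of a discrete valuation ring

For a discrete valuation ring `O` with residue field of order `q` containing a primitive `p`-th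
root of unity, `(p) = 𝔪 ^ e`, the `p`-torsion of `(O ⧸ 𝔪 ^ M)ˣ` has exactly `p * q ^ e` elements for
all large `M`; if `O` is adically complete, the index of `p`-th powers in `Oˣ` is `p * q ^ e`.
-/

namespace Fermat.Agent.CFT

open IsLocalRing Finset

variable {O : Type*} [CommRing O] [IsDomain O] [IsDiscreteValuationRing O]
variable {ϖ : O} (hϖ : Irreducible ϖ)

include hϖ in
theorem upi_mem_pow_iff (n : ℕ) (x : O) : x ∈ maximalIdeal O ^ n ↔ ϖ ^ n ∣ x := by
  rw [hϖ.maximalIdeal_eq, Ideal.span_singleton_pow, Ideal.mem_span_singleton]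

theorem upi_card_quot (n : ℕ) :
    Nat.card (O ⧸ maximalIdeal O ^ n) = Nat.card (ResidueField O) ^ n := by
  have h : maximalIdeal O ≠ ⊥ := IsDiscreteValuationRing.not_a_field O
  exact cardQuot_pow_of_prime h

section Roots

variable {p : ℕ} [hp : Fact p.Prime] {ζ : O} (hζ : IsPrimitiveRoot ζ p)

omit [IsDiscreteValuationRing O] in
include hζ in
theorem upi_pow_sub_one_eq_prod (x : O) : x ^ p - 1 = ∏ i ∈ range p, (x - ζ ^ i) := by
  classical
  have h : (Polynomial.X ^ p - 1 : Polynomial O) =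
      ∏ i ∈ range p, (Polynomial.X - Polynomial.C (ζ ^ i)) := by
    rw [Polynomial.X_pow_sub_one_eq_prod hp.out.pos hζ]
    symm
    refine Finset.prod_bij (fun i _ => ζ ^ i) ?_ ?_ ?_ (fun _ _ => rfl)
    · intro i _
      rw [Polynomial.mem_nthRootsFinset hp.out.pos (1 : O)]
      rw [← pow_mul, mul_comm, pow_mul, hζ.pow_eq_one, one_pow]
    · intro a ha b hb hab
      exact hζ.pow_inj (mem_range.1 ha) (mem_range.1 hb) hab
    · intro y hy
      rw [Polynomial.mem_nthRootsFinset hp.out.pos (1 : O)] at hy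
      obtain ⟨i, hi, rfl⟩ := hζ.eq_pow_of_pow_eq_one hy
      exact ⟨i, mem_range.2 hi, rfl⟩
  simpa [Polynomial.eval_prod] using congrArg (Polynomial.eval x) h

include hζ hϖ in
/-- The common valuation `c` of the differences of the `p`-th roots of unity. -/
theorem upi_exists_c : ∃ c : ℕ, ∀ i < p, ∀ j < p, i ≠ j → Associated (ϖ ^ c) (ζ ^ i - ζ ^ j) := by
  have h1 : ζ - 1 ≠ 0 := sub_ne_zero.2 (hζ.ne_one hp.out.one_lt)
  obtain ⟨c, hc⟩ := IsDiscreteValuationRing.associated_pow_irreducible h1 hϖ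
  refine ⟨c, fun i hi j hj hij => hc.symm.trans ?_⟩
  classical
  exact hζ.nthRootsFinset_pairwise_associated_sub_one_sub_of_prime hp.out
    (by rw [Finset.mem_coe, Polynomial.mem_nthRootsFinset hp.out.pos (1 : O), ← pow_mul, mul_comm,
      pow_mul, hζ.pow_eq_one, one_pow])
    (by rw [Finset.mem_coe, Polynomial.mem_nthRootsFinset hp.out.pos (1 : O), ← pow_mul, mul_comm,
      pow_mul, hζ.pow_eq_one, one_pow])
    (fun h => hij (hζ.pow_inj hi hj h))

variable {c : ℕ} (hc : ∀ i < p, ∀ j < p, i ≠ j → Associated (ϖ ^ c) (ζ ^ i - ζ ^ j))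

include hζ hϖ hc in
/-- If `x ^ p` is close to `1`, then `x` is close to a root of unity. -/
theorem upi_close_root {M : ℕ} (hM : p * c < M) {x : O} (hx : ϖ ^ M ∣ x ^ p - 1) :
    ∃ i < p, ϖ ^ (M - (p - 1) * c) ∣ x - ζ ^ i := by
  classical
  rw [upi_pow_sub_one_eq_prod hζ x] at hx
  by_cases hbig : ∃ i < p, ϖ ^ (c + 1) ∣ x - ζ ^ i
  · obtain ⟨i, hi, hd⟩ := hbig
    refine ⟨i, hi, ?_⟩
    have hassoc : ∀ j ∈ (range p).erase i, Associated (ϖ ^ c) (x - ζ ^ j) := by
      intro j hj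
      obtain ⟨hji, hj⟩ := mem_erase.1 hj
      obtain ⟨u, hu⟩ := hc i hi j (mem_range.1 hj) (Ne.symm hji)
      obtain ⟨y, hy⟩ := hd
      have hunit : IsUnit ((u : O) + ϖ * y) := by
        by_contra hnu
        refine mem_nonunits_iff.1 ((IsLocalRing.mem_maximalIdeal (u : O)).1 ?_) u.isUnit
        have h2 : ϖ * y ∈ maximalIdeal O :=
          Ideal.mul_mem_right _ _ ((IsLocalRing.mem_maximalIdeal _).2 hϖ.not_isUnit)
        simpa using Ideal.sub_mem _ ((IsLocalRing.mem_maximalIdeal _).2 hnu) h2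
      refine ⟨hunit.unit, ?_⟩
      rw [IsUnit.unit_spec]
      linear_combination hu - hy
    have hprod : Associated ((x - ζ ^ i) * ∏ j ∈ (range p).erase i, ϖ ^ c)
        ((x - ζ ^ i) * ∏ j ∈ (range p).erase i, (x - ζ ^ j)) :=
      Associated.mul_left _ (Associated.prod _ _ _ hassoc)
    rw [← Finset.mul_prod_erase _ _ (mem_range.2 hi), ← hprod.dvd_iff_dvd_right,
      Finset.prod_const, card_erase_of_mem (mem_range.2 hi), card_range, ← pow_mul] at hx
    have hle : c * (p - 1) ≤ M := by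
      calc c * (p - 1) ≤ c * p := Nat.mul_le_mul_left _ (Nat.sub_le _ _)
        _ = p * c := mul_comm _ _
        _ ≤ M := hM.le
    obtain ⟨k, hk⟩ := Nat.exists_eq_add_of_le hle
    rw [mul_comm (p - 1) c, hk, Nat.add_sub_cancel_left]
    rw [hk, pow_add, mul_comm (x - ζ ^ i)] at hx
    exact (mul_dvd_mul_iff_left (pow_ne_zero _ hϖ.ne_zero)).1 hx
  · push Not at hbig
    exfalso
    have hall : ∀ j ∈ range p, ∃ n ≤ c, Associated (x - ζ ^ j) (ϖ ^ n) := by
      intro j hj
      have hne : x - ζ ^ j ≠ 0 := fun h => hbig j (mem_range.1 hj) (h ▸ dvd_zero _)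
      obtain ⟨n, hn⟩ := IsDiscreteValuationRing.associated_pow_irreducible hne hϖ
      refine ⟨n, ?_, hn⟩
      by_contra hlt
      exact hbig j (mem_range.1 hj) ((pow_dvd_pow ϖ (by omega)).trans hn.symm.dvd)
    choose! n hn hnassoc using hall
    have h2 : ϖ ^ M ∣ ϖ ^ ∑ j ∈ range p, n j := by
      rw [← Finset.prod_pow_eq_pow_sum]
      exact hx.trans (Associated.prod _ _ _ hnassoc).dvd
    rw [pow_dvd_pow_iff hϖ.ne_zero hϖ.not_isUnit] at h2
    have h3 : ∑ j ∈ range p, n j ≤ p * c := by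
      simpa using Finset.sum_le_card_nsmul (range p) n c hn
    omega


omit [IsDiscreteValuationRing O] in
include hζ hc in
/-- `p` is associated to `ϖ ^ ((p - 1) * c)`. -/
theorem upi_associated_natCast : Associated (p : O) (ϖ ^ ((p - 1) * c)) := by
  classical
  obtain ⟨m, hm⟩ : ∃ m, p = m + 1 := ⟨p - 1, by have := hp.out.pos; omega⟩
  have h := hζ
  rw [hm] at h
  have h2 : Associated ((m + 1 : ℕ) : O) (∏ _k ∈ range m, ϖ ^ c) := by
    rw [show ((m + 1 : ℕ) : O) = ∏ k ∈ range m, (1 - ζ ^ (k + 1)) by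
      rw [h.prod_one_sub_pow_eq_order]; push_cast; ring]
    refine Associated.prod _ _ _ fun k hk => ?_
    have := hc 0 hp.out.pos (k + 1) (by have := mem_range.1 hk; omega) (by omega)
    rw [pow_zero] at this
    exact this.symm
  rw [Finset.prod_const, card_range, ← pow_mul] at h2
  rw [mul_comm (p - 1) c, show p - 1 = m by omega]
  rw [hm]
  exact h2

include hζ hϖ hc in
/-- The number of `p`-torsion units modulo a high power of the maximal ideal. -/
theorem upi_card_torsion [Finite (ResidueField O)] {M : ℕ} (hM : p * c < M) :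
    Nat.card {g : (O ⧸ maximalIdeal O ^ M)ˣ // g ^ p = 1} =
      p * Nat.card (ResidueField O) ^ ((p - 1) * c) := by
  classical
  set e := (p - 1) * c with he
  have hsplit : (p - 1) * c + c = p * c := by
    have := hp.out.pos
    obtain ⟨m, rfl⟩ : ∃ m, p = m + 1 := ⟨p - 1, by omega⟩
    simp [Nat.succ_mul]
  have heM : e ≤ M := by omega
  rw [← upi_card_quot (O := O) e]
  let π := Ideal.Quotient.mk (maximalIdeal O ^ M)
  have hπ : ∀ x y : O, π x = π y ↔ ϖ ^ M ∣ x - y := fun x y => by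
    rw [Ideal.Quotient.mk_eq_mk_iff_sub_mem, upi_mem_pow_iff hϖ]
  -- the parametrisation
  let f : Fin p × O → O := fun iy => ζ ^ (iy.1 : ℕ) + ϖ ^ (M - e) * iy.2
  have hroot : ∀ iy, π (f iy) ^ p = 1 := by
    intro iy
    rw [← map_pow, ← map_one π, hπ, upi_pow_sub_one_eq_prod hζ]
    have hi : (iy.1 : ℕ) ∈ range p := mem_range.2 iy.1.isLt
    rw [← Finset.mul_prod_erase _ _ hi]
    have h1 : ϖ ^ (M - e) ∣ f iy - ζ ^ (iy.1 : ℕ) := ⟨iy.2, by simp [f]⟩
    have h2 : ∀ j ∈ (range p).erase (iy.1 : ℕ), ϖ ^ c ∣ f iy - ζ ^ j := by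
      intro j hj
      obtain ⟨hji, hj⟩ := mem_erase.1 hj
      have := (hc (iy.1 : ℕ) iy.1.isLt j (mem_range.1 hj) (Ne.symm hji)).dvd
      have h3 : ϖ ^ c ∣ f iy - ζ ^ (iy.1 : ℕ) := (pow_dvd_pow ϖ (by omega)).trans h1
      simpa using dvd_add h3 this
    have h4 := mul_dvd_mul h1 (Finset.prod_dvd_prod_of_dvd _ _ h2)
    rw [Finset.prod_const, card_erase_of_mem hi, card_range, ← pow_mul, ← pow_add] at h4
    exact (pow_dvd_pow ϖ (by rw [mul_comm c]; omega)).trans h4
  have hunit : ∀ iy, IsUnit (π (f iy)) := fun iy =>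
    IsUnit.of_pow_eq_one (hroot iy) hp.out.ne_zero
  have hinj : ∀ iy iy', π (f iy) = π (f iy') ↔
      iy.1 = iy'.1 ∧ ϖ ^ e ∣ iy.2 - iy'.2 := by
    intro iy iy'
    rw [hπ]
    constructor
    · intro h
      have hii : iy.1 = iy'.1 := by
        by_contra hne
        have h1 : ϖ ^ (c + 1) ∣ ζ ^ (iy.1 : ℕ) - ζ ^ (iy'.1 : ℕ) := by
          have h2 : ϖ ^ (c + 1) ∣ f iy - f iy' := (pow_dvd_pow ϖ (by omega)).trans h
          have h3 : ϖ ^ (c + 1) ∣ ϖ ^ (M - e) * (iy.2 - iy'.2) :=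
            Dvd.dvd.mul_right (pow_dvd_pow ϖ (by omega)) _
          have := dvd_sub h2 h3
          convert this using 1
          simp only [f]; ring
        have := h1.trans (hc _ iy.1.isLt _ iy'.1.isLt (fun h => hne (Fin.ext h))).symm.dvd
        rw [pow_dvd_pow_iff hϖ.ne_zero hϖ.not_isUnit] at this
        omega
      refine ⟨hii, ?_⟩
      have h2 : f iy - f iy' = ϖ ^ (M - e) * (iy.2 - iy'.2) := by simp only [f, hii]; ring
      rw [h2, show ϖ ^ M = ϖ ^ (M - e) * ϖ ^ e by rw [← pow_add]; congr 1; omega] at h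
      exact (mul_dvd_mul_iff_left (pow_ne_zero _ hϖ.ne_zero)).1 h
    · rintro ⟨hii, h⟩
      have h2 : f iy - f iy' = ϖ ^ (M - e) * (iy.2 - iy'.2) := by simp only [f, hii]; ring
      rw [h2, show ϖ ^ M = ϖ ^ (M - e) * ϖ ^ e by rw [← pow_add]; congr 1; omega]
      exact mul_dvd_mul_left _ h
  choose sec hsec using Ideal.Quotient.mk_surjective (I := maximalIdeal O ^ e)
  let g : Fin p × (O ⧸ maximalIdeal O ^ e) → {g : (O ⧸ maximalIdeal O ^ M)ˣ // g ^ p = 1} :=
    fun iy => ⟨(hunit (iy.1, sec iy.2)).unit, Units.ext (by simpa using hroot (iy.1, sec iy.2))⟩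
  have hg : Function.Bijective g := by
    constructor
    · rintro ⟨i, y⟩ ⟨i', y'⟩ h
      have h1 : π (f (i, sec y)) = π (f (i', sec y')) := congrArg Units.val (congrArg Subtype.val h)
      obtain ⟨h2, h3⟩ := (hinj _ _).1 h1
      refine Prod.ext h2 ?_
      show y = y'
      rw [← hsec y, ← hsec y', Ideal.Quotient.mk_eq_mk_iff_sub_mem, upi_mem_pow_iff hϖ]
      exact h3
    · rintro ⟨u, hu⟩
      obtain ⟨x, hx⟩ := Ideal.Quotient.mk_surjective (u : O ⧸ maximalIdeal O ^ M)
      have hx' : ϖ ^ M ∣ x ^ p - 1 := by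
        rw [← hπ, map_pow, map_one]
        simp only [π, hx]
        rw [← Units.val_pow_eq_pow_val, hu, Units.val_one]
      obtain ⟨i, hi, y, hy⟩ := upi_close_root hϖ hζ hc hM hx'
      refine ⟨(⟨i, hi⟩, Ideal.Quotient.mk _ y), Subtype.ext (Units.ext ?_)⟩
      show π (f _) = _
      rw [← hx]
      have hfx : f (⟨i, hi⟩, y) = x := by
        simp only [f]
        rw [he, ← hy]; ring
      rw [← hfx]
      show π _ = π _
      rw [hinj]
      exact ⟨rfl, by rw [← upi_mem_pow_iff hϖ, ← Ideal.Quotient.mk_eq_mk_iff_sub_mem, hsec]⟩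
  rw [← Nat.card_eq_of_bijective g hg, Nat.card_prod, Nat.card_fin]

end Roots

section Index

variable {p : ℕ} [hp : Fact p.Prime] {ζ : O} (hζ : IsPrimitiveRoot ζ p)
variable {c : ℕ} (hc : ∀ i < p, ∀ j < p, i ≠ j → Associated (ϖ ^ c) (ζ ^ i - ζ ^ j))

omit [IsDomain O] [IsDiscreteValuationRing O] hp in
/-- In a finite commutative group the index of the `n`-th powers is the order of the `n`-torsion. -/
theorem upi_index_pow_eq {G : Type*} [CommGroup G] [Finite G] (n : ℕ) :
    (powMonoidHom n : G →* G).range.index = Nat.card {g : G // g ^ n = 1} := by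
  have h1 := Subgroup.index_range (f := (powMonoidHom n : G →* G))
  rw [h1]
  exact Nat.card_congr (Equiv.subtypeEquivRight fun g => by simp [MonoidHom.mem_ker])

omit [IsDomain O] [IsDiscreteValuationRing O] hp in
theorem upi_reduce_surjective {M : ℕ} [IsLocalRing O] (hM : M ≠ 0) :
    Function.Surjective (Units.map
      (Ideal.Quotient.mk (maximalIdeal O ^ M)).toMonoidHom) := by
  intro u
  obtain ⟨x, hx⟩ := Ideal.Quotient.mk_surjective (u : O ⧸ maximalIdeal O ^ M)
  refine ⟨IsUnit.unit (a := x) ?_, Units.ext hx⟩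
  by_contra h
  obtain ⟨w, hw⟩ := Ideal.Quotient.mk_surjective ((u⁻¹ : _ˣ) : O ⧸ maximalIdeal O ^ M)
  have h1 : x * w - 1 ∈ maximalIdeal O ^ M := by
    rw [← Ideal.Quotient.mk_eq_mk_iff_sub_mem, map_mul, map_one, hx, hw, Units.mul_inv]
  have h2 := Ideal.pow_le_self hM h1
  have h3 : x * w ∈ maximalIdeal O :=
    Ideal.mul_mem_right _ _ ((IsLocalRing.mem_maximalIdeal x).2 h)
  have h4 := Ideal.sub_mem _ h3 h2
  rw [sub_sub_cancel] at h4
  exact (IsLocalRing.maximalIdeal.isMaximal O).ne_top ((Ideal.eq_top_iff_one _).2 h4)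

omit hp in
theorem upi_finite_quot [Finite (ResidueField O)] (n : ℕ) : Finite (O ⧸ maximalIdeal O ^ n) := by
  apply Nat.finite_of_card_ne_zero
  rw [upi_card_quot]
  exact pow_ne_zero _ Nat.card_pos.ne'

include hζ hϖ hc in
/-- A unit which is a `p`-th power modulo a high power of `𝔪` is one modulo every power. -/
theorem upi_lift_root [Finite (ResidueField O)] {M : ℕ} (hM : p * c < M) {x : Oˣ}
    (h : ∃ y : Oˣ, ϖ ^ M ∣ (x : O) - (y : O) ^ p) (j : ℕ) :
    ∃ y : Oˣ, ϖ ^ (M + j) ∣ (x : O) - (y : O) ^ p := by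
  induction j with
  | zero => simpa using h
  | succ j ih =>
    obtain ⟨y, hy⟩ := ih
    set N := M + j
    have := upi_finite_quot (O := O) N
    have := upi_finite_quot (O := O) (N + 1)
    let r : (O ⧸ maximalIdeal O ^ (N + 1))ˣ →* (O ⧸ maximalIdeal O ^ N)ˣ :=
      Units.map (Ideal.Quotient.factor (Ideal.pow_le_pow_right N.le_succ)).toMonoidHom
    let πN : Oˣ →* (O ⧸ maximalIdeal O ^ N)ˣ :=
      Units.map (Ideal.Quotient.mk _).toMonoidHom
    let πN1 : Oˣ →* (O ⧸ maximalIdeal O ^ (N + 1))ˣ :=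
      Units.map (Ideal.Quotient.mk _).toMonoidHom
    have hr : ∀ a, r (πN1 a) = πN a := fun a => Units.ext (by simp [r, πN, πN1])
    have hrsurj : Function.Surjective r := by
      intro b
      obtain ⟨a, rfl⟩ := upi_reduce_surjective (O := O) (M := N) (by omega) b
      exact ⟨πN1 a, hr a⟩
    let A : Subgroup (O ⧸ maximalIdeal O ^ (N + 1))ˣ := (powMonoidHom p).range
    let B : Subgroup (O ⧸ maximalIdeal O ^ (N + 1))ˣ :=
      ((powMonoidHom p : (O ⧸ maximalIdeal O ^ N)ˣ →* _).range).comap r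
    have hAB : A ≤ B := by
      rintro _ ⟨a, rfl⟩
      exact ⟨r a, by simp⟩
    have hB : B.index = A.index := by
      rw [Subgroup.index_comap_of_surjective _ hrsurj, upi_index_pow_eq, upi_index_pow_eq,
        upi_card_torsion hϖ hζ hc (by omega), upi_card_torsion hϖ hζ hc (by omega)]
    have hmem : πN1 x ∈ B := by
      refine ⟨πN y, Units.ext ?_⟩
      rw [hr]
      simp only [powMonoidHom_apply, Units.val_pow_eq_pow_val, πN, Units.coe_map]
      show Ideal.Quotient.mk _ (y : O) ^ p = Ideal.Quotient.mk _ (x : O)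
      rw [← map_pow, Eq.comm, Ideal.Quotient.mk_eq_mk_iff_sub_mem, upi_mem_pow_iff hϖ]
      exact hy
    have hmul := Subgroup.relIndex_mul_index hAB
    rw [hB] at hmul
    have hne : A.index ≠ 0 := Subgroup.index_ne_zero_of_finite
    have hBA : B ≤ A := Subgroup.relIndex_eq_one.1 (by simpa [hne] using hmul)
    obtain ⟨a, ha⟩ := hBA hmem
    obtain ⟨y', rfl⟩ := upi_reduce_surjective (O := O) (M := N + 1) (by omega) a
    refine ⟨y', ?_⟩
    rw [show M + (j + 1) = N + 1 from rfl, ← upi_mem_pow_iff hϖ,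
      ← Ideal.Quotient.mk_eq_mk_iff_sub_mem, map_pow]
    exact (congrArg Units.val ha).symm

include hζ hϖ hc in
/-- In a complete DVR, units close enough to `1` are `p`-th powers. -/
theorem upi_exists_root [IsAdicComplete (maximalIdeal O) O] [Finite (ResidueField O)]
    {M : ℕ} (hM : p * c < M) {x : Oˣ} (hx : ϖ ^ M ∣ (x : O) - 1) :
    ∃ y : Oˣ, y ^ p = x := by
  set e := (p - 1) * c with he
  have hsplit : (p - 1) * c + c = p * c := by
    have := hp.out.pos
    obtain ⟨m, rfl⟩ : ∃ m, p = m + 1 := ⟨p - 1, by omega⟩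
    simp [Nat.succ_mul]
  have key : ∀ j, ∃ y : O, ϖ ^ (c + 1) ∣ y - 1 ∧ ϖ ^ (M + j) ∣ (x : O) - y ^ p := by
    intro j
    obtain ⟨y, hy⟩ := upi_lift_root hϖ hζ hc hM (x := x) ⟨1, by simpa using hx⟩ j
    have h1 : ϖ ^ M ∣ (y : O) ^ p - 1 := by
      have := dvd_sub hx ((pow_dvd_pow ϖ (Nat.le_add_right M j)).trans hy)
      convert this using 1; ring
    obtain ⟨i, hi, hd⟩ := upi_close_root hϖ hζ hc hM h1
    refine ⟨(y : O) * ζ ^ (p - i), ?_, ?_⟩
    · have h2 : ϖ ^ (c + 1) ∣ ((y : O) - ζ ^ i) * ζ ^ (p - i) :=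
        Dvd.dvd.mul_right ((pow_dvd_pow ϖ (by omega)).trans hd) _
      rw [sub_mul, ← pow_add, Nat.add_sub_cancel' hi.le, hζ.pow_eq_one] at h2
      exact h2
    · rwa [mul_pow, ← pow_mul, mul_comm (p - i), pow_mul, hζ.pow_eq_one, one_pow, mul_one]
  choose s hs1 hs using key
  have huniq : ∀ (j k : ℕ), j ≤ k → ϖ ^ (M + j - e) ∣ s j - s k := by
    intro j k hjk
    have hk : IsUnit (s k) := by
      by_contra h
      have h1 : s k - 1 ∈ maximalIdeal O := by
        refine Ideal.pow_le_self (n := c + 1) (by omega) ?_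
        rw [upi_mem_pow_iff hϖ]; exact hs1 k
      have h4 := Ideal.sub_mem _ ((IsLocalRing.mem_maximalIdeal (s k)).2 h) h1
      rw [sub_sub_cancel] at h4
      exact (IsLocalRing.maximalIdeal.isMaximal O).ne_top ((Ideal.eq_top_iff_one _).2 h4)
    obtain ⟨w, hw⟩ := hk
    set z := s j * (w⁻¹ : Oˣ) with hz
    have hzs : z * s k = s j := by rw [hz, mul_assoc, ← hw, Units.inv_mul, mul_one]
    have h1 : ϖ ^ (M + j) ∣ z ^ p - 1 := by
      have h2 := dvd_sub ((pow_dvd_pow ϖ (by omega : M + j ≤ M + k)).trans (hs k)) (hs j)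
      have h3 : ((x : O) - s k ^ p) - ((x : O) - s j ^ p) = (z ^ p - 1) * s k ^ p := by
        rw [← hzs]; ring
      rw [h3] at h2
      exact (IsUnit.dvd_mul_right (hw ▸ (w.isUnit).pow p)).1 h2
    obtain ⟨i, hi, hd⟩ := upi_close_root hϖ hζ hc (by omega : p * c < M + j) h1
    have hz1 : ϖ ^ (c + 1) ∣ z - 1 := by
      have h2 := dvd_sub (hs1 j) (hs1 k)
      have h3 : (s j - 1) - (s k - 1) = (z - 1) * s k := by rw [← hzs]; ring
      rw [h3] at h2
      exact (IsUnit.dvd_mul_right (hw ▸ w.isUnit)).1 h2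
    have hi0 : i = 0 := by
      by_contra hne
      have h2 : ϖ ^ (c + 1) ∣ ζ ^ i - ζ ^ 0 := by
        have := dvd_sub hz1 ((pow_dvd_pow ϖ (by omega : c + 1 ≤ M + j - (p - 1) * c)).trans hd)
        convert this using 1; ring
      have h4 := h2.trans (hc i hi 0 hp.out.pos hne).symm.dvd
      rw [pow_dvd_pow_iff hϖ.ne_zero hϖ.not_isUnit] at h4
      omega
    rw [hi0, pow_zero] at hd
    have : s j - s k = (z - 1) * s k := by rw [← hzs]; ring
    rw [this]
    exact Dvd.dvd.mul_right hd _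
  obtain ⟨L, hL⟩ := IsPrecomplete.prec' (I := maximalIdeal O) (M := O) (fun j => s j)
    (fun {j k} hjk => by
      rw [SModEq.sub_mem, smul_eq_mul, Ideal.mul_top, upi_mem_pow_iff hϖ]
      exact (pow_dvd_pow ϖ (by omega)).trans (huniq j k hjk))
  have hLp : L ^ p = (x : O) := by
    rw [← sub_eq_zero]
    refine IsHausdorff.haus (I := maximalIdeal O) inferInstance _ fun j => ?_
    rw [SModEq.sub_mem, sub_zero, smul_eq_mul, Ideal.mul_top, upi_mem_pow_iff hϖ]
    have h1 := hL j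
    rw [SModEq.sub_mem, smul_eq_mul, Ideal.mul_top, upi_mem_pow_iff hϖ] at h1
    have h2 : ϖ ^ j ∣ s j ^ p - L ^ p := h1.trans (sub_dvd_pow_sub_pow _ _ _)
    have h3 : ϖ ^ j ∣ (x : O) - s j ^ p := (pow_dvd_pow ϖ (by omega)).trans (hs j)
    have := dvd_add h2 h3
    have h5 := this.neg_right
    convert h5 using 1; ring
  refine ⟨IsUnit.unit (a := L) (isUnit_pow_iff hp.out.ne_zero |>.1 (hLp ▸ x.isUnit)),
    Units.ext ?_⟩
  simpa using hLp

include hζ hϖ hc in
/-- The index of the `p`-th powers in the units of a complete DVR. -/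
theorem upi_index_units [IsAdicComplete (maximalIdeal O) O] [Finite (ResidueField O)] :
    (powMonoidHom p : Oˣ →* Oˣ).range.index =
      p * Nat.card (ResidueField O) ^ ((p - 1) * c) := by
  set M := p * c + 1
  have := upi_finite_quot (O := O) M
  let π : Oˣ →* (O ⧸ maximalIdeal O ^ M)ˣ := Units.map (Ideal.Quotient.mk _).toMonoidHom
  have hsurj : Function.Surjective π := upi_reduce_surjective (O := O) (by omega)
  have h : (powMonoidHom p : Oˣ →* Oˣ).range =
      ((powMonoidHom p : (O ⧸ maximalIdeal O ^ M)ˣ →* _).range).comap π := by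
    apply le_antisymm
    · rintro _ ⟨a, rfl⟩
      exact ⟨π a, by simp⟩
    · rintro a ⟨b, hb⟩
      obtain ⟨b, rfl⟩ := hsurj b
      rw [powMonoidHom_apply, ← map_pow] at hb
      have h1 : ϖ ^ M ∣ ((a * (b ^ p)⁻¹ : Oˣ) : O) - 1 := by
        rw [← upi_mem_pow_iff hϖ, ← Ideal.Quotient.mk_eq_mk_iff_sub_mem, map_one]
        have : π (a * (b ^ p)⁻¹) = 1 := by rw [map_mul, map_inv, hb, mul_inv_cancel]
        exact congrArg Units.val this
      obtain ⟨y, hy⟩ := upi_exists_root hϖ hζ hc (by omega : p * c < M) h1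
      exact ⟨y * b, by rw [powMonoidHom_apply, mul_pow, hy, inv_mul_cancel_right]⟩
  rw [h, Subgroup.index_comap_of_surjective _ hsurj, upi_index_pow_eq,
    upi_card_torsion hϖ hζ hc (by omega)]

end Index

end Fermat.Agent.CFT
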