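import Fermat.Agent.CFT.CharEquiv
set_option autoImplicit false
set_option linter.style.haveILetI false

/-!
Additive functions on finite-dimensional `𝔽_p[G]`-modules see only the character of a
`ℤ[G]`-lattice through its reduction.
-/

noncomputable section

open CategoryTheory Module TensorProduct

namespace Fermat.Agent.CFT

variable {p : ℕ} [Fact p.Prime] {G : Type} [Group G]

/-- Additivity on short exact sequences of finite-dimensional representations. -/
def IsAdditiveOnRep {k : Type} [Field k] {G : Type} [Group G] (f : Rep.{0} k G → ℤ) : Prop :=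
  ∀ ⦃A B C : Rep.{0} k G⦄ (φ : A ⟶ B) (ψ : B ⟶ C), FiniteDimensional k B →
    Function.Injective φ.hom → Function.Surjective ψ.hom →
    Function.Exact φ.hom ψ.hom → f B = f A + f C

section Additive

variable {k : Type} [Field k] {f : Rep.{0} k G → ℤ}

/-- The subrepresentation cut out by an invariant submodule. -/
abbrev subRepOf (B : Rep.{0} k G) (U : Submodule k B) (h : ∀ g, ∀ x ∈ U, B.ρ g x ∈ U) : Rep.{0} k G :=
  Rep.of (Subrepresentation.toRepresentation (ρ := B.ρ) ⟨U, fun g _ hv => h g _ hv⟩)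

theorem hom_ker_invariant {A B : Rep.{0} k G} (φ : A ⟶ B) :
    ∀ g, ∀ x ∈ LinearMap.ker φ.hom.toLinearMap, A.ρ g x ∈ LinearMap.ker φ.hom.toLinearMap := by
  intro g x hx
  have hx' : φ.hom x = 0 := hx
  show φ.hom (A.ρ g x) = 0
  rw [Rep.hom_comm_apply, hx', map_zero]

theorem hom_range_invariant {A B : Rep.{0} k G} (φ : A ⟶ B) :
    ∀ g, ∀ x ∈ LinearMap.range φ.hom.toLinearMap, B.ρ g x ∈ LinearMap.range φ.hom.toLinearMap := by
  rintro g _ ⟨a, rfl⟩
  exact ⟨A.ρ g a, Rep.hom_comm_apply φ g a⟩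

def subRepIncl (B : Rep.{0} k G) (U : Submodule k B) (h : ∀ g, ∀ x ∈ U, B.ρ g x ∈ U) :
    subRepOf B U h ⟶ B :=
  Rep.ofHom (σ := B.ρ) ⟨U.subtype, fun _ => rfl⟩

theorem additive_ker_add_range (hf : IsAdditiveOnRep f) {A B : Rep.{0} k G} [FiniteDimensional k A]
    (φ : A ⟶ B) :
    f A = f (subRepOf A _ (hom_ker_invariant φ)) + f (subRepOf B _ (hom_range_invariant φ)) := by
  let ψ : A ⟶ subRepOf B _ (hom_range_invariant φ) :=
    Rep.ofHom (ρ := A.ρ) ⟨φ.hom.toLinearMap.rangeRestrict,
      fun g => LinearMap.ext fun a => Subtype.ext (Rep.hom_comm_apply φ g a)⟩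
  refine hf (subRepIncl A _ (hom_ker_invariant φ)) ψ inferInstance Subtype.val_injective
    φ.hom.toLinearMap.surjective_rangeRestrict fun x => ?_
  show φ.hom.toLinearMap.rangeRestrict x = 0 ↔ x ∈ Set.range Subtype.val
  rw [Subtype.range_coe_subtype]
  exact ⟨fun h => congrArg Subtype.val h, fun h => Subtype.ext h⟩

theorem additive_subsingleton (hf : IsAdditiveOnRep f) (Z : Rep.{0} k G) [Subsingleton Z] : f Z = 0 := by
  haveI : FiniteDimensional k Z := inferInstance
  have := hf (𝟙 Z) (𝟙 Z) inferInstance (fun _ _ _ => Subsingleton.elim _ _)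
    (fun z => ⟨z, Subsingleton.elim _ _⟩)
    (fun x => iff_of_true (Subsingleton.elim _ _) ⟨x, Subsingleton.elim _ _⟩)
  omega

theorem additive_eq_of_equiv (hf : IsAdditiveOnRep f) {A B : Rep.{0} k G} [FiniteDimensional k A]
    (e : A ≃ₗ[k] B) (he : ∀ g a, e (A.ρ g a) = B.ρ g (e a)) : f A = f B := by
  haveI := LinearEquiv.finiteDimensional e
  let φ : A ⟶ B := Rep.ofHom (ρ := A.ρ) (σ := B.ρ) ⟨e.toLinearMap, fun g => LinearMap.ext (he g)⟩
  have hbot : ∀ g, ∀ x ∈ (⊥ : Submodule k A), A.ρ g x ∈ (⊥ : Submodule k A) := fun g x hx => by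
    rw [Submodule.mem_bot] at hx ⊢; rw [hx, map_zero]
  let Z : Rep.{0} k G := subRepOf A ⊥ hbot
  haveI : Subsingleton Z := inferInstanceAs (Subsingleton (⊥ : Submodule k A))
  have := hf (subRepIncl A ⊥ hbot) φ inferInstance Subtype.val_injective e.surjective fun x => by
    show e x = 0 ↔ x ∈ Set.range Subtype.val
    rw [Subtype.range_coe_subtype, LinearEquiv.map_eq_zero_iff]; rfl
  rw [this, additive_subsingleton hf Z, zero_add]

/-- In an exact two-periodic complex the two terms have the same class. -/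
theorem additive_eq_of_periodic (hf : IsAdditiveOnRep f) {A B : Rep.{0} k G} [FiniteDimensional k A]
    [FiniteDimensional k B] (φ : A ⟶ B) (ψ : B ⟶ A)
    (h₁ : Function.Exact φ.hom ψ.hom) (h₂ : Function.Exact ψ.hom φ.hom) : f A = f B := by
  rw [additive_ker_add_range hf φ, additive_ker_add_range hf ψ]
  have e₁ : LinearMap.ker φ.hom.toLinearMap = LinearMap.range ψ.hom.toLinearMap :=
    Submodule.ext fun x => h₂ x
  have e₂ : LinearMap.ker ψ.hom.toLinearMap = LinearMap.range φ.hom.toLinearMap :=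
    Submodule.ext fun x => h₁ x
  rw [additive_eq_of_equiv hf (A := subRepOf A _ (hom_ker_invariant φ))
      (B := subRepOf A _ (hom_range_invariant ψ)) (LinearEquiv.ofEq _ _ e₁) (fun _ _ => rfl),
    additive_eq_of_equiv hf (A := subRepOf B _ (hom_ker_invariant ψ))
      (B := subRepOf B _ (hom_range_invariant φ)) (LinearEquiv.ofEq _ _ e₂) (fun _ _ => rfl)]
  exact add_comm _ _

end Additive

/-! ### Lattices -/

variable (p) in
/-- Reduction mod `p` of an integral representation. -/
abbrev redLattice {L : Type} [AddCommGroup L] (ρ : Representation ℤ G L) : Rep.{0} (ZMod p) G :=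
  Rep.of (X := ZMod p ⊗[ℤ] L)
    { toFun := fun g => (ρ g).baseChange (ZMod p)
      map_one' := by rw [map_one]; exact LinearMap.baseChange_id
      map_mul' := fun g h => by rw [map_mul]; exact LinearMap.baseChange_comp _ _ }

variable {L L' : Type} [AddCommGroup L] [AddCommGroup L']
  [Module.Free ℤ L] [Module.Finite ℤ L] [Module.Free ℤ L'] [Module.Finite ℤ L']
  {ρ : Representation ℤ G L} {ρ' : Representation ℤ G L'}

instance finiteDimensional_redLattice : FiniteDimensional (ZMod p) (redLattice p ρ) :=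
  inferInstanceAs (Module.Finite (ZMod p) (ZMod p ⊗[ℤ] L))

variable (p) in
def redLatticeMap (ι : L →ₗ[ℤ] L') (hι : ∀ g x, ι (ρ g x) = ρ' g (ι x)) :
    redLattice p ρ ⟶ redLattice p ρ' :=
  Rep.ofHom ⟨ι.baseChange (ZMod p), fun g => by
    show ι.baseChange (ZMod p) ∘ₗ (ρ g).baseChange (ZMod p)
      = (ρ' g).baseChange (ZMod p) ∘ₗ ι.baseChange (ZMod p)
    rw [← LinearMap.baseChange_comp, ← LinearMap.baseChange_comp]
    exact congrArg _ (LinearMap.ext (hι g))⟩

omit [Module.Free ℤ L] [Module.Finite ℤ L] in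
theorem one_tmul_surjective_zmod :
    Function.Surjective fun x : L => (1 : ZMod p) ⊗ₜ[ℤ] x := by
  intro t
  induction t using TensorProduct.induction_on with
  | zero => exact ⟨0, TensorProduct.tmul_zero _ _⟩
  | tmul a x =>
    refine ⟨(a.val : ℤ) • x, ?_⟩
    show (1 : ZMod p) ⊗ₜ[ℤ] ((a.val : ℤ) • x) = a ⊗ₜ[ℤ] x
    rw [TensorProduct.tmul_smul, TensorProduct.smul_tmul', zsmul_one]
    simp
  | add s t hs ht =>
    obtain ⟨x, rfl⟩ := hs
    obtain ⟨y, rfl⟩ := ht
    exact ⟨x + y, TensorProduct.tmul_add _ _ _⟩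

theorem one_tmul_eq_zero_zmod {x : L} (h : (1 : ZMod p) ⊗ₜ[ℤ] x = 0) : ∃ y : L, x = (p : ℤ) • y := by
  let b := Module.Free.chooseBasis ℤ L
  have hd : ∀ i, ∃ c, b.repr x i = (p : ℤ) * c := fun i => by
    have := congrArg (fun t => (Algebra.TensorProduct.basis (ZMod p) b).repr t i) h
    simp only [Algebra.TensorProduct.basis_repr_tmul, map_zero, Finsupp.coe_zero, Pi.zero_apply] at this
    exact (ZMod.intCast_zmod_eq_zero_iff_dvd _ _).1 (by simpa using this)
  choose c hc using hd
  refine ⟨∑ i, c i • b i, ?_⟩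
  conv_lhs => rw [← b.sum_repr x]
  rw [Finset.smul_sum]
  exact Finset.sum_congr rfl fun i _ => by rw [hc, mul_smul]

theorem redLatticeMap_exact (ι : L →ₗ[ℤ] L') (hι : ∀ g x, ι (ρ g x) = ρ' g (ι x))
    (m : L' →ₗ[ℤ] L) (hm : ∀ g x, m (ρ' g x) = ρ g (m x))
    (hmi : Function.Injective m) (h₁ : ∀ x, m (ι x) = (p : ℤ) • x)
    :
    Function.Exact (redLatticeMap p ι hι).hom (redLatticeMap p m hm).hom := by
  intro t
  constructor
  · intro h
    obtain ⟨y, rfl⟩ := one_tmul_surjective_zmod (p := p) t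
    obtain ⟨z, hz⟩ := one_tmul_eq_zero_zmod (p := p) (x := m y) h
    have : y = ι z := hmi (by rw [hz, h₁])
    exact ⟨(1 : ZMod p) ⊗ₜ[ℤ] z, this ▸ rfl⟩
  · rintro ⟨s, rfl⟩
    obtain ⟨x, rfl⟩ := one_tmul_surjective_zmod (p := p) s
    show (1 : ZMod p) ⊗ₜ[ℤ] m (ι x) = 0
    rw [h₁, TensorProduct.tmul_smul, TensorProduct.smul_tmul', zsmul_one]
    simp

theorem additive_red_eq_of_isogeny {f : Rep.{0} (ZMod p) G → ℤ} (hf : IsAdditiveOnRep f) :
    ∀ (n : ℕ), 0 < n → ∀ {L L' : Type} [AddCommGroup L] [AddCommGroup L']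
      [Module.Free ℤ L] [Module.Finite ℤ L] [Module.Free ℤ L'] [Module.Finite ℤ L']
      (ρ : Representation ℤ G L) (ρ' : Representation ℤ G L')
      (ι : L →ₗ[ℤ] L') (m : L' →ₗ[ℤ] L),
      (∀ g x, ι (ρ g x) = ρ' g (ι x)) → (∀ g x, m (ρ' g x) = ρ g (m x)) →
      (∀ x, m (ι x) = (n : ℤ) • x) → (∀ y, ι (m y) = (n : ℤ) • y) →
      f (redLattice p ρ) = f (redLattice p ρ') := by
  intro n
  induction n using Nat.strong_induction_on with
  | _ n ih =>
    intro hn L L' _ _ _ _ _ _ ρ ρ' ι m hι hm h₁ h₂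
    by_cases hpn : p ∣ n
    · obtain ⟨n', hn'⟩ := hpn
      have hp1 : 1 < p := (Fact.out : p.Prime).one_lt
      have hn'0 : 0 < n' := by rcases Nat.eq_zero_or_pos n' with h | h <;> simp_all
      have hn'0' : (n' : ℤ) ≠ 0 := by exact_mod_cast hn'0.ne'
      have hp0 : (p : ℤ) ≠ 0 := by exact_mod_cast (by omega : p ≠ 0)
      have hmi : Function.Injective m := fun a b hab => by
        have := congrArg ι hab
        rw [h₂, h₂] at this
        exact smul_right_injective L' (by exact_mod_cast hn.ne' : (n : ℤ) ≠ 0) this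
      let K : Submodule ℤ L' :=
        Submodule.comap ((n' : ℤ) • LinearMap.id) (LinearMap.range ι)
      have hK : ∀ y, y ∈ K ↔ (n' : ℤ) • y ∈ LinearMap.range ι := fun y => Iff.rfl
      have hKG : ∀ g, ∀ y ∈ K, ρ' g y ∈ K := fun g y hy => by
        obtain ⟨x, hx⟩ := (hK y).1 hy
        exact (hK _).2 ⟨ρ g x, by rw [hι, hx, map_smul]⟩
      let ρK : Representation ℤ G K :=
        Subrepresentation.toRepresentation (ρ := ρ') ⟨K, fun g _ h => hKG g _ h⟩
      haveI : Module.Finite ℤ K := inferInstance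
      haveI : Module.Free ℤ K := inferInstance
      have hιi : Function.Injective ι := fun a b hab => by
        have := congrArg m hab
        rw [h₁, h₁] at this
        exact smul_right_injective L (by exact_mod_cast hn.ne' : (n : ℤ) ≠ 0) this
      have hιK : ∀ x, ι x ∈ K := fun x => (hK _).2 ⟨(n' : ℤ) • x, map_smul ι _ x⟩
      have hpK : ∀ y, (p : ℤ) • y ∈ K := fun y =>
        (hK _).2 ⟨m y, by rw [h₂, hn', smul_smul]; push_cast; rw [mul_comm]⟩
      let ι₁ : L →ₗ[ℤ] K := ι.codRestrict K hιK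
      let e := LinearEquiv.ofInjective ι hιi
      let m₁ : K →ₗ[ℤ] L :=
        e.symm.toLinearMap ∘ₗ
          (((n' : ℤ) • K.subtype).codRestrict (LinearMap.range ι) fun y => (hK _).1 y.2)
      have hm₁ : ∀ y : K, ι (m₁ y) = (n' : ℤ) • (y : L') := fun y => by
        have := e.apply_symm_apply
          ((((n' : ℤ) • K.subtype).codRestrict (LinearMap.range ι) fun y => (hK _).1 y.2) y)
        exact congrArg Subtype.val this
      have a : f (redLattice p ρ) = f (redLattice p ρK) := by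
        refine ih n' ?_ hn'0 ρ ρK ι₁ m₁ (fun g x => Subtype.ext (hι g x)) ?_ ?_ ?_
        · rw [hn']; exact lt_mul_left hn'0 hp1
        · intro g y
          apply hιi
          rw [hι, hm₁, hm₁, map_smul]
          rfl
        · intro x
          apply hιi
          rw [hm₁, map_smul]
          rfl
        · exact fun y => Subtype.ext (hm₁ y)
      have b : f (redLattice p ρK) = f (redLattice p ρ') := by
        let j : K →ₗ[ℤ] L' := K.subtype
        let q : L' →ₗ[ℤ] K := ((p : ℤ) • LinearMap.id).codRestrict K hpK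
        have hj : ∀ g x, j (ρK g x) = ρ' g (j x) := fun g x => rfl
        have hq : ∀ g x, q (ρ' g x) = ρK g (q x) := fun g x =>
          Subtype.ext (map_smul (ρ' g) (p : ℤ) x).symm
        have hqj : ∀ x, q (j x) = (p : ℤ) • x := fun x => Subtype.ext rfl
        have hjq : ∀ y, j (q y) = (p : ℤ) • y := fun y => rfl
        refine additive_eq_of_periodic hf (redLatticeMap p j hj) (redLatticeMap p q hq)
          (redLatticeMap_exact j hj q hq ?_ hqj)
          (redLatticeMap_exact q hq j hj Subtype.val_injective hjq)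
        intro y y' h
        exact smul_right_injective L' hp0 (congrArg Subtype.val h)
      exact a.trans b
    · have hu : IsUnit ((n : ℤ) : ZMod p) :=
        isUnit_iff_ne_zero.2 (by rw [Int.cast_natCast, Ne, ZMod.natCast_eq_zero_iff]; exact hpn)
      have key : ∀ {A B : Type} [AddCommGroup A] [AddCommGroup B] (u : A →ₗ[ℤ] B) (v : B →ₗ[ℤ] A),
          (∀ x, v (u x) = (n : ℤ) • x) →
          ∀ t : ZMod p ⊗[ℤ] A, v.baseChange (ZMod p) (u.baseChange (ZMod p) t)
            = ((n : ℤ) : ZMod p) • t := by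
        intro A B _ _ u v h t
        induction t using TensorProduct.induction_on with
        | zero => simp
        | tmul a x =>
          rw [LinearMap.baseChange_tmul, LinearMap.baseChange_tmul, h, TensorProduct.tmul_smul,
            ← Int.cast_smul_eq_zsmul (ZMod p)]
        | add s t hs ht => simp [hs, ht]
      refine additive_eq_of_equiv hf (A := redLattice p ρ) (B := redLattice p ρ')
        (LinearEquiv.ofBijective (ι.baseChange (ZMod p)) ⟨fun s t hst => ?_, fun t => ?_⟩)
        (fun g t => Rep.hom_comm_apply (redLatticeMap p ι hι) g t)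
      · have := congrArg (m.baseChange (ZMod p)) hst
        rw [key ι m h₁, key ι m h₁] at this
        exact hu.smul_left_cancel.1 this
      · obtain ⟨u, hu⟩ := hu
        refine ⟨(↑u⁻¹ : ZMod p) • m.baseChange (ZMod p) t, ?_⟩
        rw [map_smul, key m ι h₂, ← hu, smul_smul, Units.inv_mul, one_smul]

/-- Lattices with the same character have reductions of the same class. -/
theorem additive_red_eq_of_trace_eq [Fintype G] {f : Rep.{0} (ZMod p) G → ℤ} (hf : IsAdditiveOnRep f)
    {L L' : Type} [AddCommGroup L] [AddCommGroup L']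
    [Module.Free ℤ L] [Module.Finite ℤ L] [Module.Free ℤ L'] [Module.Finite ℤ L']
    (ρ : Representation ℤ G L) (ρ' : Representation ℤ G L')
    (h : ∀ g, LinearMap.trace ℤ L (ρ g) = LinearMap.trace ℤ L' (ρ' g)) :
    f (redLattice p ρ) = f (redLattice p ρ') := by
  classical
  let V : Representation ℚ G (ℚ ⊗[ℤ] L) :=
    { toFun := fun g => (ρ g).baseChange ℚ
      map_one' := by rw [map_one]; exact LinearMap.baseChange_id
      map_mul' := fun g h => by rw [map_mul]; exact LinearMap.baseChange_comp _ _ }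
  let V' : Representation ℚ G (ℚ ⊗[ℤ] L') :=
    { toFun := fun g => (ρ' g).baseChange ℚ
      map_one' := by rw [map_one]; exact LinearMap.baseChange_id
      map_mul' := fun g h => by rw [map_mul]; exact LinearMap.baseChange_comp _ _ }
  obtain ⟨e, he⟩ := exists_equiv_of_character_eq V V' (funext fun g => by
    show LinearMap.trace ℚ _ ((ρ g).baseChange ℚ) = LinearMap.trace ℚ _ ((ρ' g).baseChange ℚ)
    rw [LinearMap.trace_baseChange, LinearMap.trace_baseChange, h])
  -- clear denominators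
  have clear : ∀ {A B : Type} [AddCommGroup A] [AddCommGroup B] [Module.Free ℤ A]
      [Module.Finite ℤ A] [Module.Free ℤ B] [Module.Finite ℤ B]
      (φ : ℚ ⊗[ℤ] A →ₗ[ℚ] ℚ ⊗[ℤ] B),
      ∃ N : ℕ, 0 < N ∧ ∃ u : A →ₗ[ℤ] B, ∀ x, (1 : ℚ) ⊗ₜ[ℤ] u x = (N : ℚ) • φ (1 ⊗ₜ x) := by
    intro A B _ _ _ _ _ _ φ
    let a := Module.Free.chooseBasis ℤ A
    let b := Module.Free.chooseBasis ℤ B
    let c := fun i j => (Algebra.TensorProduct.basis ℚ b).repr (φ (1 ⊗ₜ a i)) j
    let N := ∏ i, ∏ j, (c i j).den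
    have hN : ∀ i j, ∃ z : ℤ, (z : ℚ) = (N : ℚ) * c i j := fun i j => by
      obtain ⟨d, hd⟩ : (c i j).den ∣ N :=
        (Finset.dvd_prod_of_mem (fun j => (c i j).den) (Finset.mem_univ j)).trans
          (Finset.dvd_prod_of_mem (fun i => ∏ j, (c i j).den) (Finset.mem_univ i))
      refine ⟨(c i j).num * d, ?_⟩
      rw [hd]; push_cast
      conv_rhs => rw [mul_comm ((c i j).den : ℚ), mul_assoc, Rat.den_mul_eq_num]
      ring
    choose z hz using hN
    refine ⟨N, Finset.prod_pos fun i _ => Finset.prod_pos fun j _ => (c i j).den_pos,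
      a.constr ℤ fun i => ∑ j, z i j • b j, fun x => ?_⟩
    let u := a.constr ℤ fun i => ∑ j, z i j • b j
    have : (TensorProduct.mk ℤ ℚ B 1) ∘ₗ u
        = ((N : ℚ) • φ).restrictScalars ℤ ∘ₗ (TensorProduct.mk ℤ ℚ A 1) := by
      refine a.ext fun i => ?_
      refine (Algebra.TensorProduct.basis ℚ b).ext_elem fun j => ?_
      have : b.repr (u (a i)) j = z i j := by
        simp [u, map_sum, Finsupp.single_apply]
      show (Algebra.TensorProduct.basis ℚ b).repr ((1 : ℚ) ⊗ₜ[ℤ] u (a i)) j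
        = (Algebra.TensorProduct.basis ℚ b).repr ((N : ℚ) • φ (1 ⊗ₜ a i)) j
      rw [Algebra.TensorProduct.basis_repr_tmul, map_smul]
      simp [this, hz, c]
    exact LinearMap.congr_fun this x
  obtain ⟨N, hN, u, hu⟩ := clear e.toLinearMap
  obtain ⟨N', hN', v, hv⟩ := clear e.symm.toLinearMap
  have inj : ∀ {A : Type} [AddCommGroup A] [Module.Free ℤ A] [Module.Finite ℤ A] {x y : A},
      (1 : ℚ) ⊗ₜ[ℤ] x = 1 ⊗ₜ y → x = y := by
    intro A _ _ _ x y hxy
    let a := Module.Free.chooseBasis ℤ A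
    refine a.ext_elem fun i => ?_
    have := congrArg (fun t => (Algebra.TensorProduct.basis ℚ a).repr t i) hxy
    simpa [Algebra.TensorProduct.basis_repr_tmul] using this
  have sm : ∀ {A : Type} [AddCommGroup A] (n : ℕ) (x : A),
      (1 : ℚ) ⊗ₜ[ℤ] ((n : ℤ) • x) = (n : ℚ) • ((1 : ℚ) ⊗ₜ[ℤ] x) := by
    intro A _ n x
    rw [TensorProduct.tmul_smul, ← Int.cast_smul_eq_zsmul ℚ, Int.cast_natCast]
  have he' : ∀ g w, e.symm (V' g w) = V g (e.symm w) := fun g w => by
    apply e.injective; rw [he, LinearEquiv.apply_symm_apply, LinearEquiv.apply_symm_apply]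
  refine additive_red_eq_of_isogeny hf (N' * N) (Nat.mul_pos hN' hN) ρ ρ' u v ?_ ?_ ?_ ?_
  · intro g x
    apply inj
    rw [hu, ← LinearMap.baseChange_tmul (ρ' g), hu, map_smul,
      ← LinearMap.baseChange_tmul (ρ g)]
    exact congrArg _ (he g _)
  · intro g x
    apply inj
    rw [hv, ← LinearMap.baseChange_tmul (ρ g), hv, map_smul,
      ← LinearMap.baseChange_tmul (ρ' g)]
    exact congrArg _ (he' g _)
  · intro x
    apply inj
    rw [hv, hu, map_smul, LinearEquiv.coe_coe, LinearEquiv.coe_coe, LinearEquiv.symm_apply_apply,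
      smul_smul, sm, Nat.cast_mul]
  · intro x
    apply inj
    rw [hu, hv, map_smul, LinearEquiv.coe_coe, LinearEquiv.coe_coe, LinearEquiv.apply_symm_apply,
      smul_smul, sm, Nat.cast_mul, mul_comm]

end Fermat.Agent.CFT
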