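import Mathlib

/-!
# Balls in a finite extension of `ℚ_q`: value group, deep units, `p`-th powers
-/

set_option autoImplicit false

namespace Fermat.Agent.CFT.LocalUnitsBall

variable {q : ℕ} [hqF : Fact q.Prime] {L : Type*} [NormedField L] [hqA : NormedAlgebra ℚ_[q] L]
  [hqD : FiniteDimensional ℚ_[q] L]

lemma one_lt_q : (1 : ℝ) < q := by exact_mod_cast (Fact.out : q.Prime).one_lt

omit hqD in
include q hqF hqA in
lemma isUltrametric : IsUltrametricDist L := IsUltrametricDist.of_normedAlgebra ℚ_[q]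

/-- The norm of a non-zero element is `q` to a power in `(1/d)ℤ`. -/
theorem exists_norm_pow_eq_zpow {x : L} (hx : x ≠ 0) :
    ∃ z : ℤ, ‖x‖ ^ Module.finrank ℚ_[q] L = (q : ℝ) ^ z := by
  have hint : IsIntegral ℚ_[q] x := IsIntegral.of_finite _ x
  obtain ⟨k, hk⟩ := minpoly.degree_dvd hint
  have hc : (minpoly ℚ_[q] x).coeff 0 ≠ 0 := minpoly.coeff_zero_ne_zero hint hx
  obtain ⟨z, hz⟩ : ∃ z : ℤ, ‖(minpoly ℚ_[q] x).coeff 0‖ = (q : ℝ) ^ z :=
    ⟨_, Padic.norm_eq_zpow_neg_valuation hc⟩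
  refine ⟨z * k, ?_⟩
  rw [NormedAlgebra.norm_eq_spectralNorm ℚ_[q] x, spectralNorm.spectralNorm_eq_norm_coeff_zero_rpow, hk,
    one_div, pow_mul, Real.rpow_inv_natCast_pow (norm_nonneg _)
      (minpoly.natDegree_pos hint).ne', hz, ← zpow_natCast, ← zpow_mul]

/-- The normalised logarithm of the norm on `Lˣ`. -/
noncomputable def normLog : Additive Lˣ →+ ℤ :=
  AddMonoidHom.mk' (fun x => (exists_norm_pow_eq_zpow (q := q) (x.toMul).ne_zero).choose)
    fun x y => by
      have hq : (1 : ℝ) < q := one_lt_q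
      apply zpow_right_injective₀ (zero_lt_one.trans hq) hq.ne'
      dsimp only
      rw [zpow_add₀ (zero_lt_one.trans hq).ne',
        ← (exists_norm_pow_eq_zpow (q := q) ((x + y).toMul).ne_zero).choose_spec,
        ← (exists_norm_pow_eq_zpow (q := q) (x.toMul).ne_zero).choose_spec,
        ← (exists_norm_pow_eq_zpow (q := q) (y.toMul).ne_zero).choose_spec, toMul_add,
        Units.val_mul, norm_mul, mul_pow]

theorem normLog_spec (x : Additive Lˣ) :
    (q : ℝ) ^ normLog (q := q) x = ‖((x.toMul : Lˣ) : L)‖ ^ Module.finrank ℚ_[q] L :=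
  (exists_norm_pow_eq_zpow (q := q) (x.toMul).ne_zero).choose_spec.symm

theorem normLog_eq_zero_iff (x : Additive Lˣ) :
    normLog (q := q) x = 0 ↔ ‖((x.toMul : Lˣ) : L)‖ = 1 := by
  have hq : (1 : ℝ) < q := one_lt_q
  rw [← (zpow_right_injective₀ (zero_lt_one.trans hq) hq.ne').eq_iff, normLog_spec, zpow_zero,
    pow_eq_one_iff_of_nonneg (norm_nonneg _) Module.finrank_pos.ne']

theorem normLog_range_ne_bot : (normLog (q := q) (L := L)).range ≠ ⊥ := by
  intro h
  have hq0 : (q : L) ≠ 0 := by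
    rw [← map_natCast (algebraMap ℚ_[q] L), map_ne_zero]
    exact_mod_cast (Fact.out : q.Prime).ne_zero
  have : normLog (q := q) (Additive.ofMul (Units.mk0 (q : L) hq0)) = 0 := by
    have hm : normLog (q := q) (Additive.ofMul (Units.mk0 (q : L) hq0)) ∈
      (normLog (q := q) (L := L)).range := ⟨_, rfl⟩
    rw [h] at hm
    exact AddSubgroup.mem_bot.1 hm
  rw [normLog_eq_zero_iff, toMul_ofMul, Units.val_mk0, ← map_natCast (algebraMap ℚ_[q] L),
    norm_algebraMap', Padic.norm_p, inv_eq_one] at this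
  exact (one_lt_q (q := q)).ne' this

omit hqD in
include q hqF hqA in
lemma norm_natCast_le_one (n : ℕ) : ‖(n : L)‖ ≤ 1 := by
  rw [← map_natCast (algebraMap ℚ_[q] L), norm_algebraMap']
  exact_mod_cast Padic.norm_int_le_one (p := q) n

omit hqD in
/-- If `q ≠ p` then `p` has norm `1`, otherwise `q⁻¹`. -/
lemma norm_prime (p : ℕ) [Fact p.Prime] :
    ‖(p : L)‖ = (q : ℝ)⁻¹ ^ (if q = p then 1 else 0) := by
  rw [← map_natCast (algebraMap ℚ_[q] L), norm_algebraMap']
  split_ifs with h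
  · subst h; rw [Padic.norm_p, pow_one]
  · rw [pow_zero, Padic.norm_natCast_eq_one_iff]
    exact (Nat.coprime_primes Fact.out Fact.out).2 h

section Approx

variable (p : ℕ) [hp : Fact p.Prime] (r : ℝ)

include q hqF hqA hqD

/-- `(1+y)^p - (1+y')^p - p(y-y')` is small. -/
theorem norm_pow_sub_pow_sub_le (hr1 : r ≤ 1) {y y' : L} (hy : ‖y‖ ≤ r) (hy' : ‖y'‖ ≤ r) :
    ‖(1 + y) ^ p - (1 + y') ^ p - (p : L) * (y - y')‖ ≤ r * ‖y - y'‖ := by
  have := isUltrametric (q := q) (L := L)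
  have hr0 : 0 ≤ r := (norm_nonneg y).trans hy
  have key : ∀ z z' : L, (1 + z) ^ p - (1 + z') ^ p - (p : L) * (z - z') =
      ∑ k ∈ Finset.range (p - 1), (p.choose (k + 2) : L) * (z ^ (k + 2) - z' ^ (k + 2)) := by
    intro z z'
    obtain ⟨m, hm⟩ : ∃ m, p = m + 2 := ⟨p - 2, by have := hp.out.two_le; omega⟩
    subst hm
    rw [add_comm 1 z, add_comm 1 z', add_pow, add_pow, Finset.sum_range_succ' _ (m + 2),
      Finset.sum_range_succ' _ (m + 2), Finset.sum_range_succ' _ (m + 1),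
      Finset.sum_range_succ' _ (m + 1), show m + 2 - 1 = m + 1 by omega]
    simp only [zero_add, one_pow, mul_one, pow_zero, pow_one, Nat.choose_zero_right,
      Nat.choose_one_right, Nat.cast_one, mul_comm _ (Nat.cast _ : L), mul_sub,
      Finset.sum_sub_distrib, show ∀ k, k + 1 + 1 = k + 2 from fun _ => rfl]
    ring
  rw [key]
  refine IsUltrametricDist.norm_sum_le_of_forall_le_of_nonneg
    (mul_nonneg hr0 (norm_nonneg _)) fun k _ => ?_
  rw [norm_mul]
  refine (mul_le_of_le_one_left (norm_nonneg _) (norm_natCast_le_one (q := q) _)).trans ?_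
  have hsum : ‖∑ i ∈ Finset.range (k + 2), y ^ i * y' ^ (k + 2 - 1 - i)‖ ≤ r := by
    refine IsUltrametricDist.norm_sum_le_of_forall_le_of_nonneg hr0 fun i hi => ?_
    rw [Finset.mem_range] at hi
    rw [norm_mul, norm_pow, norm_pow]
    calc ‖y‖ ^ i * ‖y'‖ ^ (k + 2 - 1 - i) ≤ r ^ i * r ^ (k + 2 - 1 - i) := by gcongr
      _ = r ^ (k + 1) := by rw [← pow_add]; congr 1; omega
      _ ≤ r := by simpa using pow_le_pow_of_le_one hr0 hr1 (Nat.le_add_left 1 k)
  rw [← geom_sum₂_mul, norm_mul]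
  exact mul_le_mul_of_nonneg_right hsum (norm_nonneg _)

theorem norm_pow_sub_pow (hr : r < ‖(p : L)‖) {y y' : L} (hy : ‖y‖ ≤ r) (hy' : ‖y'‖ ≤ r) :
    ‖(1 + y) ^ p - (1 + y') ^ p‖ = ‖(p : L)‖ * ‖y - y'‖ := by
  have := isUltrametric (q := q) (L := L)
  rcases eq_or_ne y y' with rfl | hne
  · simp
  have h := norm_pow_sub_pow_sub_le (q := q) p r
    (hr.le.trans (norm_natCast_le_one (q := q) p)) hy hy'
  have hlt : ‖(1 + y) ^ p - (1 + y') ^ p - (p : L) * (y - y')‖ < ‖(p : L) * (y - y')‖ := by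
    rw [norm_mul]
    exact h.trans_lt (mul_lt_mul_of_pos_right hr (norm_pos_iff.2 (sub_ne_zero.2 hne)))
  calc ‖(1 + y) ^ p - (1 + y') ^ p‖
      = ‖((1 + y) ^ p - (1 + y') ^ p - (p : L) * (y - y')) + (p : L) * (y - y')‖ := by ring_nf
    _ = ‖(p : L) * (y - y')‖ := by
        rw [IsUltrametricDist.norm_add_eq_max_of_norm_ne_norm hlt.ne, max_eq_right hlt.le]
    _ = _ := norm_mul _ _

/-- Deep units are `p`-th powers of slightly less deep units. -/
theorem exists_pow_eq (hr : r < ‖(p : L)‖) {z : L} (hz : ‖z‖ ≤ ‖(p : L)‖ * r) :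
    ∃ y : L, ‖y‖ ≤ r ∧ (1 + y) ^ p = 1 + z := by
  have := isUltrametric (q := q) (L := L)
  have hpos : 0 < ‖(p : L)‖ := by
    rw [norm_prime (q := q) p]; exact pow_pos (inv_pos.2 (zero_lt_one.trans one_lt_q)) _
  have hr0 : 0 ≤ r := nonneg_of_mul_nonneg_right ((norm_nonneg z).trans hz) hpos
  have : CompleteSpace L := FiniteDimensional.complete ℚ_[q] L
  let B := Metric.closedBall (0 : L) r
  have hmaps : ∀ y ∈ B, y + ((1 + z) - (1 + y) ^ p) / (p : L) ∈ B := by
    intro y hy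
    rw [mem_closedBall_zero_iff] at hy ⊢
    refine (IsUltrametricDist.norm_add_le_max _ _).trans (max_le hy ?_)
    rw [norm_div, div_le_iff₀ hpos, mul_comm r,
      show (1 + z) - (1 + y) ^ p = z - ((1 + y) ^ p - (1 + 0) ^ p) by simp; ring]
    rw [sub_eq_add_neg z]
    refine (IsUltrametricDist.norm_add_le_max _ _).trans (max_le hz ?_)
    rw [norm_neg, norm_pow_sub_pow (q := q) p r hr hy (by simpa using hr0), sub_zero]
    gcongr
  let T : B → B := fun y => ⟨_, hmaps y y.2⟩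
  have : CompleteSpace B := Metric.isClosed_closedBall.completeSpace_coe
  have : Nonempty B := ⟨⟨0, by simpa [B] using hr0⟩⟩
  have hT : ContractingWith (Real.toNNReal (r / ‖(p : L)‖)) T := by
    refine ⟨by rw [Real.toNNReal_lt_one, div_lt_one hpos]; exact hr,
      LipschitzWith.of_dist_le_mul fun y y' => ?_⟩
    rw [Real.coe_toNNReal _ (div_nonneg hr0 hpos.le), Subtype.dist_eq, Subtype.dist_eq,
      dist_eq_norm, dist_eq_norm]
    have hp0 : (p : L) ≠ 0 := norm_pos_iff.1 hpos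
    have : ((T y : B) : L) - (T y' : B) =
        -((1 + (y : L)) ^ p - (1 + (y' : L)) ^ p - (p : L) * ((y : L) - y')) / (p : L) := by
      simp only [T]; field_simp; ring
    rw [this, norm_div, norm_neg, div_mul_eq_mul_div]
    gcongr
    exact norm_pow_sub_pow_sub_le (q := q) p r (hr.le.trans (norm_natCast_le_one (q := q) p))
      (mem_closedBall_zero_iff.1 y.2) (mem_closedBall_zero_iff.1 y'.2)
  refine ⟨(hT.fixedPoint T : B), mem_closedBall_zero_iff.1 (hT.fixedPoint T).2, ?_⟩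
  have h := congrArg Subtype.val hT.fixedPoint_isFixedPt
  simp only [T, add_eq_left, div_eq_zero_iff, norm_pos_iff.1 hpos, or_false, sub_eq_zero] at h
  exact h.symm

end Approx

end Fermat.Agent.CFT.LocalUnitsBall
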