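import Fermat.Agent.CFT.EquivariantCount
import Fermat.Agent.CFT.LocalUnitsBall

/-!
# `Hom_G(N, Lˣ/Lˣ^p)` for a finite extension `L` of `ℚ_q` and `G` of order prime to `p`

`G` acts faithfully on `L` by `ℚ_q`-algebra automorphisms, `K = L^G`.  Then
`|Hom_G(N, Lˣ/p)| = |Hom_G(N, μ_p(L))| * |Hom_G(N, ℤ/p)| * (|N|^[K:ℚ_q] if q = p)`.
-/

set_option autoImplicit false

namespace Fermat.Agent.CFT.LocalUnitsPhi

open EquivariantCount LocalUnitsBall

variable {q : ℕ} [hqF : Fact q.Prime] {L : Type*} [NormedField L] [hqA : NormedAlgebra ℚ_[q] L]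
  [hqD : FiniteDimensional ℚ_[q] L]
  {G : Type*} [Group G] [MulSemiringAction G L] [hqC : SMulCommClass G ℚ_[q] L]

include q hqF hqA hqD hqC in
lemma norm_smul_eq (g : G) (x : L) : ‖g • x‖ = ‖x‖ := by
  rw [NormedAlgebra.norm_eq_spectralNorm ℚ_[q] x, NormedAlgebra.norm_eq_spectralNorm ℚ_[q] (g • x)]
  exact (spectralNorm_eq_of_equiv (MulSemiringAction.toAlgEquiv ℚ_[q] L g) x).symm

variable (G L) in
/-- The action on the multiplicative group. -/
def unitsRep : Representation ℤ G (Additive Lˣ) where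
  toFun g := (Units.map (MulSemiringAction.toRingHom G L g).toMonoidHom).toAdditive.toIntLinearMap
  map_one' := by
    apply LinearMap.ext; intro x; apply Additive.toMul.injective; ext
    simp
  map_mul' g h := by
    apply LinearMap.ext; intro x; apply Additive.toMul.injective; ext
    simp [mul_smul]

omit hqF hqA hqD hqC in
@[simp] lemma unitsRep_coe (g : G) (x : Additive Lˣ) :
    (((unitsRep L G g x).toMul : Lˣ) : L) = g • ((x.toMul : Lˣ) : L) := by
  simp [unitsRep]

variable (L G) in
/-- The action on the additive group. -/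
def addRep : Representation ℤ G L where
  toFun g := (DistribSMul.toAddMonoidHom L g).toIntLinearMap
  map_one' := by apply LinearMap.ext; intro x; simp
  map_mul' g h := by apply LinearMap.ext; intro x; simp [mul_smul]

/-- The closed ball of radius `r` as an additive subgroup. -/
def ballAdd (q : ℕ) [Fact q.Prime] (L : Type*) [NormedField L] [NormedAlgebra ℚ_[q] L]
    [FiniteDimensional ℚ_[q] L] (r : ℝ) (hr : 0 ≤ r) : AddSubgroup L where
  carrier := {x | ‖x‖ ≤ r}
  zero_mem' := by simpa using hr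
  add_mem' {x y} hx hy := by
    have := isUltrametric (q := q) (L := L)
    exact (IsUltrametricDist.norm_add_le_max x y).trans (max_le hx hy)
  neg_mem' {x} hx := by simpa using hx

/-- The multiplicative ball `1 + B(0,r)` as a subgroup of `Additive Lˣ`. -/
def ballMul (q : ℕ) [Fact q.Prime] (L : Type*) [NormedField L] [NormedAlgebra ℚ_[q] L]
    [FiniteDimensional ℚ_[q] L] (r : ℝ) (hr0 : 0 ≤ r) (hr1 : r < 1) : AddSubgroup (Additive Lˣ) where
  carrier := {x | ‖((x.toMul : Lˣ) : L) - 1‖ ≤ r}
  zero_mem' := by simpa using hr0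
  add_mem' {x y} hx hy := by
    have := isUltrametric (q := q) (L := L)
    change ‖((x.toMul * y.toMul : Lˣ) : L) - 1‖ ≤ r
    have e : ((x.toMul * y.toMul : Lˣ) : L) - 1 = (((x.toMul : Lˣ) : L) - 1) *
        (((y.toMul : Lˣ) : L) - 1) + ((((x.toMul : Lˣ) : L) - 1) + (((y.toMul : Lˣ) : L) - 1)) := by
      push_cast; ring
    rw [e]
    refine (IsUltrametricDist.norm_add_le_max _ _).trans (max_le ?_
      ((IsUltrametricDist.norm_add_le_max _ _).trans (max_le hx hy)))
    rw [norm_mul]
    exact (mul_le_of_le_one_left (norm_nonneg _) (le_trans hx hr1.le)).trans hy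
  neg_mem' {x} hx := by
    change ‖((x.toMul⁻¹ : Lˣ) : L) - 1‖ ≤ r
    have h1 : ‖((x.toMul : Lˣ) : L)‖ = 1 := by
      have := isUltrametric (q := q) (L := L)
      have hlt : ‖((x.toMul : Lˣ) : L) - 1‖ < ‖(1 : L)‖ := by
        rw [norm_one]; exact lt_of_le_of_lt hx hr1
      calc ‖((x.toMul : Lˣ) : L)‖ = ‖(((x.toMul : Lˣ) : L) - 1) + 1‖ := by ring_nf
        _ = 1 := by rw [IsUltrametricDist.norm_add_eq_max_of_norm_ne_norm hlt.ne,
                        max_eq_right hlt.le, norm_one]
    have hne : ((x.toMul : Lˣ) : L) ≠ 0 := (x.toMul).ne_zero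
    have e : ((x.toMul⁻¹ : Lˣ) : L) - 1 =
        -((((x.toMul : Lˣ) : L) - 1) / ((x.toMul : Lˣ) : L)) := by
      rw [Units.val_inv_eq_inv_val]; field_simp; ring
    rw [e, norm_neg, norm_div, h1, div_one]
    exact hx

omit hqC in
lemma mem_ballMul {r : ℝ} {hr0 : 0 ≤ r} {hr1 : r < 1} {x : Additive Lˣ} :
    x ∈ ballMul q L r hr0 hr1 ↔ ‖((x.toMul : Lˣ) : L) - 1‖ ≤ r := Iff.rfl

omit hqC in
lemma mem_ballAdd {r : ℝ} {hr : 0 ≤ r} {x : L} : x ∈ ballAdd q L r hr ↔ ‖x‖ ≤ r := Iff.rfl

include q hqF hqA hqD in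
omit hqC in
/-- A bounded subgroup modulo a ball is finite. -/
lemma finite_of_bounded {X : Type*} [AddCommGroup X] (f : X → L) (S : AddSubgroup X) (R r : ℝ)
    (hr : 0 < r) (hf : ∀ x, ‖f x‖ ≤ R) (hS : ∀ x y, ‖f x - f y‖ ≤ r → x - y ∈ S) :
    Finite (X ⧸ S) := by
  have := isUltrametric (q := q) (L := L)
  have : ProperSpace L := FiniteDimensional.proper ℚ_[q] L
  obtain ⟨t, ht, hcover⟩ := Metric.totallyBounded_iff.1
    (isCompact_closedBall (0 : L) R).totallyBounded r hr
  have hc : ∀ x : X, ∃ y ∈ t, dist (f x) y < r := fun x => by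
    simpa using hcover (show f x ∈ Metric.closedBall (0 : L) R by simpa using hf x)
  choose c hct hcd using hc
  have : Finite t := ht.to_subtype
  refine Finite.of_injective (fun z : X ⧸ S => (⟨c z.out, hct _⟩ : t)) fun z z' h => ?_
  rw [Subtype.mk.injEq] at h
  rw [← z.out_eq, ← z'.out_eq]
  refine (QuotientAddGroup.eq.2 ?_).symm
  rw [neg_add_eq_sub]
  apply hS
  rw [← dist_eq_norm]
  exact (dist_triangle_max _ _ _).trans
    (max_le (hcd z.out).le (h ▸ dist_comm (f z'.out) _ ▸ (hcd z'.out).le))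

variable {p : ℕ} [hpF : Fact p.Prime] {N : Type*} [AddCommGroup N] [Module (ZMod p) N]
  (ν : Representation (ZMod p) G N)

omit hqC in
lemma subsingleton_eHom_of_torsionFree {A : Type*} [AddCommGroup A] (ρ : Representation ℤ G A)
    (h : ∀ a : A, p • a = 0 → a = 0) : Subsingleton (eHom ν ρ) :=
  ⟨fun f g => Subtype.ext (AddMonoidHom.ext fun n => by
    rw [h _ (nsmul_apply_eq_zero f.1 n), h _ (nsmul_apply_eq_zero g.1 n)])⟩

omit hqC in
/-- Transport of the count along an equivariant bijection. -/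
lemma card_eHom_congr {A B : Type*} [AddCommGroup A] [AddCommGroup B]
    (ρA : Representation ℤ G A) (ρB : Representation ℤ G B) (e : A →+ B)
    (he : Function.Bijective e) (hg : ∀ g a, e (ρA g a) = ρB g (e a)) :
    Nat.card (eHom ν ρA) = Nat.card (eHom ν ρB) := by
  refine Nat.card_eq_of_bijective (eHomMap ν ρA ρB e hg) ⟨fun f f' h => Subtype.ext
    (AddMonoidHom.ext fun m => he.1 (DFunLike.congr_fun (congrArg Subtype.val h) m)), fun f => ?_⟩
  refine ⟨⟨((AddEquiv.ofBijective e he).symm.toAddMonoidHom).comp f.1, fun g n => he.1 ?_⟩,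
    Subtype.ext (AddMonoidHom.ext fun n => AddEquiv.ofBijective_apply_symm_apply e he)⟩
  rw [hg]
  simp only [AddMonoidHom.comp_apply, AddEquiv.toAddMonoidHom_eq_coe, AddMonoidHom.coe_coe]
  rw [AddEquiv.ofBijective_apply_symm_apply, AddEquiv.ofBijective_apply_symm_apply,
    (mem_eHom ν).1 f.2]

variable [Fintype G] [Finite N]

omit hqC [Fintype G] in
/-- `phi` of the trivial module `ℤ`. -/
theorem phiIs_int : PhiIs ν (1 : Representation ℤ G ℤ)
    (Nat.card (eHom ν (1 : Representation ℤ G (ZMod p)))) := by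
  have := subsingleton_eHom_of_torsionFree ν (1 : Representation ℤ G ℤ)
    (fun a h => by simpa [(Fact.out : p.Prime).ne_zero] using h)
  let e : ModP p ℤ →+ ZMod p := QuotientAddGroup.lift _ (Int.castAddHom (ZMod p))
    fun x hx => by obtain ⟨b, rfl⟩ := mem_pMul.1 hx; simp
  have he : Function.Bijective e := by
    refine ⟨(injective_iff_map_eq_zero e).2 fun x hx => ?_, fun y =>
      ⟨((y.val : ℤ) : ModP p ℤ), by simp [e]⟩⟩
    induction x using QuotientAddGroup.induction_on with
    | _ a =>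
      rw [QuotientAddGroup.eq_zero_iff]
      obtain ⟨b, hb⟩ := (ZMod.intCast_zmod_eq_zero_iff_dvd a p).1 (by simpa [e] using hx)
      exact ⟨b, by simp [hb]⟩
  have hfin : Finite (ModP p ℤ) := Finite.of_injective e he.1
  refine ⟨inferInstance, inferInstance, ?_⟩
  rw [Nat.card_unique (α := eHom ν (1 : Representation ℤ G ℤ)), one_mul]
  refine card_eHom_congr ν _ _ e he fun g a => ?_
  induction a using QuotientAddGroup.induction_on with | _ a => simp

variable (p) in
omit hqC in
/-- A radius below the norm of `p` with room to spare. -/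
noncomputable def rad (q : ℕ) : ℝ := (q : ℝ)⁻¹ ^ 2

include q hqF hqA hqD in
omit hqC in
lemma rad_spec : 0 < rad q ∧ rad q < 1 ∧ rad q < ‖(p : L)‖ ∧ rad q * rad q ≤ ‖(p : L)‖ * rad q := by
  have h1 : (q : ℝ)⁻¹ < 1 := inv_lt_one_of_one_lt₀ one_lt_q
  have h0 : 0 < (q : ℝ)⁻¹ := inv_pos.2 (zero_lt_one.trans one_lt_q)
  have h2 : rad q < (q : ℝ)⁻¹ := by
    rw [rad, pow_two]; exact mul_lt_of_lt_one_left h0 h1
  have h3 : rad q < ‖(p : L)‖ := by
    rw [norm_prime (q := q) p]
    split_ifs
    · simpa using h2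
    · simpa using h2.trans h1
  exact ⟨pow_pos h0 2, h2.trans h1, h3, mul_le_mul_of_nonneg_right h3.le (pow_nonneg h0.le 2)⟩

omit [Fintype G] in
lemma ballMul_stable {r : ℝ} {hr0 : 0 ≤ r} {hr1 : r < 1} (g : G) (x : Additive Lˣ)
    (hx : x ∈ ballMul q L r hr0 hr1) : unitsRep L G g x ∈ ballMul q L r hr0 hr1 := by
  rw [mem_ballMul] at hx ⊢
  rwa [unitsRep_coe, show g • ((x.toMul : Lˣ) : L) - 1 = g • (((x.toMul : Lˣ) : L) - 1) by
    rw [smul_sub, smul_one], norm_smul_eq (q := q)]

omit [Fintype G] in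
lemma ballAdd_stable {r : ℝ} {hr : 0 ≤ r} (g : G) (x : L) (hx : x ∈ ballAdd q L r hr) :
    addRep L G g x ∈ ballAdd q L r hr := by
  rw [mem_ballAdd] at hx ⊢
  exact (norm_smul_eq (q := q) g x).trans_le hx

/-- The valuation step: `phi(Lˣ) = phi(deep units) * phi(ℤ)`. -/
theorem phiIs_units_of_ball (hG : ¬ p ∣ Fintype.card G) {r : ℝ} (hr0 : 0 < r) (hr1 : r < 1) {c : ℕ}
    (h : PhiIs ν (subRep (unitsRep L G) (ballMul q L r hr0.le hr1) ballMul_stable) c) :
    PhiIs ν (unitsRep L G) (c * Nat.card (eHom ν (1 : Representation ℤ G (ZMod p)))) := by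
  classical
  let w := normLog (q := q) (L := L)
  have hw : ∀ g x, w (unitsRep L G g x) = w x := fun g x => by
    have hq : (1 : ℝ) < q := one_lt_q
    apply zpow_right_injective₀ (zero_lt_one.trans hq) hq.ne'
    simp only [w, normLog_spec, unitsRep_coe, norm_smul_eq (q := q)]
  let W := w.ker
  have hW : ∀ g x, x ∈ W → unitsRep L G g x ∈ W := fun g x hx => by
    rw [AddMonoidHom.mem_ker] at hx ⊢; rwa [hw]
  have hone : ∀ x : W, ‖(((x : Additive Lˣ).toMul : Lˣ) : L)‖ = 1 := fun x =>
    (normLog_eq_zero_iff _).1 x.2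
  let U : AddSubgroup W := (ballMul q L r hr0.le hr1).addSubgroupOf W
  have hU : ∀ g x, x ∈ U → subRep (unitsRep L G) W hW g x ∈ U := fun g x hx =>
    ballMul_stable (q := q) (r := r) (hr0 := hr0.le) (hr1 := hr1) g x.1 hx
  have : Finite (W ⧸ U) := by
    refine finite_of_bounded (q := q) (fun x : W => (((x : Additive Lˣ).toMul : Lˣ) : L)) U 1 r hr0
      (fun x => (hone x).le) fun x y hxy => ?_
    rw [AddSubgroup.mem_addSubgroupOf, mem_ballMul]
    have e : (((x - y : W) : Additive Lˣ).toMul : L) - 1 =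
        ((((x : Additive Lˣ).toMul : Lˣ) : L) - (((y : Additive Lˣ).toMul : Lˣ) : L)) /
          (((y : Additive Lˣ).toMul : Lˣ) : L) := by
      rw [AddSubgroup.coe_sub, toMul_sub, Units.val_div_eq_div_val, sub_div,
        div_self (Units.ne_zero _)]
    rw [e, norm_div, hone, div_one]
    exact hxy
  have hb : ∀ x, x ∈ ballMul q L r hr0.le hr1 → x ∈ W := fun x hx => by
    rw [AddMonoidHom.mem_ker, normLog_eq_zero_iff]
    have := isUltrametric (q := q) (L := L)
    have hlt : ‖((x.toMul : Lˣ) : L) - 1‖ < ‖(1 : L)‖ := by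
      rw [norm_one]; exact lt_of_le_of_lt hx hr1
    calc ‖((x.toMul : Lˣ) : L)‖ = ‖(((x.toMul : Lˣ) : L) - 1) + 1‖ := by ring_nf
      _ = 1 := by rw [IsUltrametricDist.norm_add_eq_max_of_norm_ne_norm hlt.ne,
                      max_eq_right hlt.le, norm_one]
  have hW' : PhiIs ν (subRep (unitsRep L G) W hW) c := by
    refine (PhiIs.sub_iff ν (subRep (unitsRep L G) W hW) hG U hU c).1 ?_
    exact PhiIs.congr ν (subRep (unitsRep L G) (ballMul q L r hr0.le hr1) ballMul_stable)
      (subRep (subRep (unitsRep L G) W hW) U hU) hG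
      { toFun := fun x => ⟨⟨x.1, hb x.1 x.2⟩, x.2⟩
        invFun := fun x => ⟨x.1.1, x.2⟩
        left_inv := fun _ => rfl
        right_inv := fun _ => rfl
        map_add' := fun _ _ => rfl } (fun _ _ => rfl) h
  -- the image of the valuation
  have : Finite (ℤ ⧸ w.range) := by
    obtain ⟨a, ha⟩ := Int.subgroup_cyclic w.range
    rw [ha, ← AddSubgroup.zmultiples_eq_closure]
    have ha0 : a ≠ 0 := by
      rintro rfl
      exact normLog_range_ne_bot (q := q) (L := L) (ha.trans (by simp))
    have : NeZero a.natAbs := ⟨by simpa using ha0⟩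
    exact Finite.of_equiv _ (Int.quotientZMultiplesEquivZMod a).toEquiv.symm
  have hR := (PhiIs.sub_iff ν (1 : Representation ℤ G ℤ) hG w.range (fun g b hb => hb) _).2
    (phiIs_int ν)
  exact PhiIs.middle ν (subRep (unitsRep L G) W hW) (unitsRep L G)
    (subRep (1 : Representation ℤ G ℤ) w.range fun g b hb => hb) W.subtype w.rangeRestrict hG
    (fun g a => rfl) (fun g b => Subtype.ext (hw g b)) Subtype.val_injective
    w.rangeRestrict_surjective
    (fun b => ⟨fun hb => ⟨⟨b, congrArg Subtype.val hb⟩, rfl⟩, fun ⟨a, ha⟩ => ha ▸ Subtype.ext a.2⟩)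
    hW' hR

/-- Deep units and the additive ball have the same `phi`. -/
theorem phiIs_ball_transfer {r : ℝ} (hr0 : 0 < r) (hr1 : r < 1)
    (hrp : r < ‖(p : L)‖) {c : ℕ}
    (h : PhiIs ν (subRep (addRep L G) (ballAdd q L r hr0.le) ballAdd_stable) c) :
    PhiIs ν (subRep (unitsRep L G) (ballMul q L r hr0.le hr1) ballMul_stable) c := by
  have := isUltrametric (q := q) (L := L)
  set U := ballMul q L r hr0.le hr1
  set B := ballAdd q L r hr0.le
  obtain ⟨-, hB2, hB⟩ := h
  have hpne : (p : L) ≠ 0 := norm_pos_iff.1 (hr0.trans hrp)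
  have := subsingleton_eHom_of_torsionFree ν (subRep (addRep L G) B ballAdd_stable) fun a h => by
    have h' : (p : L) * (a : L) = 0 := by rw [← nsmul_eq_mul]; exact congrArg Subtype.val h
    exact Subtype.ext ((mul_eq_zero.1 h').resolve_left hpne)
  have hTU := subsingleton_eHom_of_torsionFree ν (subRep (unitsRep L G) U ballMul_stable) fun a h => by
    have h' : (((a : Additive Lˣ).toMul : Lˣ) : L) ^ p = 1 := by
      have h1 := congrArg (fun y : Additive Lˣ => ((y.toMul : Lˣ) : L)) (congrArg Subtype.val h)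
      simpa using h1
    have h2 := norm_pow_sub_pow (q := q) p r hrp (y := (((a : Additive Lˣ).toMul : Lˣ) : L) - 1)
      (y' := 0) (mem_ballMul.1 a.2) (by simpa using hr0.le)
    rw [add_sub_cancel, h', add_zero, one_pow, sub_self, norm_zero, sub_zero, eq_comm,
      mul_eq_zero, norm_eq_zero, norm_eq_zero, or_iff_right hpne, sub_eq_zero] at h2
    exact Subtype.ext (Additive.toMul.injective (Units.ext h2))
  let θ : U →+ ModP p B := AddMonoidHom.mk'
    (fun x => ((⟨(((x : Additive Lˣ).toMul : Lˣ) : L) - 1, x.2⟩ : B) : ModP p B)) fun x y => by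
      rw [← QuotientAddGroup.mk_add, ← sub_eq_zero, ← QuotientAddGroup.mk_sub,
        QuotientAddGroup.eq_zero_iff]
      set u := (((x : Additive Lˣ).toMul : Lˣ) : L)
      set v := (((y : Additive Lˣ).toMul : Lˣ) : L)
      refine ⟨⟨(u - 1) * (v - 1) / (p : L), ?_⟩, Subtype.ext ?_⟩
      · rw [mem_ballAdd, norm_div, norm_mul, div_le_iff₀ (hr0.trans hrp)]
        exact mul_le_mul (mem_ballMul.1 x.2) ((mem_ballMul.1 y.2).trans hrp.le) (norm_nonneg _) hr0.le
      · change p • ((u - 1) * (v - 1) / (p : L)) = (((x : Additive Lˣ).toMul * (y : Additive Lˣ).toMul : Lˣ) : L) - 1 - ((u - 1) + (v - 1))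
        rw [nsmul_eq_mul, mul_div_cancel₀ _ hpne, Units.val_mul]
        ring
  let e : ModP p U →+ ModP p B := QuotientAddGroup.lift _ θ fun x hx => by
    obtain ⟨z, rfl⟩ := mem_pMul.1 hx
    rw [AddMonoidHom.mem_ker, map_nsmul, modP_nsmul_eq_zero]
  have he : Function.Bijective e := by
    refine ⟨(injective_iff_map_eq_zero e).2 fun x hx => ?_, fun y => ?_⟩
    · induction x using QuotientAddGroup.induction_on with
      | _ x =>
        rw [QuotientAddGroup.eq_zero_iff]
        obtain ⟨z, hz⟩ := mem_pMul.1 ((QuotientAddGroup.eq_zero_iff _).1 (show θ x = 0 from hx))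
        have hz' : (p : L) * (z : L) = (((x : Additive Lˣ).toMul : Lˣ) : L) - 1 := by
          rw [← nsmul_eq_mul]; exact congrArg Subtype.val hz
        obtain ⟨y, hy, hy'⟩ := exists_pow_eq (q := q) p r hrp
          (z := (((x : Additive Lˣ).toMul : Lˣ) : L) - 1)
          (by rw [← hz', norm_mul]; exact mul_le_mul_of_nonneg_left z.2 (norm_nonneg _))
        rw [add_sub_cancel] at hy'
        have hy0 : 1 + y ≠ 0 := fun h0 => by
          rw [h0, zero_pow (Fact.out : p.Prime).ne_zero] at hy'
          exact Units.ne_zero _ hy'.symm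
        refine ⟨⟨Additive.ofMul (Units.mk0 (1 + y) hy0), ?_⟩, ?_⟩
        · rw [mem_ballMul]; simpa using hy
        · apply Subtype.ext; apply Additive.toMul.injective; ext
          simpa using hy'
    · obtain ⟨b, rfl⟩ := QuotientAddGroup.mk_surjective y
      have hb0 : 1 + (b : L) ≠ 0 := fun h0 => by
        have : (b : L) = -1 := by linear_combination h0
        have := mem_ballAdd.1 b.2
        rw [‹(b : L) = -1›, norm_neg, norm_one] at this
        exact this.not_gt hr1
      refine ⟨((⟨Additive.ofMul (Units.mk0 (1 + (b : L)) hb0), ?_⟩ : U) : ModP p U), ?_⟩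
      · rw [mem_ballMul]; simpa using mem_ballAdd.1 b.2
      · change ((⟨_, _⟩ : B) : ModP p B) = b
        congr 1
        exact Subtype.ext (by simp)
  have heq : ∀ g a, e (modPRep p (subRep (unitsRep L G) U ballMul_stable) g a) =
      modPRep p (subRep (addRep L G) B ballAdd_stable) g (e a) := fun g a => by
    induction a using QuotientAddGroup.induction_on with
    | _ a =>
      change θ (subRep (unitsRep L G) U ballMul_stable g a) = _
      refine congrArg (fun b : B => (b : ModP p B)) (Subtype.ext ?_)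
      change (((unitsRep L G g (a : Additive Lˣ)).toMul : Lˣ) : L) - 1 = g • (_ - 1)
      rw [unitsRep_coe, smul_sub, smul_one]
  have hcard := card_eHom_congr ν _ (modPRep p (subRep (addRep L G) B ballAdd_stable)) e he heq
  refine ⟨inferInstance, ?_, ?_⟩
  · refine Finite.of_injective (eHomMap ν _ _ e heq) fun f f' h => Subtype.ext
      (AddMonoidHom.ext fun m => he.1 (DFunLike.congr_fun (congrArg Subtype.val h) m))
  · rw [hcard, hB, Nat.card_unique, Nat.card_unique]

/-- A `ℚ_q`-basis of `L` freely permuted by `G`, in the ball of radius `r`. -/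
theorem exists_basis_free_orbit [FaithfulSMul G L] {r : ℝ} (hr : 0 < r) :
    ∃ (d : ℕ) (b : Module.Basis (Fin d × G) ℚ_[q] L),
      d * Fintype.card G = Module.finrank ℚ_[q] L ∧
      (∀ j g h, g • b (j, h) = b (j, g * h)) ∧ ∀ i, ‖b i‖ ≤ r := by
  classical
  let K := FixedPoints.subfield G L
  have hmem : ∀ c : ℚ_[q], algebraMap ℚ_[q] L c ∈ K := fun c g => by
    rw [Algebra.algebraMap_eq_smul_one, smul_comm, smul_one]
  let : Algebra ℚ_[q] K := ((algebraMap ℚ_[q] L).codRestrict K hmem).toAlgebra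
  have htower : IsScalarTower ℚ_[q] K L := IsScalarTower.of_algebraMap_eq fun _ => rfl
  have : IsGalois K L := ⟨⟩
  have : FiniteDimensional ℚ_[q] K := FiniteDimensional.left ℚ_[q] K L
  let e := FixedPoints.toAlgAutMulEquiv G L
  let bG : Module.Basis G K L := (IsGalois.normalBasis K L).reindex e.toEquiv.symm
  have hbG : ∀ g h, g • bG h = bG (g * h) := fun g h => by
    simp only [bG, Module.Basis.reindex_apply, Equiv.symm_symm]
    change g • IsGalois.normalBasis K L (e h) = IsGalois.normalBasis K L (e (g * h))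
    rw [map_mul, IsGalois.normalBasis_apply (e g * e h), IsGalois.normalBasis_apply (e h),
      AlgEquiv.mul_apply]
    rfl
  let bK := Module.finBasis ℚ_[q] K
  let b₀ := bK.smulTower bG
  have hb₀ : ∀ j g h, g • b₀ (j, h) = b₀ (j, g * h) := fun j g h => by
    simp only [b₀, Module.Basis.smulTower_apply, ← hbG]
    rw [Subfield.smul_def, Subfield.smul_def, smul_eq_mul, smul_eq_mul, smul_mul']
    congr 1
    exact (bK j).2 g
  have : Fintype (Fin (Module.finrank ℚ_[q] K) × G) := inferInstance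
  obtain ⟨m, hm⟩ : ∃ m : ℕ, ∀ i, ‖b₀ i‖ * (q : ℝ)⁻¹ ^ m ≤ r := by
    have h1 : (q : ℝ)⁻¹ < 1 := inv_lt_one_of_one_lt₀ one_lt_q
    have hS : 0 ≤ ∑ i, ‖b₀ i‖ := Finset.sum_nonneg fun i _ => norm_nonneg _
    obtain ⟨m, hm⟩ := exists_pow_lt_of_lt_one (div_pos hr (by positivity : 0 < (∑ i, ‖b₀ i‖) + 1)) h1
    refine ⟨m, fun i => ?_⟩
    rw [lt_div_iff₀ (by positivity), mul_comm] at hm
    refine le_trans ?_ hm.le
    gcongr
    exact (Finset.single_le_sum (fun i _ => norm_nonneg (b₀ i)) (Finset.mem_univ i)).trans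
      (le_add_of_nonneg_right zero_le_one)
  have hu : IsUnit ((q : ℚ_[q]) ^ m) := by
    rw [isUnit_iff_ne_zero]; exact pow_ne_zero _ (by exact_mod_cast (Fact.out : q.Prime).ne_zero)
  refine ⟨_, b₀.isUnitSMul (fun _ => hu), ?_, fun j g h => ?_, fun i => ?_⟩
  · rw [← Module.finrank_mul_finrank ℚ_[q] K L, FixedPoints.finrank_eq_card G L]
  · rw [Module.Basis.isUnitSMul_apply, Module.Basis.isUnitSMul_apply, smul_comm, hb₀]
  · rw [Module.Basis.isUnitSMul_apply, norm_smul, norm_pow, Padic.norm_p, mul_comm]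
    exact hm i

variable (G) in
/-- The free permutation module `(J × G → ℤ_q)`. -/
noncomputable def permRep (q : ℕ) [Fact q.Prime] (J : Type*) : Representation ℤ G (J × G → ℤ_[q]) where
  toFun g := (AddMonoidHom.mk' (fun a i => a (i.1, g⁻¹ * i.2)) fun _ _ => rfl).toIntLinearMap
  map_one' := by apply LinearMap.ext; intro a; funext i; simp
  map_mul' g h := by apply LinearMap.ext; intro a; funext i; simp [mul_assoc]

variable (q) in
omit hqA hqD hqC [MulSemiringAction G L] in
/-- `phi` of the free permutation module. -/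
theorem phiIs_perm (J : Type*) [Fintype J] :
    PhiIs ν (permRep G q J)
      (if q = p then Nat.card N ^ Fintype.card J else 1) := by
  classical
  have := subsingleton_eHom_of_torsionFree ν (permRep G q J) fun a h => funext fun i => by
    have h' := congrFun h i
    rw [Pi.smul_apply, nsmul_eq_mul, Pi.zero_apply, mul_eq_zero] at h'
    exact h'.resolve_left (Nat.cast_ne_zero.2 (Fact.out : p.Prime).ne_zero)
  rw [PhiIs, Nat.card_unique (α := eHom ν (permRep G q J)), one_mul]
  refine ⟨inferInstance, ?_⟩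
  by_cases hqp : q = p
  · subst hqp
    let red : ModP q (J × G → ℤ_[q]) →+ (J × G → ZMod q) := QuotientAddGroup.lift _
      (AddMonoidHom.pi fun i => (PadicInt.toZMod.toAddMonoidHom).comp (Pi.evalAddMonoidHom _ i))
      fun x hx => by
        obtain ⟨y, rfl⟩ := mem_pMul.1 hx
        rw [AddMonoidHom.mem_ker]; funext i; simp [AddMonoidHom.pi]
    have hred : Function.Bijective red := by
      refine ⟨(injective_iff_map_eq_zero red).2 fun x hx => ?_, fun y =>
        ⟨((fun i => ((y i).val : ℤ_[q])) : J × G → ℤ_[q]), funext fun i => by simp [red, AddMonoidHom.pi]⟩⟩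
      induction x using QuotientAddGroup.induction_on with
      | _ x =>
        rw [QuotientAddGroup.eq_zero_iff]
        have h : ∀ i, (q : ℤ_[q]) ∣ x i := fun i => by
          rw [← Ideal.mem_span_singleton, ← PadicInt.maximalIdeal_eq_span_p,
            ← PadicInt.ker_toZMod, RingHom.mem_ker]
          simpa [red, AddMonoidHom.pi] using congrFun hx i
        choose y hy using h
        exact ⟨y, funext fun i => by rw [nsmulAddMonoidHom_apply, Pi.smul_apply, nsmul_eq_mul]; exact (hy i).symm⟩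
    have hfin : Finite (ModP q (J × G → ℤ_[q])) := Finite.of_injective red hred.1
    refine ⟨inferInstance, ?_⟩
    have hG' : ∀ g x i, red (modPRep q (permRep G q J) g x) i = red x (i.1, g⁻¹ * i.2) := fun g x i => by
      induction x using QuotientAddGroup.induction_on with | _ x => rfl
    let T : eHom ν (modPRep q (permRep G q J)) → (J → N →+ ZMod q) := fun f j =>
      ((Pi.evalAddMonoidHom _ (j, (1 : G))).comp red).comp f.1
    have hT : Function.Bijective T := by
      constructor
      · intro f f' h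
        apply Subtype.ext; ext n; apply hred.1; funext i
        have hf := fun (f : eHom ν (modPRep q (permRep G q J))) => show
            red (f.1 n) i = T f i.1 (ν i.2⁻¹ n) by
          change red (f.1 n) i = red (f.1 (ν i.2⁻¹ n)) (i.1, 1)
          rw [(mem_eHom ν).1 f.2, hG']; simp
        rw [hf f, hf f', h]
      · intro φ
        let E := AddEquiv.ofBijective red hred
        let pre : N →+ (J × G → ZMod q) :=
          AddMonoidHom.pi fun i => (φ i.1).comp (ν i.2⁻¹).toAddMonoidHom
        refine ⟨⟨E.symm.toAddMonoidHom.comp pre, fun g n => hred.1 (funext fun i => ?_)⟩, ?_⟩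
        · rw [hG']
          simp only [AddMonoidHom.comp_apply, AddEquiv.toAddMonoidHom_eq_coe, AddMonoidHom.coe_coe,
            E, AddEquiv.ofBijective_apply_symm_apply]
          simp [pre, AddMonoidHom.pi, ← Module.End.mul_apply, ← map_mul]
        · funext j; apply AddMonoidHom.ext; intro n
          change red (E.symm (pre n)) (j, 1) = φ j n
          rw [AddEquiv.ofBijective_apply_symm_apply red hred]
          simp [pre, AddMonoidHom.pi]
    rw [Nat.card_eq_of_bijective T hT, Nat.card_fun, Nat.card_eq_fintype_card (α := J), if_pos rfl]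
    congr 1
    have : FiniteDimensional (ZMod q) N := Module.Finite.of_finite
    calc Nat.card (N →+ ZMod q) = Nat.card (Module.Dual (ZMod q) N) :=
          Nat.card_congr ⟨fun f => f.toZModLinearMap q, fun f => f.toAddMonoidHom,
            fun _ => rfl, fun _ => rfl⟩
      _ = Nat.card N := by
          rw [Module.natCard_eq_pow_finrank (K := ZMod q),
            Module.natCard_eq_pow_finrank (K := ZMod q) (V := N), Subspace.dual_finrank_eq]
  · have hu : IsUnit (p : ℤ_[q]) := by
      rw [PadicInt.isUnit_iff, PadicInt.norm_natCast_eq_one_iff]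
      exact (Nat.coprime_primes Fact.out Fact.out).2 hqp
    have : Subsingleton (ModP p (J × G → ℤ_[q])) := subsingleton_of_forall_eq 0 fun x => by
      induction x using QuotientAddGroup.induction_on with
      | _ x =>
        rw [QuotientAddGroup.eq_zero_iff]
        obtain ⟨u, hu⟩ := hu
        exact ⟨fun i => (↑u⁻¹ : ℤ_[q]) * x i, funext fun i => by
          rw [nsmulAddMonoidHom_apply, Pi.smul_apply, nsmul_eq_mul, ← hu, Units.mul_inv_cancel_left]⟩
    have : Subsingleton (eHom ν (modPRep p (permRep G q J))) :=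
      ⟨fun a b => Subtype.ext (AddMonoidHom.ext fun n => Subsingleton.elim _ _)⟩
    refine ⟨inferInstance, ?_⟩
    rw [if_neg hqp, Nat.card_unique]

include hqC in
/-- `phi` of the additive ball. -/
theorem phiIs_ballAdd [FaithfulSMul G L] (hG : ¬ p ∣ Fintype.card G) {r : ℝ} (hr : 0 < r) :
    PhiIs ν (subRep (addRep L G) (ballAdd q L r hr.le) ballAdd_stable)
      (if q = p then Nat.card N ^ (Module.finrank ℚ_[q] L / Fintype.card G) else 1) := by
  classical
  have := isUltrametric (q := q) (L := L)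
  obtain ⟨d, b, hd, hperm, hb⟩ := exists_basis_free_orbit (q := q) (L := L) (G := G) hr
  rw [← hd, Nat.mul_div_cancel _ Fintype.card_pos, ← Fintype.card_fin d]
  let f₀ : (Fin d × G → ℤ_[q]) →+ L := AddMonoidHom.mk' (fun a => ∑ i, (a i : ℚ_[q]) • b i)
    fun a a' => by simp [add_smul, Finset.sum_add_distrib]
  have hf₀ : ∀ a, ‖f₀ a‖ ≤ r := fun a =>
    IsUltrametricDist.norm_sum_le_of_forall_le_of_nonneg hr.le fun i _ => by
      rw [norm_smul]
      exact (mul_le_of_le_one_left (norm_nonneg _) (a i).2).trans (hb i)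
  let f : (Fin d × G → ℤ_[q]) →+ ballAdd q L r hr.le := f₀.codRestrict _ hf₀
  have hrepr : ∀ a i, b.repr (f₀ a) i = (a i : ℚ_[q]) := fun a i => by
    simp [f₀, Finsupp.single_apply]
  have hinj : Function.Injective f := fun a a' h => funext fun i => by
    have := congrArg (fun x : ballAdd q L r hr.le => b.repr (x : L) i) h
    change b.repr (f₀ a) i = b.repr (f₀ a') i at this
    exact Subtype.ext (by simpa [hrepr] using this)
  have hequiv : ∀ g a, f (permRep G q (Fin d) g a) = subRep (addRep L G) _ ballAdd_stable g (f a) := by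
    intro g a
    apply Subtype.ext
    change ∑ i : Fin d × G, (a (i.1, g⁻¹ * i.2) : ℚ_[q]) • b i =
      g • ∑ i : Fin d × G, (a i : ℚ_[q]) • b i
    rw [Finset.smul_sum]
    refine Fintype.sum_equiv ((Equiv.refl (Fin d)).prodCongr (Equiv.mulLeft g⁻¹)) _ _ fun i => ?_
    rw [smul_comm g]
    simp [hperm, Prod.map]
  -- the image has finite index
  let T : L →L[ℚ_[q]] (Fin d × G → ℚ_[q]) :=
    LinearMap.toContinuousLinearMap b.equivFun.toLinearMap
  have hfinite : Finite (ballAdd q L r hr.le ⧸ f.range) := by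
    refine finite_of_bounded (q := q) Subtype.val f.range r (1 / (‖T‖ + 1))
      (by positivity) (fun x => x.2) fun x y hxy => ?_
    have hle : ∀ i, ‖b.repr ((x : L) - y) i‖ ≤ 1 := fun i => by
      calc ‖b.repr ((x : L) - y) i‖ ≤ ‖T ((x : L) - y)‖ := norm_le_pi_norm (T ((x : L) - y)) i
        _ ≤ ‖T‖ * (1 / (‖T‖ + 1)) := (T.le_opNorm _).trans (by gcongr)
        _ ≤ 1 := by rw [mul_one_div, div_le_one (by positivity)]; linarith [norm_nonneg T]
    exact ⟨fun i => ⟨_, hle i⟩, Subtype.ext (b.sum_repr _)⟩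
  have hrange : ∀ g x, x ∈ f.range → subRep (addRep L G) _ ballAdd_stable g x ∈ f.range := by
    rintro g _ ⟨a, rfl⟩
    exact ⟨_, hequiv g a⟩
  refine (PhiIs.sub_iff ν (subRep (addRep L G) _ ballAdd_stable) hG f.range hrange _).1 ?_
  exact PhiIs.congr ν (permRep G q (Fin d))
    (subRep (subRep (addRep L G) _ ballAdd_stable) f.range hrange) hG
    (AddMonoidHom.ofInjective hinj) (fun g a => Subtype.ext (hequiv g a))
    (phiIs_perm q ν (Fin d))

/-- **The local count**: `|Hom_G(N, Lˣ/p)|` for `p ∤ |G|`, where `[K:ℚ_q] = [L:ℚ_q]/|G|`. -/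
theorem phiIs_unitsRep [FaithfulSMul G L] (hG : ¬ p ∣ Fintype.card G) :
    PhiIs ν (unitsRep L G)
      ((if q = p then Nat.card N ^ (Module.finrank ℚ_[q] L / Fintype.card G) else 1) *
        Nat.card (eHom ν (1 : Representation ℤ G (ZMod p)))) := by
  obtain ⟨h0, h1, h2, -⟩ := rad_spec (q := q) (L := L) (p := p)
  exact phiIs_units_of_ball ν hG h0 h1
    (phiIs_ball_transfer ν h0 h1 h2 (phiIs_ballAdd ν hG h0))

end Fermat.Agent.CFT.LocalUnitsPhi
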