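import Fermat.Agent.CFT.HerbrandPerm
import Fermat.Agent.CFT.HerbrandMap
import Fermat.Agent.CFT.Actions

/-!
# The Herbrand quotient of the units of a cyclic extension of number fields

Artin's system of units: for a cyclic `L/K` of degree `n`, the Herbrand quotient of `(𝓞 L)ˣ` is
`(∏_{v ∣ ∞} n_v) / n`.
-/

namespace Fermat.Agent.CFT

open NumberField HerbrandPair
open scoped Classical

variable {K L : Type*} [Field K] [Field L] [NumberField L] [Algebra K L]

/-- `mult w * log w u`. -/
noncomputable def logPlace (w : InfinitePlace L) : Additive (𝓞 L)ˣ →+ ℝ :=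
  AddMonoidHom.mk' (fun u => (w.mult : ℝ) * Real.log (w ((u.toMul : (𝓞 L)ˣ) : L))) fun u v => by
    rw [toMul_add, Units.coe_mul, map_mul, Real.log_mul (Units.pos_at_place _ _).ne'
      (Units.pos_at_place _ _).ne', mul_add]

lemma sum_logPlace (u : Additive (𝓞 L)ˣ) : ∑ w, logPlace w u = 0 :=
  Units.sum_mult_mul_log u.toMul

omit [NumberField L] in
lemma logPlace_smul (g : Gal(L/K)) (w : InfinitePlace L) (u : Additive (𝓞 L)ˣ) :
    logPlace w (g • u) = logPlace (g⁻¹ • w) u := by
  show (w.mult : ℝ) * _ = ((g⁻¹ • w).mult : ℝ) * _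
  rw [InfinitePlace.smul_apply]
  congr 2
  simp only [InfinitePlace.mult, InfinitePlace.isReal_smul_iff]

lemma smul_zsmul_eq {G A : Type*} [Monoid G] [AddCommGroup A] [DistribMulAction G A] (g : G)
    (m : ℤ) (a : A) : g • (m • a) = m • g • a :=
  map_zsmul (smulEnd A g) m a

variable (K) in
/-- A chosen unit attached to a representative `w`, invariant under the stabiliser of `w`. -/
noncomputable def stabUnit (w : InfinitePlace L) [Fintype Gal(L/K)] : Additive (𝓞 L)ˣ :=
  ∑ g ∈ Finset.univ.filter (fun g : Gal(L/K) => g • w = w),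
    g • Additive.ofMul (Units.dirichletUnitTheorem.exists_unit L w).choose

lemma smul_stabUnit [Fintype Gal(L/K)] (w : InfinitePlace L) {h : Gal(L/K)}
    (hh : h • w = w) : h • stabUnit K w = stabUnit K w := by
  rw [stabUnit, Finset.smul_sum]
  refine Finset.sum_equiv (Equiv.mulLeft h) (fun g => ?_) fun g _ => by rw [smul_smul]; rfl
  simp only [Finset.mem_filter, Finset.mem_univ, true_and, Equiv.coe_mulLeft, mul_smul]
  constructor
  · intro e; rw [e, hh]
  · intro e
    exact MulAction.injective h (e.trans hh.symm)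

lemma logPlace_stabUnit_neg [Fintype Gal(L/K)] {g : Gal(L/K)} {w w' : InfinitePlace L}
    (h : w' ≠ g • w) : logPlace w' (g • stabUnit K w) < 0 := by
  rw [stabUnit, Finset.smul_sum, map_sum]
  refine Finset.sum_neg (fun x hx => ?_) ⟨1, by simp⟩
  rw [logPlace_smul, logPlace_smul]
  have hxw : x • w = w := (Finset.mem_filter.1 hx).2
  have hw : x⁻¹ • g⁻¹ • w' ≠ w := fun e => h (by
    rw [inv_smul_eq_iff, hxw, inv_smul_eq_iff] at e
    exact e)
  refine mul_neg_of_pos_of_neg (by exact_mod_cast InfinitePlace.mult_pos) ?_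
  exact (Units.dirichletUnitTheorem.exists_unit L w).choose_spec _ hw

section kernel

variable {G X : Type*} [Fintype X]

/-- Positivity of kernel vectors of a matrix with negative off-diagonal entries and zero column
sums. -/
lemma forall_pos_of_ker (M : X → X → ℝ) (hneg : ∀ w' w, w' ≠ w → M w' w < 0)
    (hsum : ∀ w, ∑ w', M w' w = 0) (c : X → ℤ) (hc : ∀ w', ∑ w, (c w : ℝ) * M w' w = 0)
    {x : X} (hx : 0 < c x) (y : X) : 0 < c y := by
  by_contra hy
  push Not at hy
  set P := Finset.univ.filter fun w => 0 < c w with hP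
  have hxP : x ∈ P := by simpa [hP] using hx
  have h0 : ∑ w, (c w : ℝ) * ∑ w' ∈ P, M w' w = 0 := by
    simp_rw [Finset.mul_sum]
    rw [Finset.sum_comm]
    exact Finset.sum_eq_zero fun w' _ => hc w'
  have hcompl : ∀ w, ∑ w' ∈ P, M w' w = -∑ w' ∈ Pᶜ, M w' w := fun w => by
    rw [eq_neg_iff_add_eq_zero, Finset.sum_add_sum_compl, hsum]
  refine h0.not_gt (Finset.sum_pos' (fun w _ => ?_) ⟨x, Finset.mem_univ _, ?_⟩)
  · rcases lt_or_ge 0 (c w) with hw | hw
    · rw [hcompl]
      refine mul_nonneg (by exact_mod_cast hw.le) (neg_nonneg.2 (Finset.sum_nonpos fun w' hw' => ?_))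
      exact (hneg _ _ fun e => by simp [hP, e] at hw'; omega).le
    · refine mul_nonneg_of_nonpos_of_nonpos (by exact_mod_cast hw) (Finset.sum_nonpos fun w' hw' => ?_)
      exact (hneg _ _ fun e => by simp [hP, e] at hw'; omega).le
  · rw [hcompl]
    refine mul_pos (by exact_mod_cast hx) (neg_pos.2 (Finset.sum_neg (fun w' hw' => ?_)
      ⟨y, by simp [hP, hy]⟩))
    exact hneg _ _ fun e => by simp [hP, e] at hw'; omega

/-- Two kernel vectors of such a matrix are proportional. -/
lemma ker_proportional (M : X → X → ℝ) (hneg : ∀ w' w, w' ≠ w → M w' w < 0)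
    (hsum : ∀ w, ∑ w', M w' w = 0) (c d : X → ℤ) (hc : ∀ w', ∑ w, (c w : ℝ) * M w' w = 0)
    (hd : ∀ w', ∑ w, (d w : ℝ) * M w' w = 0) (x y : X) : d x * c y = c x * d y := by
  set e : X → ℤ := fun w => d x * c w - c x * d w
  have he : ∀ w', ∑ w, (e w : ℝ) * M w' w = 0 := fun w' => by
    simp [e, sub_mul, mul_assoc, Finset.sum_sub_distrib, ← Finset.mul_sum, hc, hd]
  have hex : e x = 0 := by simp [e, mul_comm]
  rcases lt_trichotomy (e y) 0 with h | h | h
  · have := forall_pos_of_ker M hneg hsum (fun w => -e w) (fun w' => by simp [he w'])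
      (x := y) (by simpa using h) x
    omega
  · exact sub_eq_zero.1 h
  · have := forall_pos_of_ker M hneg hsum e he h x
    omega

end kernel

variable [IsGalois K L]

/-- The finite-place-free part of the product of local degrees: `∏_{v ∣ ∞} n_v`. -/
noncomputable def infDegProd (K L : Type*) [Field K] [Field L] [Algebra K L] : ℕ :=
  ∏ᶠ v : InfinitePlace K, if v.IsUnramifiedIn L then 1 else 2

/-- Herbrand quotient of the units: `(∏_{v ∣ ∞} n_v) / n`. -/
theorem hasQ_units [NumberField K] (s : Gal(L/K)) (hs : ∀ g, g ∈ Subgroup.zpowers s) :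
    (actPair (Additive (𝓞 L)ˣ) s).HasQ ((infDegProd K L : ℚ) / Module.finrank K L) := by
  have hn : orderOf s = Module.finrank K L := by
    rw [orderOf_eq_card_of_forall_mem_zpowers hs, IsGalois.card_aut_eq_finrank]
  let r : MulAction.orbitRel.Quotient Gal(L/K) (InfinitePlace L) → InfinitePlace L := Quotient.out
  have hr : ∀ o, Quotient.mk'' (r o) = o := Quotient.out_eq
  choose γ hγ using fun w : InfinitePlace L =>
    (show ∃ g : Gal(L/K), g • r (Quotient.mk'' w) = w by
      obtain ⟨g, hg⟩ := Quotient.eq''.1 (hr (Quotient.mk'' w))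
      exact ⟨g⁻¹, by rw [← hg, inv_smul_smul]⟩)
  set ε : InfinitePlace L → Additive (𝓞 L)ˣ :=
    fun w => γ w • stabUnit K (r (Quotient.mk'' w)) with hε
  have hεsmul : ∀ (g : Gal(L/K)) w, g • ε w = ε (g • w) := by
    intro g w
    have hq : (Quotient.mk'' (g • w) : MulAction.orbitRel.Quotient Gal(L/K) (InfinitePlace L))
        = Quotient.mk'' w := Quotient.sound' ⟨g, rfl⟩
    have hγ' := hγ (g • w)
    rw [hq] at hγ'
    simp only [hε, hq, smul_smul]
    rw [show g * γ w = γ (g • w) * ((γ (g • w))⁻¹ * (g * γ w)) by group, mul_smul,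
      smul_stabUnit]
    rw [mul_smul, mul_smul, hγ, inv_smul_eq_iff, hγ']
  let Φ : PermMod Gal(L/K) (InfinitePlace L) →+ Additive (𝓞 L)ˣ :=
    AddMonoidHom.mk' (fun c => ∑ w, c.toFun w • ε w) fun c d => by
      simp only [PermMod.add_apply, add_zsmul, Finset.sum_add_distrib]
  have hΦ : ∀ (g : Gal(L/K)) c, Φ (g • c) = g • Φ c := by
    intro g c
    show ∑ w, c.toFun (g⁻¹ • w) • ε w = g • ∑ w, c.toFun w • ε w
    rw [Finset.smul_sum, ← Equiv.sum_comp (MulAction.toPerm g)]
    refine Finset.sum_congr rfl fun w _ => ?_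
    rw [MulAction.toPerm_apply, inv_smul_smul, smul_zsmul_eq, hεsmul]
  set M : InfinitePlace L → InfinitePlace L → ℝ := fun w' w => logPlace w' (ε w)
  have hneg : ∀ w' w, w' ≠ w → M w' w < 0 := fun w' w h =>
    logPlace_stabUnit_neg (by rwa [hγ])
  have hsum : ∀ w, ∑ w', M w' w = 0 := fun w => sum_logPlace _
  have hker : ∀ c, Φ c = 0 → ∀ w', ∑ w, (c.toFun w : ℝ) * M w' w = 0 := by
    intro c hc w'
    have := congrArg (logPlace w') hc
    simpa [Φ, M, map_sum, map_zsmul] using this
  have hprop : ∀ c d, Φ c = 0 → Φ d = 0 → ∀ x y, d.toFun x * c.toFun y = c.toFun x * d.toFun y :=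
    fun c d hc hd => ker_proportional M hneg hsum _ _ (hker c hc) (hker d hd)
  -- Ranks
  let eLin : PermMod Gal(L/K) (InfinitePlace L) ≃ₗ[ℤ] (InfinitePlace L → ℤ) :=
    ({ PermMod.equivFun with map_add' := fun _ _ => rfl } : _ ≃+ _).toIntLinearEquiv
  have := Module.Finite.equiv eLin.symm
  have := Module.Free.of_equiv eLin.symm
  have hfr : Module.finrank ℤ (PermMod Gal(L/K) (InfinitePlace L))
      = Fintype.card (InfinitePlace L) := by
    rw [eLin.finrank_eq, Module.finrank_fintype_fun_eq_card]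
  let w₀ : InfinitePlace L := Classical.arbitrary _
  let ev : Φ.ker →+ ℤ := (PermMod.applyHom w₀).comp Φ.ker.subtype
  -- nonzero kernel
  have hne : ∃ c, Φ c = 0 ∧ c ≠ 0 := by
    by_contra h
    push Not at h
    have hinj : Function.Injective Φ.toIntLinearMap :=
      (injective_iff_map_eq_zero _).2 h
    have := LinearMap.finrank_le_finrank_of_injective hinj
    rw [hfr, Units.finrank_eq, Units.rank] at this
    have : 0 < Fintype.card (InfinitePlace L) := Fintype.card_pos
    omega
  have hev : Function.Injective ev := by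
    refine (injective_iff_map_eq_zero _).2 fun c hc => ?_
    obtain ⟨c₀, hc₀, hc₀ne⟩ := hne
    have hc' : c.1.toFun w₀ = 0 := hc
    have h0 : c₀.toFun w₀ ≠ 0 := by
      intro h0
      refine hc₀ne (PermMod.ext' fun y => ?_)
      by_contra hy
      rcases lt_or_gt_of_ne hy with hy | hy
      · have := forall_pos_of_ker M hneg hsum (fun w => -c₀.toFun w)
          (fun w' => by simp [hker c₀ hc₀ w']) (x := y) (by simpa using hy) w₀
        omega
      · have := forall_pos_of_ker M hneg hsum _ (hker c₀ hc₀) hy w₀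
        omega
    refine Subtype.ext (PermMod.ext' fun y => ?_)
    have := hprop c₀ c.1 hc₀ c.2 w₀ y
    rw [hc', zero_mul] at this
    exact (mul_eq_zero.1 this.symm).resolve_left h0
  obtain ⟨a, ha⟩ := Int.subgroup_cyclic ev.range
  obtain ⟨c₁, hc₁⟩ : a ∈ ev.range := by rw [ha]; exact AddSubgroup.subset_closure rfl
  have ha0 : a ≠ 0 := by
    rintro rfl
    obtain ⟨c₀, hc₀, hc₀ne⟩ := hne
    have : ev ⟨c₀, hc₀⟩ ∈ AddSubgroup.closure {(0 : ℤ)} := ha ▸ ⟨_, rfl⟩
    rw [AddSubgroup.closure_singleton_zero, AddSubgroup.mem_bot] at this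
    exact hc₀ne (congrArg Subtype.val (hev (this.trans (map_zero ev).symm)))
  let ι : ℤ →+ PermMod Gal(L/K) (InfinitePlace L) := zmultiplesHom _ c₁.1
  have hι : Function.Injective ι := by
    refine (injective_iff_map_eq_zero _).2 fun m hm => ?_
    have : m * a = 0 := by
      rw [← hc₁, ← smul_eq_mul, ← map_zsmul]
      show (PermMod.applyHom w₀) (ι m) = 0
      rw [hm, map_zero]
    exact (mul_eq_zero.1 this).resolve_right ha0
  have hexact : ∀ c, Φ c = 0 ↔ ∃ m, ι m = c := by
    refine fun c => ⟨fun hc => ?_, ?_⟩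
    · have : ev ⟨c, hc⟩ ∈ AddSubgroup.closure {a} := ha ▸ ⟨_, rfl⟩
      obtain ⟨m, hm⟩ := AddSubgroup.mem_closure_singleton.1 this
      exact ⟨m, congrArg Subtype.val (hev (a₁ := m • c₁) (a₂ := ⟨c, hc⟩)
        (by rw [map_zsmul, hc₁, hm]))⟩
    · rintro ⟨m, rfl⟩
      show Φ (m • c₁.1) = 0
      rw [map_zsmul, show Φ c₁.1 = 0 from c₁.2, smul_zero]
  -- kernel vectors are invariant
  have hfix : s • c₁.1 = c₁.1 := by
    have hsc : Φ (s • c₁.1) = 0 := by rw [hΦ, show Φ c₁.1 = 0 from c₁.2, smul_zero]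
    refine PermMod.ext' fun x => ?_
    have h1 : ∑ y, (s • c₁.1).toFun x * c₁.1.toFun y = ∑ y, c₁.1.toFun x * (s • c₁.1).toFun y :=
      Finset.sum_congr rfl fun y _ => hprop _ _ c₁.2 hsc x y
    rw [← Finset.mul_sum, ← Finset.mul_sum,
      show ∑ y, (s • c₁.1).toFun y = ∑ y, c₁.1.toFun y from
        Equiv.sum_comp (MulAction.toPerm s⁻¹) c₁.1.toFun] at h1
    refine mul_right_cancel₀ ?_ h1
    have hev1 : c₁.1.toFun w₀ = a := hc₁
    rcases lt_or_gt_of_ne ha0 with h | h
    · refine (Finset.sum_neg (fun y _ => ?_) Finset.univ_nonempty).ne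
      have := forall_pos_of_ker M hneg hsum (fun w => -c₁.1.toFun w)
        (fun w' => by simp [hker c₁.1 c₁.2 w']) (x := w₀) (by omega) y
      omega
    · exact (Finset.sum_pos (fun y _ => forall_pos_of_ker M hneg hsum _ (hker c₁.1 c₁.2)
        (x := w₀) (by omega) y) Finset.univ_nonempty).ne'
  have hιhom : Hom (trivPair ℤ (orderOf s)) (actPair (PermMod Gal(L/K) (InfinitePlace L)) s) ι :=
    cycPair_hom _ _ ι fun m => by
      show m • c₁.1 = s • (m • c₁.1)
      rw [smul_zsmul_eq, hfix]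
  -- finite cokernel
  have hfin : Finite (Additive (𝓞 L)ˣ ⧸ Φ.range) := by
    have hkr : Module.finrank ℤ Φ.toIntLinearMap.ker = 1 := by
      have e : ℤ ≃ₗ[ℤ] Φ.toIntLinearMap.ker :=
        LinearEquiv.ofBijective (ι.toIntLinearMap.codRestrict _ fun m => (hexact _).2 ⟨m, rfl⟩)
          ⟨fun x y h => hι (congrArg Subtype.val h), fun c => by
            obtain ⟨m, hm⟩ := (hexact c.1).1 c.2
            exact ⟨m, Subtype.ext hm⟩⟩
      rw [← e.finrank_eq, Module.finrank_self]
    have h1 := Submodule.finrank_quotient_add_finrank Φ.toIntLinearMap.ker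
    rw [hkr, Φ.toIntLinearMap.quotKerEquivRange.finrank_eq, hfr] at h1
    have h2 := Submodule.finrank_quotient_add_finrank Φ.toIntLinearMap.range
    rw [Units.finrank_eq, Units.rank] at h2
    have : 0 < Fintype.card (InfinitePlace L) := Fintype.card_pos
    have h0 : Module.finrank ℤ (Additive (𝓞 L)ˣ ⧸ Φ.toIntLinearMap.range) = 0 := by omega
    have := Module.finite_of_fg_torsion (Additive (𝓞 L)ˣ ⧸ Φ.toIntLinearMap.range)
      (Module.finrank_eq_zero_iff_isTorsion.1 h0)
    exact this
  have hmain := (actPair_hom (s := s) (hΦ s)).hasQ_of_finite_coker hι hιhom hexact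
    (hasQ_permMod s hs r hr) (hasQ_trivPair_int (orderOf_pos s).ne')
  refine hmain.of_eq _ ?_
  rw [hn]
  congr 2
  unfold infDegProd
  refine (finprod_eq_of_bijective InfinitePlace.orbitRelEquiv
    InfinitePlace.orbitRelEquiv.bijective fun o => ?_)
  obtain ⟨w, rfl⟩ := Quotient.exists_rep o
  rw [show InfinitePlace.orbitRelEquiv (k := K) ⟦w⟧ = w.comap (algebraMap K L) from rfl]
  obtain ⟨g, hg⟩ := Quotient.eq''.1 (hr (Quotient.mk'' w))
  rw [show r ⟦w⟧ = g • w from hg.symm]
  split_ifs with h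
  · rw [InfinitePlace.isUnramifiedIn_comap, ← InfinitePlace.isUnramified_smul_iff (σ := g)] at h
    exact InfinitePlace.isUnramified_iff_card_stabilizer_eq_one.1 h
  · rw [InfinitePlace.isUnramifiedIn_comap, ← InfinitePlace.isUnramified_smul_iff (σ := g)] at h
    exact InfinitePlace.not_isUnramified_iff_card_stabilizer_eq_two.1 h

end Fermat.Agent.CFT
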